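/-
Classes modulo `p ^ k` whose Kummer functions reduce to powers on both components, and the
statement about them that implies ordinarity at a prime exactly dividing the level.
-/
import Fermat.Agent.GalRep.Semistable.Killer
import Fermat.Agent.GalRep.Cyclo

set_option autoImplicit false
set_option linter.unusedSectionVars false

noncomputable section

namespace Fermat.Agent.GalRep.Ordinary

open UpperHalfPlane CongruenceSubgroup
open Fermat.Agent.Galois (GQ)
open Fermat.Agent.GalRep.Semistable (Wf)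
open scoped MatrixGroups

local notation "ℚb" => AlgebraicClosure ℚ
local notation "κ" A:max => IsLocalRing.ResidueField A

variable (A : ValuationSubring (AlgebraicClosure ℚ))

/-- The series in `q` of `G` is, up to a constant, congruent to an `n`-th power. -/
def PowRedInf (n : ℕ) (G : ℍ → ℂ) : Prop :=
  ∃ (a : LaurentSeries ℚb) (c : ℚb) (Φ : LaurentSeries (κ A)), c ≠ 0 ∧ Φ ≠ 0 ∧
    HasQSeries 1 G (seriesToC a) ∧ HasRed A (HahnSeries.C c * a) (Φ ^ n)

variable {A}

theorem PowRedInf.one {n : ℕ} : PowRedInf A n 1 := by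
  refine ⟨1, 1, 1, one_ne_zero, one_ne_zero, ?_, ?_⟩
  · rw [seriesToC_eq_lmap, map_one]
    exact HasQSeries.one 1
  · rw [map_one, one_mul, one_pow]
    exact HasRed.one

theorem PowRedInf.mul {n : ℕ} {G H : ℍ → ℂ} (hG : PowRedInf A n G) (hH : PowRedInf A n H) :
    PowRedInf A n (G * H) := by
  obtain ⟨a, c, Φ, hc, hΦ, ha, ra⟩ := hG
  obtain ⟨b, d, Ψ, hd, hΨ, hb, rb⟩ := hH
  refine ⟨a * b, c * d, Φ * Ψ, mul_ne_zero hc hd, mul_ne_zero hΦ hΨ, ?_, ?_⟩
  · rw [seriesToC_eq_lmap, map_mul, ← seriesToC_eq_lmap, ← seriesToC_eq_lmap]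
    exact ha.mul hb
  · rw [mul_pow, map_mul, mul_mul_mul_comm]
    exact ra.mul rb

variable (A) (p m : ℕ) [Fact p.Prime] [NeZero p] [NeZero m]

/-- `F` is congruent to powers on both components. -/
def PowRedBoth (n : ℕ) (F : ℍ → ℂ) : Prop :=
  PowRedInf A n (F ^ n) ∧
    ∀ g : SL(2, ℤ), g 1 0 = m ∧ g 1 1 = p → PowRedInf A n (Wf p g F ^ n)

/-- The classes of level `pm` modulo `n` with a Kummer function congruent to `n`-th powers on both
components. -/
def powKer (n : ℕ) [NeZero n] : AddSubgroup (ParHom (p * m) (ZMod n)) :=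
  let s : AddSubmonoid (ParHom (p * m) (ZMod n)) :=
    { carrier := {χ | ∃ F, IsKummerRep (p * m) n χ F ∧ PowRedBoth A p m n F}
      zero_mem' := by
        refine ⟨1, IsKummerRep.one, ?_, fun g _ => ?_⟩
        · rw [one_pow]; exact PowRedInf.one
        · rw [show Wf p g (1 : ℍ → ℂ) = 1 from rfl, one_pow]; exact PowRedInf.one
      add_mem' := by
        rintro χ χ' ⟨F, hF, h1, h2⟩ ⟨F', hF', h1', h2'⟩
        refine ⟨F * F', hF.mul hF', ?_, fun g hg => ?_⟩
        · rw [mul_pow]; exact h1.mul h1'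
        · rw [Semistable.Wf_mul, mul_pow]; exact (h2 g hg).mul (h2' g hg) }
  { s with
    neg_mem' := fun {χ} h => by
      rw [neg_eq_of_add_eq_zero_right (add_pred_nsmul_eq_zero χ)]
      exact s.nsmul_mem h _ }


theorem mem_powKer {n : ℕ} [NeZero n] {χ : ParHom (p * m) (ZMod n)} :
    χ ∈ powKer A p m n ↔ ∃ F, IsKummerRep (p * m) n χ F ∧ PowRedBoth A p m n F :=
  Iff.rfl

variable {A p m}

/-- The action of the group ring on classes modulo `p`. -/
def ringAct (N : ℕ) [NeZero N] : MonoidAlgebra ℤ GQ →ₐ[ℤ] Module.End ℤ (ParHom N (ZMod p)) :=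
  MonoidAlgebra.lift ℤ (Module.End ℤ (ParHom N (ZMod p))) GQ (kummerGalois N p).galois

/-- The Teichmüller exponent: `ω σ` as a natural number. -/
def omegaNat (σ : GQ) : ℕ := (PadicInt.toZMod (cyc p σ : ℤ_[p])).val

variable (A p m)

/-- A Galois stable group of classes modulo `p` on which inertia acts as on an ordinary residual
representation, with the two eigenspaces of an element of inertia exchanged by the group ring. -/
structure IsOrdModule (M : AddSubgroup (ParHom (p * m) (ZMod p))) : Prop where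
  stable : ∀ g : GQ, ∀ x ∈ M, (kummerGalois (p * m) p).galois g x ∈ M
  quad : ∀ σ ∈ A.inertiaSubgroupIn ℚ, ∀ τ ∈ A.inertiaSubgroupIn ℚ, ∀ x ∈ M,
    (kummerGalois (p * m) p).galois σ ((kummerGalois (p * m) p).galois τ x - x) =
      omegaNat (p := p) σ • ((kummerGalois (p * m) p).galois τ x - x)
  exchange : ∀ σ ∈ A.inertiaSubgroupIn ℚ, PadicInt.toZMod (cyc p σ : ℤ_[p]) ≠ 1 →
    ∃ X Y : MonoidAlgebra ℤ GQ, ∀ x ∈ M,
      ((kummerGalois (p * m) p).galois σ x = x →
        (kummerGalois (p * m) p).galois σ (ringAct (p * m) X x) =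
            omegaNat (p := p) σ • ringAct (p * m) X x ∧
          ringAct (p * m) Y (ringAct (p * m) X x) = x) ∧
      ((kummerGalois (p * m) p).galois σ x = omegaNat (p := p) σ • x →
        (kummerGalois (p * m) p).galois σ (ringAct (p * m) Y x) = ringAct (p * m) Y x ∧
          ringAct (p * m) X (ringAct (p * m) Y x) = x)

/-- No such group of classes is congruent to powers on both components. -/
def NoOrdInKer : Prop :=
  ∀ A : ValuationSubring (AlgebraicClosure ℚ), A.LiesOverPrime p →
    ∀ M : AddSubgroup (ParHom (p * m) (ZMod p)), IsOrdModule A p m M →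
      M ≤ powKer A p m p → M = ⊥

end Fermat.Agent.GalRep.Ordinary
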