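/-
Classes modulo a power of the residue characteristic whose reductions, at infinity and after the
Atkin-Lehner translate, are powers: a subgroup stable under decomposition and Hecke operators,
containing the inertia differences.
-/
import Fermat.Agent.GalRep.Semistable.Killer
import Fermat.Agent.GalRep.Semistable.RepTools
import Fermat.Agent.GalRep.Ordinary.Input
import Fermat.Agent.GalRep.Model.BaseField

set_option autoImplicit false
set_option linter.style.haveILetI false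
set_option linter.unusedSectionVars false

noncomputable section

namespace Fermat.Agent.GalRep.Ordinary

open UpperHalfPlane CongruenceSubgroup
open Fermat.Agent.Galois (GQ)
open Fermat.Agent.GalRep.Level
open Fermat.Agent.GalRep.Semistable
open Fermat.Agent.ModField (conjM)
open scoped MatrixGroups Manifold

local notation "ℚb" => AlgebraicClosure ℚ
local notation "κ" A:max => IsLocalRing.ResidueField A

variable {A : ValuationSubring (AlgebraicClosure ℚ)}

/-! ## Series -/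

theorem expand_series_C {K : Type} [Field K] (a : ℕ) (ha : a ≠ 0) (c : K) :
    expand a ha (HahnSeries.C c) = HahnSeries.C c := by
  ext m
  by_cases hm : (a : ℤ) ∣ m
  · obtain ⟨j, rfl⟩ := hm
    rw [expand_coeff_mul]
    rcases eq_or_ne j 0 with rfl | hj <;> simp [*]
  · rw [expand_coeff_of_not_dvd _ _ _ _ hm]
    rcases eq_or_ne m 0 with rfl | hm0
    · exact absurd (dvd_zero _) hm
    · simp [*]

theorem twist_series_C {K : Type} [Field K] (z : Kˣ) (c : K) :
    twist z (HahnSeries.C c) = HahnSeries.C c := by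
  ext m
  rcases eq_or_ne m 0 with rfl | hm <;> simp [*]

theorem eq_C_mul_of_hasRed {a : LaurentSeries ℚb} {t : ℚb} {X Y : LaurentSeries (κ A)}
    (ha : HasRed A a X) (hX : X ≠ 0) (hta : HasRed A (HahnSeries.C t * a) Y) :
    ∃ u : κ A, Y = HahnSeries.C u * X := by
  obtain ⟨i, hi⟩ : ∃ i, X.coeff i ≠ 0 := by
    by_contra h
    push Not at h
    exact hX (HahnSeries.ext (funext h))
  obtain ⟨h1, e1⟩ := ha i
  have hu : IsUnit (⟨a.coeff i, h1⟩ : A) := by
    rw [← IsLocalRing.notMem_maximalIdeal, ← IsLocalRing.residue_eq_zero_iff, e1]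
    exact hi
  obtain ⟨v, hv⟩ := hu.exists_right_inv
  have h2 := (hta i).1
  rw [HahnSeries.C_mul_eq_smul, HahnSeries.coeff_smul, smul_eq_mul] at h2
  have hv' : a.coeff i * (v : ℚb) = 1 := congrArg Subtype.val hv
  have ht : t ∈ A := by
    have := mul_mem h2 v.2
    rwa [mul_assoc, hv', mul_one] at this
  exact ⟨_, hasRed_unique hta ((hasRed_C ht).mul ha)⟩

/-- A scalar multiple of an `n`-th power reduces to an `n`-th power. -/
theorem exists_root_of_hasRed {a : LaurentSeries ℚb} {c s : ℚb} {X Y : LaurentSeries (κ A)}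
    {n : ℕ} (hn : 0 < n) (hc : c ≠ 0) (hX : HasRed A (HahnSeries.C c * a) X) (hX0 : X ≠ 0)
    (hY : HasRed A (HahnSeries.C s * a ^ n) Y) : ∃ Ψ, Y = Ψ ^ n := by
  haveI := Model.residue_isAlgClosed A
  have e : HahnSeries.C s * a ^ n =
      HahnSeries.C (s / c ^ n) * (HahnSeries.C c * a) ^ n := by
    rw [mul_pow, ← map_pow, ← mul_assoc, ← map_mul, div_mul_cancel₀ _ (pow_ne_zero n hc)]
  rw [e] at hY
  obtain ⟨u, rfl⟩ := eq_C_mul_of_hasRed (hX.pow n) (pow_ne_zero n hX0) hY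
  obtain ⟨w, rfl⟩ := IsAlgClosed.exists_pow_nat_eq u hn
  exact ⟨HahnSeries.C w * X, by rw [mul_pow, map_pow]⟩

/-- In characteristic `p` a series is a `p ^ k`-th power if its expansion at `Q ^ ℓ` is. -/
theorem exists_root_of_expand {K : Type} [Field K] [IsAlgClosed K] {p : ℕ} [Fact p.Prime]
    [CharP K p] {ℓ : ℕ} (hℓ : ℓ ≠ 0) (hpℓ : ¬ p ∣ ℓ) :
    ∀ (k : ℕ) (X Ψ : LaurentSeries K), expand ℓ hℓ X = Ψ ^ p ^ k → ∃ Y, X = Y ^ p ^ k := by
  have hp : p.Prime := Fact.out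
  intro k
  induction k with
  | zero => exact fun X _ _ => ⟨X, by rw [pow_zero, pow_one]⟩
  | succ k ih =>
    intro X Ψ hX
    rw [pow_succ, pow_mul] at hX
    have hdiv : ∀ j : ℤ, ¬ (p : ℤ) ∣ j → X.coeff j = 0 := fun j hj => by
      rw [← expand_coeff_mul ℓ hℓ X j, hX, pow_char_eq_expand, expand_coeff_of_not_dvd]
      intro h
      refine hj ((Int.isCoprime_iff_gcd_eq_one.mpr ?_).dvd_of_dvd_mul_left h)
      rw [Int.gcd_natCast_natCast]
      exact (hp.coprime_iff_not_dvd.mpr hpℓ)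
    choose y hy using fun i : ℤ => IsAlgClosed.exists_pow_nat_eq (X.coeff ((p : ℤ) * i)) hp.pos
    let Z : LaurentSeries K := HahnSeries.ofSuppBddBelow y ⟨min X.order 0, fun i hi => by
      by_contra hlt
      rw [not_le, lt_min_iff] at hlt
      refine hi ((pow_eq_zero_iff hp.ne_zero).mp
        ((hy i).trans (HahnSeries.coeff_eq_zero_of_lt_order ?_)))
      have : (1 : ℤ) ≤ p := by exact_mod_cast hp.one_le
      nlinarith⟩
    have hZ : Z ^ p = X := by
      ext j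
      rw [pow_char_eq_expand]
      by_cases hj : (p : ℤ) ∣ j
      · obtain ⟨i, rfl⟩ := hj
        rw [expand_coeff_mul, lmap_coeff, frobenius_def]
        exact hy i
      · rw [expand_coeff_of_not_dvd _ _ _ _ hj, hdiv j hj]
    rw [← hZ, map_pow] at hX
    haveI : CharP (LaurentSeries K) p :=
      (RingHom.charP_iff (HahnSeries.C : K →+* LaurentSeries K) HahnSeries.C_injective p).mp ‹_›
    obtain ⟨Y, hY⟩ := ih Z Ψ (frobenius_inj (LaurentSeries K) p hX)
    exact ⟨Y, by rw [pow_succ, pow_mul, ← hY, hZ]⟩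

/-! ## Representatives -/

section Rep

variable {N n : ℕ} [NeZero N] [NeZero n]

/-- The class has a representative whose `n`-th power has, up to a constant, the `n`-th power of a
nonzero series in `q` as reduction at infinity. -/
def HasPowRep (A : ValuationSubring (AlgebraicClosure ℚ)) (χ : ParHom N (ZMod n)) : Prop :=
  ∃ (F : ℍ → ℂ) (f : LaurentSeries ℚb) (r : ℚb) (Φ : LaurentSeries (κ A)),
    IsKummerRep N n χ F ∧ HasQSeries 1 F (seriesToC f) ∧ r ≠ 0 ∧ Φ ≠ 0 ∧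
      HasRed A (HahnSeries.C r * f ^ n) (Φ ^ n)

theorem hasPowRep_zero : HasPowRep A (0 : ParHom N (ZMod n)) :=
  ⟨1, 1, 1, 1, IsKummerRep.one, by rw [seriesToC_eq_lmap, map_one]; exact HasQSeries.const 1 1,
    one_ne_zero, one_ne_zero, by rw [map_one, one_mul, one_pow, one_pow]; exact HasRed.one⟩

theorem HasPowRep.add {χ χ' : ParHom N (ZMod n)} (h : HasPowRep A χ) (h' : HasPowRep A χ') :
    HasPowRep A (χ + χ') := by
  obtain ⟨F, f, r, Φ, hF, hf, hr, hΦ, hred⟩ := h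
  obtain ⟨F', f', r', Φ', hF', hf', hr', hΦ', hred'⟩ := h'
  refine ⟨F * F', f * f', r * r', Φ * Φ', hF.mul hF', hasQSeries_mul_seriesToC hf hf',
    mul_ne_zero hr hr', mul_ne_zero hΦ hΦ', ?_⟩
  rw [map_mul, mul_pow, mul_pow, mul_mul_mul_comm]
  exact hred.mul hred'

theorem HasPowRep.nsmul {χ : ParHom N (ZMod n)} (h : HasPowRep A χ) :
    ∀ j : ℕ, HasPowRep A (j • χ)
  | 0 => by rw [zero_smul]; exact hasPowRep_zero
  | j + 1 => by rw [succ_nsmul]; exact (h.nsmul j).add h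

variable {p : ℕ} [Fact p.Prime] (hA : A.LiesOverPrime p)

include hA

/-- The power of an algebraic representative can be normalised at infinity. -/
theorem exists_normalisation {χ : ParHom N (ZMod n)} {F : ℍ → ℂ} {f : LaurentSeries ℚb}
    (hF : IsKummerRep N n χ F) (hf : HasQSeries 1 F (seriesToC f)) :
    ∃ (c : ℚb) (X : LaurentSeries (κ A)), c ≠ 0 ∧ X ≠ 0 ∧
      HasRed A (HahnSeries.C c * f ^ n) X := by
  set φ := powMF (isLevel_gamma0 N) (repG_of_kummer hF)
  have hf0 : f ≠ 0 := fun h => hF.ne_zero (eq_of_hasQSeries hF.holo mdifferentiable_const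
    (by rw [h, seriesToC_eq_lmap, map_zero] at hf; exact hf) (HasQSeries.zero 1))
  have hser : seriesToC (expand N (NeZero.ne N) (f ^ n)) = serAlg N φ := by
    rw [serAlg_of_rep_pow hf (φ := φ) rfl, seriesToC_eq_lmap, lmap_expand, map_pow]
    rfl
  obtain ⟨c, hc, hint, m, hm⟩ := exists_mf_normalisation Fact.out hA φ hser
    fun h => pow_ne_zero n hf0 ((expand N (NeZero.ne N)).injective (h.trans (map_zero _).symm))
  obtain ⟨Φ, hΦ⟩ := exists_hasRed hint
  have hΦ0 : Φ ≠ 0 := ne_zero_of_hasRed hΦ hm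
  rw [show HahnSeries.C c * expand N (NeZero.ne N) (f ^ n) =
    expand N (NeZero.ne N) (HahnSeries.C c * f ^ n) by
      rw [map_mul (expand N (NeZero.ne N)) (HahnSeries.C c), expand_series_C]] at hΦ
  obtain ⟨X, hX, rfl⟩ := exists_hasRed_of_expand (NeZero.ne N) hΦ
  exact ⟨c, X, hc, fun h => hΦ0 (by rw [h, map_zero]), hX⟩

/-- The condition does not depend on the algebraic representative. -/
theorem HasPowRep.red {χ : ParHom N (ZMod n)} (h : HasPowRep A χ) {F : ℍ → ℂ}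
    {f : LaurentSeries ℚb} (hF : IsKummerRep N n χ F) (hf : HasQSeries 1 F (seriesToC f)) :
    ∃ (r : ℚb) (Φ : LaurentSeries (κ A)), r ≠ 0 ∧ Φ ≠ 0 ∧
      HasRed A (HahnSeries.C r * f ^ n) (Φ ^ n) := by
  obtain ⟨F₀, f₀, r, Φ, hF₀, hf₀, hr, hΦ, hred⟩ := h
  have hG : IsKummerRep N n (0 : ParHom N (ZMod n)) (F * F₀ ^ (n - 1)) := by
    have := hF.mul (hF₀.pow (n - 1))
    rwa [add_pred_nsmul_eq_zero] at this
  have hg := Level.seriesToC_mul_pow hf hf₀ (n - 1)
  -- normalise the modular function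
  have hGn : IsModFun (Gamma0 N) (F * F₀ ^ (n - 1)) := hG.isModFun
  let ψ : MF N := ⟨_, modFuns_anti (Gamma_le_Gamma0 N) hGn⟩
  set g := f * f₀ ^ (n - 1)
  have hg0 : g ≠ 0 := fun h => hG.ne_zero (eq_of_hasQSeries hG.holo mdifferentiable_const
    (by rw [h, seriesToC_eq_lmap, map_zero] at hg; exact hg) (HasQSeries.zero 1))
  have hser : seriesToC (expand N (NeZero.ne N) g) = serAlg N ψ := by
    have h1 := hg.refine_width one_pos N (NeZero.ne N)
    rw [one_mul, seriesToC_eq_lmap, ← lmap_expand, ← seriesToC_eq_lmap] at h1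
    exact h1.unique (NeZero.pos N) (hasQSeries_serHom ψ)
  obtain ⟨d, hd, hint, m, hm⟩ := exists_mf_normalisation Fact.out hA ψ hser
    fun h => hg0 ((expand N (NeZero.ne N)).injective (h.trans (map_zero _).symm))
  obtain ⟨W, hW⟩ := exists_hasRed hint
  have hW0 : W ≠ 0 := ne_zero_of_hasRed hW hm
  rw [show HahnSeries.C d * expand N (NeZero.ne N) g =
    expand N (NeZero.ne N) (HahnSeries.C d * g) by
      rw [map_mul (expand N (NeZero.ne N)) (HahnSeries.C d) g, expand_series_C]] at hW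
  obtain ⟨V, hV, rfl⟩ := exists_hasRed_of_expand (NeZero.ne N) hW
  obtain ⟨c, Y, hc, hY0, hY⟩ := exists_normalisation hA hF hf
  have hprod := hY.mul (hred.pow (n - 1))
  rw [mul_pow, ← map_pow, mul_mul_mul_comm, ← map_mul, ← pow_mul f₀, mul_comm n (n - 1),
    pow_mul f₀, ← mul_pow] at hprod
  obtain ⟨Ψ, hΨ⟩ := exists_root_of_hasRed (NeZero.pos n) hd hV
    (fun h => hW0 (by rw [h, map_zero])) hprod
  refine ⟨c, Ψ / Φ ^ (n - 1), hc, fun h => ?_, ?_⟩
  · refine hY0 ((mul_eq_zero.mp (hΨ.trans ?_)).resolve_right (pow_ne_zero _ (pow_ne_zero _ hΦ)))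
    rw [(div_eq_zero_iff.mp h).resolve_right (pow_ne_zero _ hΦ), zero_pow (NeZero.ne n)]
  · convert hY using 1
    rw [div_pow, div_eq_iff (pow_ne_zero _ (pow_ne_zero _ hΦ)), ← hΨ, ← pow_mul, ← pow_mul,
      mul_comm n]

/-- Inertia differences have power reductions. -/
theorem hasPowRep_inertia {τ : GQ} (hτ : τ ∈ A.inertiaSubgroupIn ℚ) (χ : ParHom N (ZMod n)) :
    HasPowRep A ((kummerGalois N n).galois τ χ - χ) := by
  obtain ⟨F, f, hn⟩ := exists_algebraic_rep χ
  obtain ⟨F', hF', hf', -⟩ := autChar_spec (liftAut τ) hn.rep hn.series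
  rw [lmap_seriesToC (liftAut_spec τ)] at hf'
  obtain ⟨c, X, hc, hX0, hX⟩ := exists_normalisation hA hn.rep hn.series
  refine ⟨F' * F ^ (n - 1), seriesConj τ f * f ^ (n - 1), τ c * c ^ (n - 1), X, ?_,
    Level.seriesToC_mul_pow hf' hn.series (n - 1),
    mul_ne_zero ((map_ne_zero τ).mpr hc) (pow_ne_zero _ hc), hX0, ?_⟩
  · rw [(kummerGalois N n).galois_eq, sub_eq_add_neg, show -χ = (n - 1) • χ from
      (eq_neg_of_add_eq_zero_right (add_pred_nsmul_eq_zero χ)).symm]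
    exact hF'.mul (hn.rep.pow (n - 1))
  have h1 := hasRed_conj_inertia hτ hX
  rw [seriesConj_eq_lmap, map_mul, map_pow, lmap_C, ← seriesConj_eq_lmap] at h1
  have h2 := h1.mul (hX.pow (n - 1))
  rw [← pow_succ', Nat.sub_add_cancel (NeZero.pos n), mul_pow, ← map_pow, mul_mul_mul_comm,
    ← map_mul, ← pow_mul f, mul_comm n (n - 1), pow_mul f, ← mul_pow] at h2
  exact h2

omit hA in
/-- Conjugation by the decomposition group. -/
theorem HasPowRep.galois {σ : GQ} (hσ : σ ∈ A.decompositionSubgroup ℚ) {χ : ParHom N (ZMod n)}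
    (h : HasPowRep A χ) : HasPowRep A ((kummerGalois N n).galois σ χ) := by
  obtain ⟨F, f, r, Φ, hF, hf, hr, hΦ, hred⟩ := h
  obtain ⟨F', hF', hf', -⟩ := autChar_spec (liftAut σ) hF hf
  rw [lmap_seriesToC (liftAut_spec σ)] at hf'
  set ρ := MulSemiringAction.toRingHom (A.decompositionSubgroup ℚ) (κ A) ⟨σ, hσ⟩
  refine ⟨F', seriesConj σ f, σ r, lmap ρ Φ, (kummerGalois N n).galois_eq σ χ ▸ hF', hf',
    (map_ne_zero σ).mpr hr,
    fun h0 => hΦ (lmap_injective ρ.injective (h0.trans (map_zero _).symm)), ?_⟩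
  have h1 := hred.conj hσ (ρ := ρ) fun x => rfl
  rw [seriesConj_eq_lmap, map_mul, map_pow, lmap_C, map_pow, ← seriesConj_eq_lmap] at h1
  exact h1

/-- Good Hecke operators at the residue characteristic prime to the index. -/
theorem HasPowRep.hecke {k : ℕ} (hn : n = p ^ k) {ℓ : ℕ} (hg : GoodIndex N ℓ) (hpℓ : p ≠ ℓ)
    {χ : ParHom N (ZMod n)} (h : HasPowRep A χ) : HasPowRep A (heckeHom hg χ) := by
  classical
  haveI : NeZero ℓ := ⟨hg.prime.ne_zero⟩
  haveI := Model.residue_isAlgClosed A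
  haveI : CharP (κ A) p := charP_residue Fact.out hA
  letI : Fintype (rootsOfUnity ℓ ℚb) := Fintype.ofFinite _
  obtain ⟨F, f, r, Φ, hF, hf, hr, hΦ, hred⟩ := h
  have hT := heckeProd_rep hg hF (isHeckeTransfer_heckeHom hg χ)
  obtain ⟨u, hu, -⟩ := hT.exists_series_one
  have hexp : expand ℓ (NeZero.ne ℓ) u = seriesToC (heckeSeriesA ℓ f) := by
    have h1 := hu.refine_width one_pos ℓ (NeZero.ne ℓ)
    rw [one_mul] at h1
    rw [seriesToC_heckeSeriesA]
    exact h1.unique (NeZero.pos ℓ) (hasQSeries_heckeProd hg hf)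
  obtain ⟨w, rfl⟩ := exists_seriesToC_eq (f := u) fun j => by
    rw [← expand_coeff_mul ℓ (NeZero.ne ℓ) u j, hexp]
    exact (Algebra.IsAlgebraic.isAlgebraic _).algHom qbarToC.toRatAlgHom
  have hw : expand ℓ (NeZero.ne ℓ) w = heckeSeriesA ℓ f := seriesToC_injective (by
    rw [← hexp, seriesToC_eq_lmap, lmap_expand, ← seriesToC_eq_lmap])
  -- the reduction of the transfer
  choose z hz using fun ω : rootsOfUnity ℓ ℚb =>
    exists_twist_red (A := A) (NeZero.ne ℓ) ((mem_rootsOfUnity _ _).mp ω.2)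
  have hp1 := ((hred.expand ℓ (NeZero.ne ℓ)).expand ℓ (NeZero.ne ℓ)).mul
    (HasRed.prod (Finset.univ : Finset (rootsOfUnity ℓ ℚb)) fun ω _ => hz ω _ _ hred)
  set Ψ := expand ℓ (NeZero.ne ℓ) (expand ℓ (NeZero.ne ℓ) Φ) *
    ∏ ω : rootsOfUnity ℓ ℚb, twist (z ω) Φ
  have hΨ : HasRed A (expand ℓ (NeZero.ne ℓ) (HahnSeries.C (r ^ (ℓ + 1)) * w ^ n)) (Ψ ^ n) := by
    convert hp1 using 1
    · rw [map_mul, map_pow (expand ℓ (NeZero.ne ℓ)) w n, hw, expand_series_C, heckeSeriesA]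
      simp only [map_mul, map_pow, expand_series_C, twist_series_C, Finset.prod_mul_distrib, Finset.prod_const,
        Finset.prod_pow, mul_pow]
      rw [Finset.card_univ, ← Nat.card_eq_fintype_card,
        HasEnoughRootsOfUnity.natCard_rootsOfUnity]
      ring
    · simp only [Ψ, mul_pow, map_pow, Finset.prod_pow]
  obtain ⟨X, hX, hXe⟩ := exists_hasRed_of_expand (NeZero.ne ℓ) hΨ
  subst hn
  obtain ⟨Y, rfl⟩ := exists_root_of_expand (NeZero.ne ℓ)
    (fun h => hpℓ ((Nat.prime_dvd_prime_iff_eq Fact.out hg.prime).mp h)) k X Ψ hXe.symm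
  refine ⟨_, w, r ^ (ℓ + 1), Y, hT, hu, pow_ne_zero _ hr, fun h0 => ?_, hX⟩
  rw [h0, zero_pow (NeZero.ne _), map_zero] at hXe
  exact mul_ne_zero (fun h => hΦ ((expand ℓ (NeZero.ne ℓ)).injective ((expand ℓ (NeZero.ne ℓ)).injective
      (h.trans (map_zero _).symm) |>.trans (map_zero _).symm)))
    (Finset.prod_ne_zero_iff.mpr fun ω _ h => hΦ ((twist (z ω)).injective (h.trans (map_zero _).symm)))
    ((pow_eq_zero_iff (NeZero.ne _)).mp hXe)

end Rep

/-! ## The kernel -/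

section Level

variable {p m : ℕ} [Fact p.Prime] [NeZero p] [NeZero m] {g : SL(2, ℤ)} (hg : g 1 0 = m ∧ g 1 1 = p)

theorem alR_zero {n : ℕ} [NeZero n] : alR hg (0 : ParHom (p * m) (ZMod n)) = 0 := by
  have h := alR_add hg (0 : ParHom (p * m) (ZMod n)) 0
  rw [add_zero] at h
  exact left_eq_add.mp h

theorem alR_sub {n : ℕ} [NeZero n] (χ χ' : ParHom (p * m) (ZMod n)) :
    alR hg (χ - χ') = alR hg χ - alR hg χ' := by
  rw [eq_sub_iff_add_eq, ← alR_add, sub_add_cancel]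

theorem alR_nsmul {n : ℕ} [NeZero n] (χ : ParHom (p * m) (ZMod n)) (j : ℕ) :
    alR hg (j • χ) = j • alR hg χ := by
  induction j with
  | zero => rw [zero_smul, zero_smul, alR_zero]
  | succ j ih => rw [succ_nsmul, succ_nsmul, alR_add, ih]

/-- The Atkin-Lehner translate commutes with the Galois action on classes. -/
theorem alR_galois {n : ℕ} [NeZero n] (σ : GQ) (χ : ParHom (p * m) (ZMod n)) :
    alR hg ((kummerGalois (p * m) n).galois σ χ) =
      (kummerGalois (p * m) n).galois σ (alR hg χ) := by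
  obtain ⟨F, f, hn⟩ := exists_algebraic_rep χ
  have hR := repG_of_kummer hn.rep
  set φ := powMF (isLevel_gamma0 (p * m)) hR
  have hφi : Inv0 (p * m) (φ : ℍ → ℂ) := fun γ hγ τ => hR.isModFun_pow.invariant γ hγ τ
  obtain ⟨F', hF', hF'p⟩ :=
    Semistable.exists_conj_rep (dvd_refl _) (liftAut σ) hR (φ := φ) rfl
  obtain ⟨G, hG, hGp⟩ := Semistable.exists_conj_rep (dvd_refl _) (liftAut σ) (alR_rep hg hR)
    (φ := WMF hg φ hφi) (Wf_pow p g F n)
  rw [(kummerGalois (p * m) n).galois_eq, (kummerGalois (p * m) n).galois_eq]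
  obtain ⟨ω, hω, he⟩ := exists_const_of_pow_eq (NeZero.pos n) (alR_rep hg hF').holo hG.holo
    hG.ne_zero fun τ => by
      have h1 := congrFun hGp τ
      rw [conjM_WMF hg σ φ hφi, coe_WMF, hF'p, Wf_pow] at h1
      exact h1
  have hω0 : ω ≠ 0 := fun h0 => by
    rw [h0, zero_pow (NeZero.ne n)] at hω
    exact zero_ne_one hω
  exact char_eq_of_smul hω0 (alR_rep hg hF') hG (funext he)

omit [Fact p.Prime] in
/-- An algebraic power has an algebraic root series. -/
theorem exists_series_of_pow {N n : ℕ} [NeZero N] [NeZero n] {χ : ParHom N (ZMod n)} {F : ℍ → ℂ}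
    (hF : IsKummerRep N n χ F) {a : LaurentSeries ℚb}
    (ha : HasQSeries 1 (F ^ n) (seriesToC a)) :
    ∃ f, HasQSeries 1 F (seriesToC f) ∧ f ^ n = a := by
  obtain ⟨u, hu, hu0⟩ := hF.exists_series_one
  have he : u ^ n = seriesToC a := (hu.pow n).unique one_pos ha
  obtain ⟨f, rfl⟩ := exists_seriesToC_eq (f := u) fun i => by
    have horb : ∀ σ : ℂ ≃+* ℂ, (∀ y, σ (qbarToC y) = qbarToC y) → ∃ ω : ℂ, ω ^ n = 1 ∧
        σ (u.coeff i) = ω * u.coeff i := by
      intro σ hσ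
      obtain ⟨ω, hω, h1⟩ := exists_root_unity_of_pow_eq (n := n) (a := lmap σ.toRingHom u) hu0 (by
        rw [← map_pow, he]
        ext j
        exact hσ _)
      refine ⟨ω, hω, ?_⟩
      have h2 := congrArg (fun f : LaurentSeries ℂ => f.coeff i) h1
      simp only [lmap_coeff, HahnSeries.C_mul_eq_smul, HahnSeries.coeff_smul, smul_eq_mul] at h2
      exact h2
    have hxn : IsAlgebraic ℚ (u.coeff i ^ n) := isAlgebraic_of_fixed fun σ hσ => by
      obtain ⟨ω, hω, h1⟩ := horb σ hσ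
      rw [map_pow, h1, mul_pow, hω, one_mul]
    exact isAlgebraic_iff_isIntegral.mpr (IsIntegral.of_pow (NeZero.pos n)
      (isAlgebraic_iff_isIntegral.mp hxn))
  exact ⟨f, hu, seriesToC_injective (by
    rw [← he, seriesToC_eq_lmap, map_pow, ← seriesToC_eq_lmap])⟩

variable (hA : A.LiesOverPrime p)

include hA hg

/-- The kernel, in terms of the class and of its Atkin-Lehner translate. -/
theorem mem_powKer_iff {n : ℕ} [NeZero n] {χ : ParHom (p * m) (ZMod n)} :
    χ ∈ powKer A p m n ↔ HasPowRep A χ ∧ HasPowRep A (alR hg χ) := by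
  constructor
  · rintro ⟨F, hF, ⟨a, c, Φ, hc, hΦ, ha, ra⟩, hW⟩
    obtain ⟨b, d, Ψ, hd, hΨ, hb, rb⟩ := hW g hg
    have hWF := IsRepG.kummer (alR_rep hg (repG_of_kummer hF))
    obtain ⟨f, hf, rfl⟩ := exists_series_of_pow hF ha
    obtain ⟨w, hw, rfl⟩ := exists_series_of_pow hWF hb
    exact ⟨⟨F, f, c, Φ, hF, hf, hc, hΦ, ra⟩, ⟨_, w, d, Ψ, hWF, hw, hd, hΨ, rb⟩⟩
  · intro h
    obtain ⟨F, f, hn⟩ := exists_algebraic_rep χ
    have hR := repG_of_kummer hn.rep
    set φ := powMF (isLevel_gamma0 (p * m)) hR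
    have hφi : Inv0 (p * m) (φ : ℍ → ℂ) := fun γ hγ τ => hR.isModFun_pow.invariant γ hγ τ
    refine ⟨F, hn.rep, ?_, fun g' hg' => ?_⟩
    · obtain ⟨r, Φ, hr, hΦ, hred⟩ := h.1.red hA hn.rep hn.series
      exact ⟨_, r, Φ, hr, hΦ, hasQSeries_pow_seriesToC hn.series n, hred⟩
    -- the translate does not depend on the lower row
    have e : Wf p g' F ^ n = Wf p g F ^ n := funext fun τ => by
      show F (g' • dq p τ) ^ n = F (g • dq p τ) ^ n
      rw [show g' • dq p τ = (g' * g⁻¹) • (g • dq p τ) by rw [← mul_smul, inv_mul_cancel_right]]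
      exact hφi _ (mem_gamma0_of_conj g' g ⟨0, by rw [hg.1, hg.2, hg'.1, hg'.2]; ring⟩) _
    rw [e]
    have hWF := IsRepG.kummer (alR_rep hg hR)
    obtain ⟨u, hu, -⟩ := hWF.exists_series_one
    have hφa : AlgMF φ := ⟨expand (p * m) (NeZero.ne _) (f ^ n), by
      rw [serAlg_of_rep_pow hn.series (φ := φ) rfl, seriesToC_eq_lmap, lmap_expand, map_pow]
      rfl⟩
    obtain ⟨b, hb⟩ := algMF_WMF hg hφi hφa
    obtain ⟨a, ha⟩ := exists_seriesToC_eq (f := u ^ n) fun j => by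
      have h1 := (hu.pow n).refine_width one_pos (p * m) (NeZero.ne _)
      rw [one_mul] at h1
      have h2 : expand (p * m) (NeZero.ne _) (u ^ n) = seriesToC b :=
        h1.unique (NeZero.pos _) (by
          rw [hb]
          have := hasQSeries_serHom (WMF hg φ hφi)
          exact this)
      rw [← expand_coeff_mul (p * m) (NeZero.ne _) (u ^ n) j, h2]
      exact (Algebra.IsAlgebraic.isAlgebraic _).algHom qbarToC.toRatAlgHom
    have hbW : HasQSeries 1 (Wf p g F ^ n) (seriesToC a) := ha ▸ hu.pow n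
    obtain ⟨w, hw, rfl⟩ := exists_series_of_pow hWF hbW
    obtain ⟨r, Φ, hr, hΦ, hred⟩ := h.2.red hA hWF hw
    exact ⟨_, r, Φ, hr, hΦ, hasQSeries_pow_seriesToC hw n, hred⟩

theorem powKer_galois {n : ℕ} [NeZero n] {σ : GQ} (hσ : σ ∈ A.decompositionSubgroup ℚ)
    {χ : ParHom (p * m) (ZMod n)} (h : χ ∈ powKer A p m n) :
    (kummerGalois (p * m) n).galois σ χ ∈ powKer A p m n := by
  rw [mem_powKer_iff hg hA] at h ⊢
  exact ⟨h.1.galois hσ, by rw [alR_galois]; exact h.2.galois hσ⟩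

theorem powKer_inertia {n : ℕ} [NeZero n] {τ : GQ} (hτ : τ ∈ A.inertiaSubgroupIn ℚ)
    (χ : ParHom (p * m) (ZMod n)) :
    (kummerGalois (p * m) n).galois τ χ - χ ∈ powKer A p m n :=
  (mem_powKer_iff hg hA).mpr
    ⟨hasPowRep_inertia hA hτ χ, by rw [alR_sub, alR_galois]; exact hasPowRep_inertia hA hτ _⟩

theorem powKer_hecke (k : ℕ) {ℓ : ℕ} (hℓ : GoodIndex (p * m) ℓ)
    {χ : ParHom (p * m) (ZMod (p ^ k))} (h : χ ∈ powKer A p m (p ^ k)) :
    heckeHom hℓ χ ∈ powKer A p m (p ^ k) := by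
  have hpℓ : p ≠ ℓ := fun e => hℓ.not_dvd (e ▸ dvd_mul_right p m)
  rw [mem_powKer_iff hg hA] at h ⊢
  exact ⟨h.1.hecke hA rfl hℓ hpℓ, by rw [alR_heckeHom]; exact h.2.hecke hA rfl hℓ hpℓ⟩

theorem powKer_heckePoly (k : ℕ) (P : HeckePoly (p * m))
    {χ : ParHom (p * m) (ZMod (p ^ k))} (h : χ ∈ powKer A p m (p ^ k)) :
    heckePolyHom (p * m) (ZMod (p ^ k)) P χ ∈ powKer A p m (p ^ k) := by
  induction P using MvPolynomial.induction_on generalizing χ with
  | C a =>
    rw [show (MvPolynomial.C a : HeckePoly (p * m)) = algebraMap ℤ _ a from rfl, AlgHom.commutes,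
      Module.algebraMap_end_apply]
    exact zsmul_mem h a
  | add P Q hP hQ => rw [map_add, LinearMap.add_apply]; exact add_mem (hP h) (hQ h)
  | mul_X P i hP =>
    rw [map_mul, Module.End.mul_apply, heckePolyHom_X]
    exact hP (powKer_hecke hg hA k (goodIndex i) h)

/-! ## Torsion -/

omit hg

/-- Multiplication by `p ^ k` from `ℤ/p` to `ℤ/p^(k+1)`. -/
def torsIota (p k : ℕ) : ZMod p →+ ZMod (p ^ (k + 1)) :=
  ZMod.lift p ⟨(Int.castAddHom (ZMod (p ^ (k + 1)))).comp (AddMonoidHom.mulLeft ((p ^ k : ℕ) : ℤ)),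
    by
      show (((p ^ k : ℕ) : ℤ) * (p : ℤ) : ℤ) = ((0 : ZMod (p ^ (k + 1))))
      rw [← Nat.cast_mul, Int.cast_natCast, ← pow_succ, ZMod.natCast_self]⟩

omit [Fact p.Prime] [NeZero p] hA in
theorem torsIota_intCast (p k : ℕ) (a : ℤ) :
    torsIota p k (a : ZMod p) = (((p ^ k : ℕ) : ℤ) * a : ℤ) := by
  rw [torsIota, ZMod.lift_coe]
  rfl

omit hA in
theorem stdAddChar_torsIota (k : ℕ) (x : ZMod p) :
    ZMod.stdAddChar (torsIota p k x) = ZMod.stdAddChar x := by
  obtain ⟨a, rfl⟩ := ZMod.intCast_surjective x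
  rw [torsIota_intCast, ZMod.stdAddChar_coe, ZMod.stdAddChar_coe]
  congr 1
  have : (p : ℂ) ≠ 0 := Nat.cast_ne_zero.mpr (NeZero.ne p)
  push_cast
  field_simp
  ring

omit hA in
theorem rep_parMap_torsIota {N : ℕ} (k : ℕ) {ξ : ParHom N (ZMod p)} {H : ℍ → ℂ}
    (hH : IsKummerRep N p ξ H) : IsKummerRep N (p ^ (k + 1)) (parMap (torsIota p k) ξ) H :=
  ⟨hH.holo, hH.ne_zero, fun γ τ => by
    rw [parMap_apply, stdAddChar_torsIota]; exact hH.equivariant γ τ, hH.cusps⟩

omit hA in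
include hg in
theorem alR_parMap (k : ℕ) (ξ : ParHom (p * m) (ZMod p)) :
    alR hg (parMap (torsIota p k) ξ) = parMap (torsIota p k) (alR hg ξ) := by
  obtain ⟨H, h, hn⟩ := exists_algebraic_rep ξ
  exact (alR_rep hg (repG_of_kummer (rep_parMap_torsIota k hn.rep))).char_unique
    (repG_of_kummer (rep_parMap_torsIota k (IsRepG.kummer (alR_rep hg (repG_of_kummer hn.rep)))))

theorem hasPowRep_of_parMap {N : ℕ} [NeZero N] (k : ℕ) {ξ : ParHom N (ZMod p)}
    (h : HasPowRep A (parMap (torsIota p k) ξ)) : HasPowRep A ξ := by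
  haveI := Model.residue_isAlgClosed A
  haveI : CharP (κ A) p := charP_residue Fact.out hA
  obtain ⟨H, f, hn⟩ := exists_algebraic_rep ξ
  obtain ⟨r, Φ, -, hΦ, hred⟩ := h.red hA (rep_parMap_torsIota k hn.rep) hn.series
  obtain ⟨c, X, hc, hX0, hX⟩ := exists_normalisation hA hn.rep hn.series
  rw [pow_succ', pow_mul, pow_mul] at hred
  have hpk : 0 < p ^ k := pow_pos (Fact.out : p.Prime).pos k
  have e : HahnSeries.C r * (f ^ p) ^ p ^ k =
      HahnSeries.C (r / c ^ p ^ k) * (HahnSeries.C c * f ^ p) ^ p ^ k := by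
    rw [mul_pow, ← map_pow, ← mul_assoc, ← map_mul, div_mul_cancel₀ _ (pow_ne_zero _ hc)]
  rw [e] at hred
  obtain ⟨u, hu⟩ := eq_C_mul_of_hasRed (hX.pow (p ^ k)) (pow_ne_zero _ hX0) hred
  obtain ⟨w, rfl⟩ := IsAlgClosed.exists_pow_nat_eq u hpk
  rw [map_pow, ← mul_pow] at hu
  haveI : CharP (LaurentSeries (κ A)) p :=
    (RingHom.charP_iff (HahnSeries.C : κ A →+* LaurentSeries (κ A)) HahnSeries.C_injective p).mp ‹_›
  have hu' : Φ ^ p = HahnSeries.C w * X := iterateFrobenius_inj (LaurentSeries (κ A)) p k (by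
    simpa only [iterateFrobenius_def] using hu)
  have hw : w ≠ 0 := fun h0 => hΦ ((pow_eq_zero_iff (NeZero.ne p)).mp (by
    rw [hu', h0, map_zero, zero_mul]))
  obtain ⟨v, hv⟩ := IsAlgClosed.exists_pow_nat_eq w⁻¹ (Fact.out : p.Prime).pos
  have hv0 : v ≠ 0 := fun h0 => hw (by
    rw [h0, zero_pow (NeZero.ne p), eq_comm, inv_eq_zero] at hv; exact hv)
  refine ⟨H, f, c, HahnSeries.C v * Φ, hn.rep, hn.series, hc,
    mul_ne_zero (HahnSeries.C_ne_zero hv0) hΦ, ?_⟩
  rwa [mul_pow, ← map_pow, hv, hu', ← mul_assoc, ← map_mul, inv_mul_cancel₀ hw, map_one, one_mul]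

include hg in
/-- The `p`-torsion of the kernel modulo `p ^ (k + 1)` comes from the kernel modulo `p`. -/
theorem exists_powKer_torsion (k : ℕ) {χ : ParHom (p * m) (ZMod (p ^ (k + 1)))}
    (hp : p • χ = 0) (h : χ ∈ powKer A p m (p ^ (k + 1))) :
    ∃ ξ ∈ powKer A p m p, parMap (torsIota p k) ξ = χ := by
  have hpk : 0 < p ^ k := pow_pos (Fact.out : p.Prime).pos k
  have hinj : Function.Injective (torsIota p k) := by
    refine (injective_iff_map_eq_zero _).mpr fun x hx => ?_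
    obtain ⟨a, rfl⟩ := ZMod.intCast_surjective x
    rw [torsIota_intCast, ZMod.intCast_zmod_eq_zero_iff_dvd] at hx
    rw [ZMod.intCast_zmod_eq_zero_iff_dvd]
    rw [pow_succ, Nat.cast_mul] at hx
    exact Int.dvd_of_mul_dvd_mul_left (by exact_mod_cast hpk.ne') hx
  have hran : ∀ y : ZMod (p ^ (k + 1)), p • y = 0 → ∃ x, torsIota p k x = y := by
    intro y hy
    obtain ⟨a, rfl⟩ := ZMod.intCast_surjective y
    rw [nsmul_eq_mul, ← Int.cast_natCast, ← Int.cast_mul, ZMod.intCast_zmod_eq_zero_iff_dvd,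
      pow_succ', Nat.cast_mul] at hy
    obtain ⟨b, rfl⟩ := Int.dvd_of_mul_dvd_mul_left
      (Int.natCast_ne_zero.mpr (NeZero.ne p)) hy
    exact ⟨b, torsIota_intCast p k b⟩
  choose x hx using fun γ : Additive (Gamma0 (p * m)) => hran
    ((χ : Additive (Gamma0 (p * m)) →+ ZMod (p ^ (k + 1))) γ)
    (DFunLike.congr_fun (congrArg Subtype.val hp) γ)
  let ξ₀ : Additive (Gamma0 (p * m)) →+ ZMod p := AddMonoidHom.mk' x fun γ δ =>
    hinj (by rw [map_add, hx, hx, hx, map_add])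
  let ξ : ParHom (p * m) (ZMod p) := ⟨ξ₀, fun γ hγ => hinj (by
    show torsIota p k (x _) = _
    rw [hx, map_zero]; exact χ.2 γ hγ)⟩
  have hξ : parMap (torsIota p k) ξ = χ := Subtype.ext (AddMonoidHom.ext hx)
  rw [← hξ, mem_powKer_iff hg hA, alR_parMap] at h
  exact ⟨ξ, (mem_powKer_iff hg hA).mpr ⟨hasPowRep_of_parMap hA k h.1, hasPowRep_of_parMap hA k h.2⟩,
    hξ⟩

end Level

end Fermat.Agent.GalRep.Ordinary
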