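/-
A criterion for an adic representation to be ordinary: one element of inertia with distinct
residual eigenvalues, whose idempotent fixes the images of all `τ - 1`, `τ` in inertia.
-/
import Fermat.Agent.Deform.MatrixRep
import Fermat.Agent.GalRep.Semistable.Inertia
import Fermat.Prelude.Def_GaloisRep_LocalConditions

set_option autoImplicit false
set_option linter.style.haveILetI false

noncomputable section

namespace Fermat.Agent.GalRep.Ordinary

open Fermat.Agent.Galois (GQ)
open Fermat.Agent.Deform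
open IsLocalRing

/-- In a finite monoid the powers with exponent a multiple of the factorial of the order are
idempotent. -/
theorem pow_idem {M : Type*} [Monoid M] [Finite M] (x : M) {N : ℕ} (hN0 : N ≠ 0)
    (hN : (Nat.card M).factorial ∣ N) : x ^ N * x ^ N = x ^ N := by
  classical
  haveI := Fintype.ofFinite M
  obtain ⟨i, j, hne, hij⟩ := Fintype.exists_ne_map_eq_of_card_lt
    (fun i : Fin (Fintype.card M + 1) => x ^ (i : ℕ)) (by simp)
  wlog h : i < j generalizing i j
  · exact this j i hne.symm hij.symm (lt_of_le_of_ne (not_lt.mp h) hne.symm)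
  have hjc : (j : ℕ) ≤ Nat.card M := by
    rw [Nat.card_eq_fintype_card]
    exact Nat.lt_succ_iff.mp j.2
  obtain ⟨d, hd⟩ := Nat.exists_eq_add_of_lt (Fin.lt_def.mp h)
  have hper : ∀ n t : ℕ, (i : ℕ) ≤ n → x ^ (n + t * (d + 1)) = x ^ n := by
    intro n t hn
    induction t with
    | zero => rw [zero_mul, add_zero]
    | succ t ih =>
      obtain ⟨c, rfl⟩ := Nat.exists_eq_add_of_le hn
      calc x ^ ((i : ℕ) + c + (t + 1) * (d + 1))
          = x ^ ((j : ℕ) + (c + t * (d + 1))) := by rw [hd]; congr 1; ring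
        _ = x ^ ((i : ℕ) + (c + t * (d + 1))) := by
            rw [pow_add, ← show x ^ (i : ℕ) = x ^ (j : ℕ) from hij, ← pow_add]
        _ = x ^ ((i : ℕ) + c) := by rw [← add_assoc, ih]
  have hdvd : d + 1 ∣ N :=
    (Nat.dvd_factorial d.succ_pos (by omega)).trans hN
  obtain ⟨t, ht⟩ := hdvd
  have hiN : (i : ℕ) ≤ N := by
    have := Nat.self_le_factorial (Nat.card M)
    have := Nat.le_of_dvd (Nat.pos_of_ne_zero hN0) hN
    omega
  rw [← pow_add]
  calc x ^ (N + N) = x ^ (N + t * (d + 1)) := by rw [mul_comm t, ← ht]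
    _ = x ^ N := hper N t hiN

variable {T : Type} [CommRing T] [IsLocalRing T] [IsHausdorff (maximalIdeal T) T]

/-- Equal to zero modulo all powers of the maximal ideal. -/
theorem eq_zero_of_forall_mem_pow {x : T} (h : ∀ k : ℕ, x ∈ maximalIdeal T ^ k) : x = 0 :=
  IsHausdorff.haus (inferInstance : IsHausdorff (maximalIdeal T) T) x fun k => by
    rw [SModEq.zero, smul_eq_mul, Ideal.mul_top]
    exact h k

/-- Reduction of matrices modulo a power of the maximal ideal. -/
abbrev redMat (T : Type) [CommRing T] [IsLocalRing T] (k : ℕ) :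
    Mat2 T →+* Mat2 (T ⧸ maximalIdeal T ^ k) :=
  (Ideal.Quotient.mk (maximalIdeal T ^ k)).mapMatrix

theorem eq_zero_of_redMat {X : Mat2 T} (h : ∀ k, redMat T k X = 0) : X = 0 := by
  ext i j
  exact eq_zero_of_forall_mem_pow fun k =>
    Ideal.Quotient.eq_zero_iff_mem.mp (congrFun (congrFun (h k) i) j)

omit [IsLocalRing T] [IsHausdorff (maximalIdeal T) T] in
theorem sq_of_det_eq_zero {M : Mat2 T} (h : M.det = 0) : M * M = M.trace • M := by
  rw [Matrix.det_fin_two] at h
  ext i j
  fin_cases i <;> fin_cases j <;>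
    simp [Matrix.mul_apply, Fin.sum_univ_two, Matrix.trace_fin_two] <;>
    first
      | linear_combination h
      | linear_combination -h
      | ring

omit [IsLocalRing T] [IsHausdorff (maximalIdeal T) T] in
theorem trace_smul_of_eq_one {e : Mat2 T} (h : e.trace = 1) (c : T) : (c • e).trace = c := by
  rw [Matrix.trace_smul, h, smul_eq_mul, mul_one]

/-- A matrix with determinant in the maximal ideal and unit trace, whose high powers act as the
identity on a family of matrices modulo every power of the maximal ideal, is a unit multiple of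
an idempotent fixing the family. -/
theorem exists_idem_of_congr {ι : Type*} {M : Mat2 T} (hd : M.det ∈ maximalIdeal T)
    (ht : IsUnit M.trace) (Y : ι → Mat2 T)
    (hY : ∀ (i : ι) (k : ℕ), ∃ N : ℕ, N ≠ 0 ∧
      redMat T k (M ^ N) * redMat T k (M ^ N) = redMat T k (M ^ N) ∧
      redMat T k ((1 - M ^ N) * M) = 0 ∧ redMat T k ((1 - M ^ N) * Y i) = 0)
    (hι : Nonempty ι) :
    ∃ e : Mat2 T, e * e = e ∧ e.trace = 1 ∧ M = M.trace • e ∧ ∀ i, e * Y i = Y i := by
  obtain ⟨i₀⟩ := hι
  have hdet : M.det = 0 := eq_zero_of_forall_mem_pow fun k => by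
    obtain ⟨N, hN, -, h1, -⟩ := hY i₀ k
    rw [map_mul, map_sub, map_one, sub_mul, one_mul, sub_eq_zero, ← map_mul, ← pow_succ] at h1
    have h2 := congrArg Matrix.det h1
    rw [← RingHom.map_det, ← RingHom.map_det, Ideal.Quotient.eq, Matrix.det_pow] at h2
    have hu : IsUnit (1 - M.det ^ N) :=
      isUnit_one_sub_self_of_mem_nonunits _ (Ideal.pow_mem_of_mem _ hd N (Nat.pos_of_ne_zero hN))
    rw [show M.det - M.det ^ (N + 1) = (1 - M.det ^ N) * M.det by ring] at h2
    obtain ⟨u, hu⟩ := hu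
    have := Ideal.mul_mem_left _ ((u⁻¹ : Tˣ) : T) h2
    rwa [← mul_assoc, ← hu, Units.inv_mul, one_mul] at this
  obtain ⟨t, ht'⟩ := ht
  have hsq : M * M = (t : T) • M := by rw [ht']; exact sq_of_det_eq_zero hdet
  set e : Mat2 T := ((t⁻¹ : Tˣ) : T) • M with he
  have hee : e * e = e := by
    rw [he, smul_mul_assoc, mul_smul_comm, hsq, smul_smul, smul_smul, Units.inv_mul_cancel_right]
  have hte : e.trace = 1 := by
    rw [he, Matrix.trace_smul, smul_eq_mul, ← ht', Units.inv_mul]
  have hMe : M = (t : T) • e := by rw [he, smul_smul, Units.mul_inv, one_smul]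
  have hpow : ∀ n : ℕ, M ^ (n + 1) = (t : T) ^ (n + 1) • e := by
    intro n
    induction n with
    | zero => rw [pow_one, pow_one, ← hMe]
    | succ n ih =>
      rw [pow_succ, ih, hMe, smul_mul_assoc, mul_smul_comm, hee, smul_smul, ← pow_succ]
  refine ⟨e, hee, hte, by rw [← ht']; exact hMe, fun i => ?_⟩
  refine (sub_eq_zero.mp (eq_zero_of_redMat fun k => ?_)).symm
  obtain ⟨N, hN, hidem, -, h2⟩ := hY i k
  obtain ⟨n, rfl⟩ := Nat.exists_eq_succ_of_ne_zero hN
  rw [← map_mul, hpow, smul_mul_assoc, mul_smul_comm, hee, smul_smul] at hidem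
  have htr := congrArg Matrix.trace hidem
  rw [RingHom.mapMatrix_apply, RingHom.mapMatrix_apply, ← AddMonoidHom.map_trace,
    ← AddMonoidHom.map_trace, trace_smul_of_eq_one hte, trace_smul_of_eq_one hte] at htr
  have hone : (Ideal.Quotient.mk (maximalIdeal T ^ k)) ((t : T) ^ (n + 1)) = 1 := by
    have hu : IsUnit ((Ideal.Quotient.mk (maximalIdeal T ^ k)) ((t : T) ^ (n + 1))) :=
      (t.isUnit.pow (n + 1)).map _
    change (Ideal.Quotient.mk (maximalIdeal T ^ k)) ((t : T) ^ (n + 1) * (t : T) ^ (n + 1)) =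
      (Ideal.Quotient.mk (maximalIdeal T ^ k)) ((t : T) ^ (n + 1)) at htr
    rw [map_mul] at htr
    exact hu.mul_left_cancel (htr.trans (mul_one _).symm)
  have hred : redMat T k (M ^ (n + 1)) = redMat T k e := by
    rw [hpow]
    ext a b
    show Ideal.Quotient.mk _ ((t : T) ^ (n + 1) * e a b) = Ideal.Quotient.mk _ (e a b)
    rw [map_mul, hone, one_mul]
  rw [map_mul, map_sub, hred, sub_mul, map_one, one_mul, ← map_mul, ← map_sub] at h2
  exact h2

/-- An idempotent of trace one in `M₂` of a local ring is the first projection in some basis. -/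
theorem exists_adapted {e : Mat2 T} (hee : e * e = e) (hte : e.trace = 1) :
    ∃ P : Mat2 T, IsUnit P.det ∧ e * P = P * !![1, 0; 0, 0] := by
  have h00 := congrFun (congrFun hee 0) 0
  have h10 := congrFun (congrFun hee 1) 0
  have h01 := congrFun (congrFun hee 0) 1
  have h11 := congrFun (congrFun hee 1) 1
  simp only [Matrix.mul_apply, Fin.sum_univ_two] at h00 h10 h01 h11
  rw [Matrix.trace_fin_two] at hte
  rcases IsLocalRing.isUnit_or_isUnit_of_add_one hte with h | h
  · refine ⟨!![e 0 0, -(e 0 1); e 1 0, e 0 0], ?_, ?_⟩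
    · rw [Matrix.det_fin_two_of]
      have : e 0 0 * e 0 0 - -(e 0 1) * e 1 0 = e 0 0 := by linear_combination h00
      rwa [this]
    · ext a b
      fin_cases a <;> fin_cases b <;> simp [Matrix.mul_apply, Fin.sum_univ_two]
      · linear_combination h00
      · ring
      · linear_combination h10
      · linear_combination e 0 0 * hte - h00
  · refine ⟨!![e 0 1, e 1 1; e 1 1, -(e 1 0)], ?_, ?_⟩
    · rw [Matrix.det_fin_two_of]
      have : e 0 1 * -(e 1 0) - e 1 1 * e 1 1 = -(e 1 1) := by linear_combination -h11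
      rw [this]
      exact h.neg
    · ext a b
      fin_cases a <;> fin_cases b <;> simp [Matrix.mul_apply, Fin.sum_univ_two]
      · linear_combination h01
      · linear_combination e 0 0 * hte - h00
      · linear_combination h11
      · ring

/-- The criterion: `M = r σ₀ - 1` is a unit multiple of an idempotent fixing every `r τ - 1`. -/
theorem isOrdinaryAt_of_idem {p : ℕ} {ρ : GaloisRepAdic T} {r : GQ →* Mat2 T}
    (hr : HasMatrix ρ r)
    (h : ∀ A : ValuationSubring (AlgebraicClosure ℚ), A.LiesOverPrime p →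
      ∃ σ₀ ∈ A.inertiaSubgroupIn ℚ, ∃ (t : T) (e : Mat2 T), IsUnit t ∧ e * e = e ∧ e.trace = 1 ∧
        r σ₀ - 1 = t • e ∧ ∀ τ ∈ A.inertiaSubgroupIn ℚ, e * (r τ - 1) = r τ - 1) :
    ρ.IsOrdinaryAt p := by
  intro A hA
  obtain ⟨σ₀, hσ₀, t, e, ⟨u, rfl⟩, hee, hte, hM, hfix⟩ := h A hA
  obtain ⟨P, hPu, hP⟩ := exists_adapted hee hte
  obtain ⟨b, hb⟩ := hr
  let E : Module.End T ρ.V := Matrix.toLin b b e
  let b' : Module.Basis (Fin 2) T ρ.V := b.map (Matrix.toLinearEquiv b P hPu)
  have hb' : ∀ i, b' i = Matrix.toLin b b P (b i) := fun i => rfl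
  have hcomp : ∀ X Y : Mat2 T, ∀ v, Matrix.toLin b b X (Matrix.toLin b b Y v) =
      Matrix.toLin b b (X * Y) v := fun X Y v => by
    rw [Matrix.toLin_mul b b b]; rfl
  have hE : ∀ i, E (b' i) = Matrix.toLin b b (P * !![1, 0; 0, 0]) (b i) := fun i => by
    rw [hb', hcomp, hP]
  have hE0 : E (b' 0) = b' 0 := by
    rw [hE, ← hcomp, hb']
    congr 1
    simp [Matrix.toLin_self, Fin.sum_univ_two]
  have hE1 : E (b' 1) = 0 := by
    rw [hE, ← hcomp]
    simp [Matrix.toLin_self, Fin.sum_univ_two]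
  have hrange : ∀ v, E v ∈ T ∙ b' 0 := fun v => by
    rw [← b'.sum_repr v, Fin.sum_univ_two, map_add, map_smul, map_smul, hE0, hE1, smul_zero,
      add_zero]
    exact Submodule.smul_mem _ _ (Submodule.mem_span_singleton_self _)
  have hfixE : ∀ v ∈ T ∙ b' 0, E v = v := fun v hv => by
    obtain ⟨c, rfl⟩ := Submodule.mem_span_singleton.mp hv
    rw [map_smul, hE0]
  have hlin : ∀ τ, ρ.ρ τ = Matrix.toLin b b (r τ) := fun τ => by
    rw [← hb τ, Matrix.toLin_toMatrix]
  have hsub : ∀ τ ∈ A.inertiaSubgroupIn ℚ, ∀ v, ρ.ρ τ v - v ∈ T ∙ b' 0 := fun τ hτ v => by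
    have h1 : ρ.ρ τ v - v = E (Matrix.toLin b b (r τ - 1) v) := by
      rw [show E (Matrix.toLin b b (r τ - 1) v) = Matrix.toLin b b (e * (r τ - 1)) v from
        hcomp _ _ v, hfix τ hτ, map_sub, Matrix.toLin_one, LinearMap.sub_apply,
        LinearMap.id_apply, hlin]
    rw [h1]
    exact hrange _
  refine ⟨T ∙ b' 0, ⟨b', rfl⟩, fun g hg v hv => ?_, hsub⟩
  have hv' : v = (u⁻¹ : Tˣ).val • (ρ.ρ σ₀ v - v) := by
    conv_lhs => rw [← hfixE v hv]
    have h1 : ρ.ρ σ₀ v - v = Matrix.toLin b b (r σ₀ - 1) v := by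
      rw [map_sub, Matrix.toLin_one, LinearMap.sub_apply, LinearMap.id_apply, hlin]
    rw [h1, hM, map_smul, LinearMap.smul_apply, smul_smul, Units.inv_mul, one_smul]
  have hconj : g * σ₀ * g⁻¹ ∈ A.inertiaSubgroupIn ℚ := by
    have := Semistable.inertia_conj_mem (inv_mem hg) hσ₀
    rwa [inv_inv] at this
  have h2 : ρ.ρ g (ρ.ρ σ₀ v - v) = ρ.ρ (g * σ₀ * g⁻¹) (ρ.ρ g v) - ρ.ρ g v := by
    rw [map_sub, ← Module.End.mul_apply, ← Module.End.mul_apply, ← map_mul, ← map_mul,
      inv_mul_cancel_right]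
  rw [hv', map_smul, h2]
  exact Submodule.smul_mem _ _ (hsub _ hconj _)

end Fermat.Agent.GalRep.Ordinary
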