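/-
Congruences on the lattice against congruences of a two dimensional representation with the same
traces, for elements of the group ring, in the residually irreducible case.
-/
import Fermat.Agent.GalRep.Unramified
import Fermat.Agent.GalRep.Semistable.Algebra
import Fermat.Agent.GalRep.Ordinary.Criterion

set_option autoImplicit false
set_option linter.style.haveILetI false
set_option linter.unusedSectionVars false

noncomputable section

namespace Fermat.Agent.GalRep.Ordinary

open Fermat.Agent.Galois (GQ)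
open Fermat.Agent.Deform
open IsLocalRing MulOpposite
open scoped IsMulCommutative

variable {N p : ℕ} [NeZero N] [Fact p.Prime] (D : EichlerShimuraDatum N p)

/-- The group ring acting on the lattice. -/
def gD : MonoidAlgebra ℤ GQ →ₐ[ℤ] Module.End ℤ_[p] D.L :=
  MonoidAlgebra.lift ℤ (Module.End ℤ_[p] D.L) GQ D.galois

/-- `g ↦ χ(g) g⁻¹`, antimultiplicative. -/
def adjHom : GQ →* (Module.End ℤ_[p] D.L)ᵐᵒᵖ where
  toFun g := op ((cyc p g).val • D.galois g⁻¹)
  map_one' := by rw [map_one, inv_one, map_one, Units.val_one, one_smul, op_one]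
  map_mul' g h := by
    rw [← op_mul, mul_inv_rev, map_mul, map_mul, Units.val_mul, smul_mul_smul_comm, mul_comm]

/-- The adjugate action of the group ring. -/
def adjD : MonoidAlgebra ℤ GQ →ₐ[ℤ] (Module.End ℤ_[p] D.L)ᵐᵒᵖ :=
  MonoidAlgebra.lift ℤ (Module.End ℤ_[p] D.L)ᵐᵒᵖ GQ (adjHom D)

theorem gD_of (g : GQ) : gD D (MonoidAlgebra.of ℤ GQ g) = D.galois g :=
  MonoidAlgebra.lift_of _ _

theorem adjD_of (g : GQ) :
    unop (adjD D (MonoidAlgebra.of ℤ GQ g)) = (cyc p g).val • D.galois g⁻¹ := by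
  rw [adjD, MonoidAlgebra.lift_of]
  rfl

theorem unop_adjD_mul (X Y : MonoidAlgebra ℤ GQ) :
    unop (adjD D (X * Y)) = unop (adjD D Y) * unop (adjD D X) := by
  rw [map_mul, unop_mul]

variable (S : Finset ℕ)

theorem gD_add_adjD_mem (X : MonoidAlgebra ℤ GQ) :
    gD D X + unop (adjD D X) ∈ heckeClosure D (↑S : Set ℕ) := by
  induction X using MonoidAlgebra.induction_on with
  | of g =>
    rw [gD_of, adjD_of]
    exact uTrace_mem D frobeniusPowDensity S g
  | add X Y hX hY =>
    rw [map_add, map_add, unop_add, add_add_add_comm]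
    exact add_mem hX hY
  | smul a X hX =>
    rw [map_zsmul, map_zsmul, unop_smul, ← smul_add]
    exact zsmul_mem hX a

/-- The universal trace of an element of the group ring. -/
def trC (X : MonoidAlgebra ℤ GQ) : heckeClosure D (↑S : Set ℕ) :=
  ⟨gD D X + unop (adjD D X), gD_add_adjD_mem D S X⟩

theorem coe_trC (X : MonoidAlgebra ℤ GQ) :
    (trC D S X : Module.End ℤ_[p] D.L) = gD D X + unop (adjD D X) := rfl

/-- Hecke elements commute with the group ring. -/
theorem commute_gD (c : heckeClosure D (↑S : Set ℕ)) (X : MonoidAlgebra ℤ GQ) :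
    Commute (c : Module.End ℤ_[p] D.L) (gD D X) := by
  induction X using MonoidAlgebra.induction_on with
  | of g =>
    rw [gD_of]
    exact LinearMap.ext fun x => (Semistable.commute_galois D S g c x).symm
  | add X Y hX hY => rw [map_add]; exact hX.add_right hY
  | smul a X hX => rw [map_zsmul]; exact hX.smul_right a

theorem commute_adjD (c : heckeClosure D (↑S : Set ℕ)) (X : MonoidAlgebra ℤ GQ) :
    Commute (c : Module.End ℤ_[p] D.L) (unop (adjD D X)) := by
  have h : unop (adjD D X) = (trC D S X : Module.End ℤ_[p] D.L) - gD D X := by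
    rw [coe_trC, add_sub_cancel_left]
  rw [h]
  refine Commute.sub_right ?_ (commute_gD D S c X)
  exact congrArg Subtype.val (mul_comm c (trC D S X))

/-- A commutator has the inverse adjugate. -/
theorem uTrace_commutator (a b : GQ) :
    uTrace D (a * b * a⁻¹ * b⁻¹) =
      D.galois (a * b * a⁻¹ * b⁻¹) + D.galois (b * a * b⁻¹ * a⁻¹) := by
  have hc : cyc p (a * b * a⁻¹ * b⁻¹) = 1 := by
    simp only [map_mul, map_inv]
    rw [mul_inv_cancel_comm, mul_inv_cancel]
  rw [uTrace, hc, Units.val_one, one_smul]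
  congr 2

section Modulo

variable {E : Type} [Ring E] [Algebra ℤ_[p] E] (φ : Module.End ℤ_[p] D.L →ₐ[ℤ_[p]] E)

/-- If `Z` symmetrises the adjugates of group elements then it is fixed by commutators. -/
theorem mul_map_galois_commutator {Z : E}
    (hZ : ∀ g h : GQ, Z * (φ (D.galois g) * φ (D.galois h)) = Z * (φ (D.galois h) * φ (D.galois g)))
    (a b : GQ) : Z * φ (D.galois (a * b * a⁻¹ * b⁻¹)) = Z := by
  rw [show a * b * a⁻¹ * b⁻¹ = a * b * (a⁻¹ * b⁻¹) by group, map_mul, map_mul D.galois a b,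
    map_mul, map_mul, ← mul_assoc, hZ a b, mul_assoc, ← map_mul, ← map_mul, ← map_mul,
    ← map_mul, show b * a * (a⁻¹ * b⁻¹) = 1 by group, map_one, map_one, mul_one]

theorem mul_map_uTrace_commutator {Z : E}
    (hZ : ∀ g h : GQ, Z * (φ (D.galois g) * φ (D.galois h)) = Z * (φ (D.galois h) * φ (D.galois g)))
    (a b : GQ) : Z * (φ (uTrace D (a * b * a⁻¹ * b⁻¹)) - 2) = 0 := by
  rw [uTrace_commutator, map_add, mul_sub, mul_add, mul_map_galois_commutator D φ hZ a b,
    mul_map_galois_commutator D φ hZ b a, mul_two, sub_self]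

/-- The transfer of `y X = 0`: the traces of `X g` annihilate with `y (tr c - 2)`. -/
theorem map_trC_mul_eq_zero {y : heckeClosure D (↑S : Set ℕ)} {X : MonoidAlgebra ℤ GQ}
    (hX : φ ((y : Module.End ℤ_[p] D.L) * gD D X) = 0) (a b g : GQ) :
    φ ((y : Module.End ℤ_[p] D.L) * (trC D S (X * MonoidAlgebra.of ℤ GQ g) :
      Module.End ℤ_[p] D.L) * (uTrace D (a * b * a⁻¹ * b⁻¹) - 2)) = 0 := by
  set Y : Module.End ℤ_[p] D.L := (y : Module.End ℤ_[p] D.L) with hY
  set ad : GQ → Module.End ℤ_[p] D.L := fun g => (cyc p g).val • D.galois g⁻¹ with had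
  set c : GQ → Module.End ℤ_[p] D.L := fun g =>
    (trC D S (X * MonoidAlgebra.of ℤ GQ g) : Module.End ℤ_[p] D.L) with hc
  set Z := φ (Y * unop (adjD D X)) with hZdef
  have hYg : ∀ g, Commute Y (ad g) := fun g => by
    rw [had]
    exact Commute.smul_right (LinearMap.ext fun x => (Semistable.commute_galois D S g⁻¹ y x).symm :
      Commute Y (D.galois g⁻¹)) _
  -- the traces are translates of `Z`
  have hcg : ∀ g, φ (Y * c g) = φ (ad g) * Z := fun g => by
    rw [hc]
    show φ (Y * (trC D S (X * MonoidAlgebra.of ℤ GQ g) : Module.End ℤ_[p] D.L)) = _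
    rw [coe_trC, map_mul (gD D), gD_of, unop_adjD_mul, adjD_of, mul_add, map_add, ← mul_assoc,
      map_mul, hX, zero_mul, zero_add, ← mul_assoc, (hYg g).eq, mul_assoc, map_mul]
  have hZc : Z = φ (Y * c 1) := by
    rw [hcg, had]
    simp
  have hcomm : ∀ d : heckeClosure D (↑S : Set ℕ), ∀ g, Commute (φ (d : Module.End ℤ_[p] D.L))
      (φ (ad g)) := fun d g => Commute.map (by
    rw [had]
    exact Commute.smul_right (LinearMap.ext fun x => (Semistable.commute_galois D S g⁻¹ d x).symm :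
      Commute (d : Module.End ℤ_[p] D.L) (D.galois g⁻¹)) _) φ
  have hZg : ∀ g, Commute Z (φ (ad g)) := fun g => by
    rw [hZc]
    exact hcomm (y * trC D S (X * MonoidAlgebra.of ℤ GQ 1)) g
  have hcc : ∀ g h, Commute (φ (Y * c g)) (φ (ad h)) := fun g h =>
    hcomm (y * trC D S (X * MonoidAlgebra.of ℤ GQ g)) h
  have hsym : ∀ g h, Z * (φ (ad g) * φ (ad h)) = Z * (φ (ad h) * φ (ad g)) := fun g h => by
    rw [← mul_assoc, (hZg g).eq, ← hcg, (hcc g h).eq, hcg, ← (hZg g).eq, ← mul_assoc,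
      ← (hZg h).eq, mul_assoc]
  have hgal : ∀ g h, Z * (φ (D.galois g) * φ (D.galois h)) =
      Z * (φ (D.galois h) * φ (D.galois g)) := fun g h => by
    have h1 := hsym g⁻¹ h⁻¹
    simp only [had, inv_inv, map_smul, mul_smul_comm, smul_mul_assoc, smul_smul] at h1
    rw [mul_comm (cyc p h⁻¹).val] at h1
    exact ((cyc p g⁻¹).isUnit.mul (cyc p h⁻¹).isUnit).smul_left_cancel.mp h1
  rw [map_mul, hcg, mul_assoc, map_sub, map_ofNat, mul_map_uTrace_commutator D φ hgal a b,
    mul_zero]

end Modulo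

/-! ## Matrices -/

variable {R : Type} [CommRing R] [IsLocalRing R] [Algebra ℤ_[p] R]
variable (r : GQ →* Mat2 R)

/-- The group ring acting by matrices. -/
def gR : MonoidAlgebra ℤ GQ →ₐ[ℤ] Mat2 R := MonoidAlgebra.lift ℤ (Mat2 R) GQ r

theorem gR_of (g : GQ) : gR r (MonoidAlgebra.of ℤ GQ g) = r g := MonoidAlgebra.lift_of _ _

variable {r} (ψ : heckeClosure D (↑S : Set ℕ) →ₐ[ℤ_[p]] R)

theorem trace_gR (htr : ∀ g, (r g).trace = ψ ⟨uTrace D g, uTrace_mem D frobeniusPowDensity S g⟩)
    (X : MonoidAlgebra ℤ GQ) : (gR r X).trace = ψ (trC D S X) := by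
  induction X using MonoidAlgebra.induction_on with
  | of g =>
    rw [gR_of, htr]
    congr 1
    refine Subtype.ext ?_
    rw [coe_trC, gD_of, adjD_of]
    rfl
  | add X Y hX hY =>
    rw [map_add, Matrix.trace_add, hX, hY, ← map_add]
    congr 1
    refine Subtype.ext ?_
    rw [AddMemClass.coe_add, coe_trC, coe_trC, coe_trC, map_add, map_add, unop_add,
      add_add_add_comm]
  | smul a X hX =>
    rw [map_zsmul, Matrix.trace_smul, hX, ← map_zsmul]
    congr 1
    refine Subtype.ext ?_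
    rw [AddSubgroupClass.coe_zsmul, coe_trC, coe_trC, map_zsmul, map_zsmul, unop_smul, smul_add]

/-- The endomorphisms modulo `p ^ m`. -/
def endMod (p m : ℕ) [Fact p.Prime] {L : Type} [AddCommGroup L] [Module ℤ_[p] L] :
    Module.End ℤ_[p] L →ₐ[ℤ_[p]] Module.End ℤ_[p]
      (L ⧸ LinearMap.range ((p ^ m : ℤ_[p]) • (LinearMap.id : L →ₗ[ℤ_[p]] L))) where
  toFun f := Submodule.mapQ _ _ f (by
    rintro _ ⟨x, rfl⟩
    exact ⟨f x, (f.map_smul _ _).symm⟩)
  map_one' := LinearMap.ext fun x => Submodule.Quotient.induction_on _ x fun _ => rfl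
  map_mul' _ _ := LinearMap.ext fun x => Submodule.Quotient.induction_on _ x fun _ => rfl
  map_zero' := LinearMap.ext fun x => Submodule.Quotient.induction_on _ x fun _ => rfl
  map_add' _ _ := LinearMap.ext fun x => Submodule.Quotient.induction_on _ x fun _ => rfl
  commutes' _ := LinearMap.ext fun x => Submodule.Quotient.induction_on _ x fun _ => rfl

theorem endMod_eq_zero_iff (m : ℕ) {f : Module.End ℤ_[p] D.L} :
    endMod p m f = 0 ↔ ∃ f', f = (p ^ m : ℤ_[p]) • f' := by
  constructor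
  · intro h
    refine exists_smul_of_forall fun v => ?_
    obtain ⟨w, hw⟩ := (Submodule.Quotient.mk_eq_zero _).mp
      (LinearMap.congr_fun h (Submodule.Quotient.mk v))
    exact ⟨w, hw.symm⟩
  · rintro ⟨f', rfl⟩
    refine LinearMap.ext fun x => Submodule.Quotient.induction_on _ x fun v => ?_
    exact (Submodule.Quotient.mk_eq_zero _).mpr ⟨f' v, rfl⟩

variable [IsHausdorff (maximalIdeal R) R]

/-- A congruence `y X ≡ 0` on the lattice gives a congruence on the matrices. -/
theorem redMat_gR_eq_zero (hnd : TraceNondeg ((mapHom (residue R)).comp r))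
    (htr : ∀ g, (r g).trace = ψ ⟨uTrace D g, uTrace_mem D frobeniusPowDensity S g⟩)
    {a b : GQ} (hab : IsUnit ((r (a * b * a⁻¹ * b⁻¹)).trace - 2))
    {k m : ℕ} (hm : ∀ c : heckeClosure D (↑S : Set ℕ),
      (∃ f, (c : Module.End ℤ_[p] D.L) = (p ^ m : ℤ_[p]) • f) → ψ c ∈ maximalIdeal R ^ k)
    {y : heckeClosure D (↑S : Set ℕ)} (hy : IsUnit (ψ y)) {X : MonoidAlgebra ℤ GQ}
    (hX : ∀ v : D.L, ∃ w, (y : Module.End ℤ_[p] D.L) (gD D X v) = (p ^ m : ℤ_[p]) • w) :
    redMat R k (gR r X) = 0 := by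
  set π := Ideal.Quotient.mk (maximalIdeal R ^ k) with hπ
  have hX' : endMod p m ((y : Module.End ℤ_[p] D.L) * gD D X) = 0 :=
    (endMod_eq_zero_iff D m).mpr (exists_smul_of_forall hX)
  have htr0 : ∀ g, π ((gR r X) * r g).trace = 0 := fun g => by
    have h0 := map_trC_mul_eq_zero D S (endMod p m) hX' a b g
    rw [endMod_eq_zero_iff] at h0
    have h1 := hm (y * trC D S (X * MonoidAlgebra.of ℤ GQ g) *
      (⟨uTrace D (a * b * a⁻¹ * b⁻¹), uTrace_mem D frobeniusPowDensity S _⟩ - 2)) (by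
        obtain ⟨f, hf⟩ := h0
        exact ⟨f, by rw [← hf]; rfl⟩)
    rw [map_mul, map_mul, map_sub, ← htr, map_ofNat, ← trace_gR D S ψ htr, map_mul (gR r),
      gR_of] at h1
    rw [hπ, Ideal.Quotient.eq_zero_iff_mem]
    rw [mul_comm (ψ y), mul_assoc] at h1
    obtain ⟨u, hu⟩ := hy.mul hab
    have h2 := Ideal.mul_mem_right ((u⁻¹ : Rˣ) : R) _ h1
    rwa [← hu, mul_assoc, Units.mul_inv, mul_one] at h2
  obtain ⟨σ, hσc, hσg⟩ := exists_frame hnd
  have hu : ∀ x : R, residue R x ≠ 0 → IsUnit x := fun x hx =>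
    notMem_maximalIdeal.mp fun h => hx ((residue_eq_zero_iff x).mpr h)
  have hg := isUnit_gram (π := residue R) (r := r) hu (fun g => rfl) hσg
  have hc := isUnit_coord (π := residue R) (r := r) hu (fun g => rfl) hσc
  rw [← sum_frameCoeff hg hc (gR r X), map_sum]
  refine Finset.sum_eq_zero fun s _ => ?_
  have hco : π (frameCoeff r σ (gR r X) s) = 0 := by
    show π (∑ t, _ * (r (σ t) * gR r X).trace) = 0
    rw [map_sum]
    refine Finset.sum_eq_zero fun t _ => ?_
    rw [map_mul, Matrix.trace_mul_comm, htr0, mul_zero]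
  ext i j
  show π (frameCoeff r σ (gR r X) s * r (σ s) i j) = 0
  rw [map_mul, hco, zero_mul]

/-- An element of the group ring killing the residual representation kills every vector killed
modulo `p` by the residual eigen ideal. -/
theorem gD_mem_of_residual [Finite (ResidueField R)]
    (htr : ∀ g, (r g).trace = ψ ⟨uTrace D g, uTrace_mem D frobeniusPowDensity S g⟩)
    {a b : GQ} (hab : IsUnit ((r (a * b * a⁻¹ * b⁻¹)).trace - 2))
    {X : MonoidAlgebra ℤ GQ} (hX : (gR r X).map (residue R) = 0) {v : D.L}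
    (hv : ∀ c : heckeClosure D (↑S : Set ℕ), ψ c ∈ maximalIdeal R →
      ∃ w, (c : Module.End ℤ_[p] D.L) v = (p : ℤ_[p]) • w) :
    ∃ w, gD D X v = (p : ℤ_[p]) • w := by
  set V := D.L ⧸ LinearMap.range ((p ^ 1 : ℤ_[p]) • (LinearMap.id : D.L →ₗ[ℤ_[p]] D.L))
  set φ := endMod p 1 (L := D.L)
  set q : D.L → V := fun v => Submodule.Quotient.mk v
  have hq : ∀ {x : D.L}, q x = 0 ↔ ∃ w, x = (p : ℤ_[p]) • w := fun {x} => by
    rw [Submodule.Quotient.mk_eq_zero]
    exact ⟨fun ⟨w, hw⟩ => ⟨w, by rw [← hw, pow_one]; rfl⟩, fun ⟨w, hw⟩ => ⟨w, by rw [hw, pow_one]; rfl⟩⟩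
  -- vectors killed by the eigen ideal
  let W : Set V := {x | ∀ c : heckeClosure D (↑S : Set ℕ), ψ c ∈ maximalIdeal R →
    φ (c : Module.End ℤ_[p] D.L) x = 0}
  have hvW : q v ∈ W := fun c hc => by
    show q ((c : Module.End ℤ_[p] D.L) v) = 0
    exact hq.mpr (hv c hc)
  have hWg : ∀ (g : GQ) (x : V), x ∈ W → φ (D.galois g) x ∈ W := fun g x hx c hc => by
    rw [← Module.End.mul_apply, ← map_mul, ← gD_of D g, (commute_gD D S c _).eq, map_mul,
      Module.End.mul_apply, hx c hc, map_zero]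
  set ad : GQ → Module.End ℤ_[p] D.L := fun g => (cyc p g).val • D.galois g⁻¹
  have hWa : ∀ (g : GQ) (x : V), x ∈ W → φ (ad g) x ∈ W := fun g x hx c hc => by
    rw [map_smul, LinearMap.smul_apply, map_smul, hWg g⁻¹ x hx c hc, smul_zero]
  have hres : ∀ g, residue R ((gR r X) * r g).trace = 0 := fun g => by
    rw [Matrix.trace_fin_two, Matrix.mul_apply, Matrix.mul_apply]
    have hij : ∀ i j, residue R (gR r X i j) = 0 := fun i j => congrFun (congrFun hX i) j
    simp [hij]
  -- `X g = - adj g adj X` on `W`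
  have hA : ∀ g, ∀ x ∈ W, φ (gD D X) (φ (D.galois g) x) = -φ (ad g) (φ (unop (adjD D X)) x) := by
    intro g x hx
    have h1 := hx (trC D S (X * MonoidAlgebra.of ℤ GQ g)) (by
      rw [← trace_gR D S ψ htr, map_mul, gR_of, ← residue_eq_zero_iff]
      exact hres g)
    rw [coe_trC, map_mul (gD D), gD_of, unop_adjD_mul, adjD_of, map_add, map_mul, map_mul,
      LinearMap.add_apply, Module.End.mul_apply, Module.End.mul_apply] at h1
    exact eq_neg_of_add_eq_zero_left h1
  have hA1 : ∀ x ∈ W, φ (unop (adjD D X)) x = -φ (gD D X) x := fun x hx => by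
    have h1 := hA 1 x hx
    simp only [ad, map_one, Units.val_one, inv_one, one_smul, Module.End.one_apply] at h1
    rw [h1, neg_neg]
  have hA2 : ∀ g, ∀ x ∈ W, φ (gD D X) (φ (D.galois g) x) = φ (ad g) (φ (gD D X) x) :=
    fun g x hx => by rw [hA g x hx, hA1 x hx, map_neg, neg_neg]
  -- symmetric in two group elements
  have hsym : ∀ g h, ∀ x ∈ W, φ (gD D X) (φ (D.galois (g * h)) x) =
      φ (gD D X) (φ (D.galois (h * g)) x) := by
    intro g h x hx
    have had : ad (g * h) = ad h * ad g := by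
      simp only [ad, map_mul, mul_inv_rev, Units.val_mul, smul_mul_smul_comm, mul_comm]
    rw [hA2 _ x hx, had, map_mul, Module.End.mul_apply, ← hA2 g x hx, map_mul D.galois, map_mul,
      Module.End.mul_apply, hA2 h _ (hWg g x hx)]
  have hcomm : ∀ a b : GQ, ∀ x ∈ W, φ (gD D X) (φ (D.galois (a * b * a⁻¹ * b⁻¹)) x) =
      φ (gD D X) x := by
    intro a b x hx
    have h1 := hsym a b _ (hWg (a⁻¹ * b⁻¹) x hx)
    simp only [← Module.End.mul_apply (φ (D.galois _)), ← map_mul] at h1
    rw [← mul_assoc (a * b)] at h1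
    rw [h1, show b * a * (a⁻¹ * b⁻¹) = 1 by group, map_one, map_one, Module.End.one_apply]
  set u : heckeClosure D (↑S : Set ℕ) :=
    ⟨uTrace D (a * b * a⁻¹ * b⁻¹), uTrace_mem D frobeniusPowDensity S _⟩ - 2 with hu
  have hker : φ (gD D X) (φ (u : Module.End ℤ_[p] D.L) (q v)) = 0 := by
    rw [hu, ← one_add_one_eq_two, AddSubgroupClass.coe_sub, AddMemClass.coe_add,
      OneMemClass.coe_one, map_sub, Subtype.coe_mk, uTrace_commutator, map_add, map_add, map_one,
      LinearMap.sub_apply, LinearMap.add_apply, LinearMap.add_apply, Module.End.one_apply, map_sub,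
      map_add, map_add, hcomm a b _ hvW, hcomm b a _ hvW, sub_self]
  have hψu : residue R (ψ u) ≠ 0 := by
    rw [hu, map_sub, ← htr, map_ofNat]
    exact (hab.map (residue R)).ne_zero
  haveI := Fintype.ofFinite (ResidueField R)
  obtain ⟨n, hn⟩ : ∃ n, Fintype.card (ResidueField R) - 1 = n + 1 :=
    ⟨_, (Nat.sub_add_cancel (Nat.le_sub_one_of_lt (Fintype.one_lt_card))).symm⟩
  have hone : φ ((u ^ (n + 1) : heckeClosure D (↑S : Set ℕ)) : Module.End ℤ_[p] D.L) (q v) =
      q v := by
    have h1 := hvW (u ^ (n + 1) - 1) (by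
      rw [← residue_eq_zero_iff, map_sub, map_pow, map_one, map_sub, map_pow, map_one,
        sub_eq_zero, ← hn]
      exact FiniteField.pow_card_sub_one_eq_one _ hψu)
    rw [AddSubgroupClass.coe_sub, OneMemClass.coe_one, map_sub, map_one, LinearMap.sub_apply,
      Module.End.one_apply, sub_eq_zero] at h1
    exact h1
  refine hq.mp ?_
  show φ (gD D X) (q v) = 0
  rw [← hone, pow_succ u n, MulMemClass.coe_mul, map_mul, Module.End.mul_apply,
    ← Module.End.mul_apply (φ (gD D X)), ← map_mul, ← (commute_gD D S _ X).eq, map_mul,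
    Module.End.mul_apply, hker, map_zero]

end Fermat.Agent.GalRep.Ordinary
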