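/-
Residual facts for a representation with residually ordinary reduction: matrices at inertia, a
commutator with trace different from two, exchange elements of the group ring.
-/
import Fermat.Agent.GalRep.Ordinary.Transfer
import Fermat.Agent.NewVec.InertiaField

set_option autoImplicit false
set_option linter.style.haveILetI false
set_option linter.unusedSectionVars false

noncomputable section

namespace Fermat.Agent.GalRep.Ordinary

open Fermat.Agent.Galois (GQ)
open Fermat.Agent.Deform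
open IsLocalRing

/-- At an odd prime some element of inertia moves a primitive root of unity. -/
theorem exists_inertia_cyc_ne_one {p : ℕ} [hp : Fact p.Prime] (hp2 : p ≠ 2)
    {A : ValuationSubring (AlgebraicClosure ℚ)} (hA : A.LiesOverPrime p) :
    ∃ σ ∈ A.inertiaSubgroupIn ℚ, PadicInt.toZMod (cyc p σ : ℤ_[p]) ≠ 1 := by
  by_contra hcon
  push Not at hcon
  obtain ⟨ζ, hζ⟩ := HasEnoughRootsOfUnity.exists_primitiveRoot (AlgebraicClosure ℚ) p
  have hfix : ∀ σ ∈ A.inertiaSubgroupIn ℚ, σ (ζ - 1) = ζ - 1 := by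
    intro σ hσ
    have h1 := cyc_spec p σ (k := 1) ζ (by rw [pow_one, hζ.pow_eq_one])
    have h2 : (cyc p σ : ℤ_[p]).toZModPow 1 = 1 := by
      have hk : (cyc p σ : ℤ_[p]) - 1 ∈ RingHom.ker (PadicInt.toZMod (p := p)) := by
        rw [RingHom.mem_ker, map_sub, map_one, hcon σ hσ, sub_self]
      rw [PadicInt.ker_toZMod, PadicInt.maximalIdeal_eq_span_p] at hk
      rw [← map_one (PadicInt.toZModPow (p := p) 1), ← sub_eq_zero, ← map_sub, ← RingHom.mem_ker,
        PadicInt.ker_toZModPow, pow_one]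
      exact hk
    haveI : Fact (1 < p ^ 1) := ⟨by rw [pow_one]; exact hp.out.one_lt⟩
    rw [h2, ZMod.val_one, pow_one] at h1
    rw [map_sub, map_one, h1]
  have hne : ζ - 1 ≠ 0 := sub_ne_zero.mpr (hζ.ne_one hp.out.one_lt)
  obtain ⟨k, hk⟩ := NewVec.exists_val_eq_zpow_of_fixed hp.out hA hfix hne
  -- `ζ - 1` and its `(p-1)`-th power
  have hζA : ζ ∈ A := by
    refine (A.valuation_le_one_iff _).mp ((pow_le_one_iff_of_nonneg zero_le hp.out.ne_zero).mp ?_)
    rw [← map_pow, hζ.pow_eq_one, map_one]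
  let u : A := ⟨ζ - 1, sub_mem hζA A.one_mem⟩
  have hu : u ∈ maximalIdeal A := by
    haveI : CharP (ResidueField A) p := charP_residue hp.out hA
    have h1 : (residue A ⟨ζ, hζA⟩) ^ p = 1 := by
      rw [← map_pow, show (⟨ζ, hζA⟩ : A) ^ p = 1 from Subtype.ext hζ.pow_eq_one, map_one]
    rw [← residue_eq_zero_iff, show u = ⟨ζ, hζA⟩ - 1 from rfl, map_sub, map_one]
    refine (pow_eq_zero_iff hp.out.ne_zero).mp ?_
    rw [sub_pow_char, h1, one_pow, sub_self]
  obtain ⟨r, hr, hrel⟩ : ∃ r : A, IsUnit r ∧ u ^ p + (p : A) * u * r = 0 := by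
    refine ⟨∑ j ∈ Finset.Ioo 0 p, u ^ (j - 1) * 1 ^ (p - j - 1) * ((p.choose j / p : ℕ) : A), ?_, ?_⟩
    · have h1 : (1 : ℕ) ∈ Finset.Ioo 0 p := Finset.mem_Ioo.mpr ⟨one_pos, hp.out.one_lt⟩
      rw [← Finset.add_sum_erase _ _ h1, Nat.choose_one_right, Nat.div_self hp.out.pos]
      refine isUnit_of_map_unit (residue A) _ ?_
      rw [map_add, map_sum, Finset.sum_eq_zero, add_zero]
      · simp
      intro j hj
      rw [Finset.mem_erase, Finset.mem_Ioo] at hj
      have : residue A u = 0 := (residue_eq_zero_iff _).mpr hu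
      rw [map_mul, map_mul, map_pow, this, zero_pow (by omega), zero_mul, zero_mul]
    · have h1 := add_pow_prime_eq hp.out u 1
      rw [show u + 1 = ⟨ζ, hζA⟩ from Subtype.ext (sub_add_cancel ζ 1),
        show (⟨ζ, hζA⟩ : A) ^ p = 1 from Subtype.ext hζ.pow_eq_one, one_pow, mul_one] at h1
      linear_combination -h1
  have hv := congrArg (fun z : A => (z : AlgebraicClosure ℚ)) (eq_neg_of_add_eq_zero_left hrel)
  push_cast at hv
  have hv' := congrArg A.valuation hv
  rw [show ((u : A) : AlgebraicClosure ℚ) = ζ - 1 from rfl] at hv'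
  rw [Valuation.map_neg, map_pow, map_mul, map_mul,
    (ValuationSubring.valuation_eq_one_iff A r).mp hr, mul_one, hk] at hv'
  have hpos := valuation_ell_pos (A := A) hp.out
  have hlt := valuation_ell_lt_one hA
  rw [← zpow_natCast, ← zpow_mul, ← zpow_one_add₀ hpos.ne'] at hv'
  have hinj := zpow_right_injective₀ hpos hlt.ne hv'
  have h3 : (p : ℤ) ≥ 3 := by
    have := hp.out.two_le
    omega
  have : k * ((p : ℤ) - 1) = 1 := by linear_combination hinj
  rcases Int.eq_one_or_neg_one_of_mul_eq_one (show ((p : ℤ) - 1) * k = 1 by linarith) with h | h <;>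
    omega

section Data

/-- A natural number as a matrix. -/
theorem natCast_mat2 {K : Type*} [CommRing K] (n : ℕ) :
    (n : Matrix (Fin 2) (Fin 2) K) = !![(n : K), 0; 0, (n : K)] := by
  ext i j
  fin_cases i <;> fin_cases j <;> simp [Matrix.natCast_apply]

variable {T : Type} [CommRing T] [IsLocalRing T]

/-- The residual matrix of an element of the group ring. -/
def gK (r : GQ →* Mat2 T) : MonoidAlgebra ℤ GQ →+* Mat2 (ResidueField T) :=
  (residue T).mapMatrix.comp (gR r).toRingHom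

theorem gK_of (r : GQ →* Mat2 T) (g : GQ) :
    gK r (MonoidAlgebra.of ℤ GQ g) = (r g).map (residue T) := by
  rw [gK, RingHom.comp_apply, AlgHom.toRingHom_eq_coe, RingHom.coe_coe, gR_of]
  rfl

theorem gK_eq (r : GQ →* Mat2 T) (X : MonoidAlgebra ℤ GQ) :
    gK r X = (gR r X).map (residue T) := rfl

/-- Residually ordinary, in a basis of the residual space. -/
structure IsResOrd (p : ℕ) [Fact p.Prime] (r : GQ →* Mat2 T)
    (A : ValuationSubring (AlgebraicClosure ℚ)) : Prop where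
  trace : ∀ σ ∈ A.inertiaSubgroupIn ℚ, residue T (r σ).trace =
    residue T ((PadicInt.toZMod (cyc p σ : ℤ_[p])).val : T) + 1
  det : ∀ σ ∈ A.inertiaSubgroupIn ℚ, residue T (r σ).det =
    residue T ((PadicInt.toZMod (cyc p σ : ℤ_[p])).val : T)
  quad : ∀ σ ∈ A.inertiaSubgroupIn ℚ, ∀ τ ∈ A.inertiaSubgroupIn ℚ,
    gK r ((MonoidAlgebra.of ℤ GQ σ - ((PadicInt.toZMod (cyc p σ : ℤ_[p])).val : MonoidAlgebra ℤ GQ)) *
      (MonoidAlgebra.of ℤ GQ τ - 1)) = 0

theorem isResOrd_of_residual {p : ℕ} [Fact p.Prime] {ρ : GaloisRepAdic T} {r : GQ →* Mat2 T}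
    (hr : HasMatrix ρ r)
    (hdet : ∀ σ : GQ, residue T (r σ).det = residue T ((PadicInt.toZMod (cyc p σ : ℤ_[p])).val : T))
    (hres : (GaloisRepAdic.ofResidualGaloisRep ρ.residual).IsOrdinaryAt p)
    {A : ValuationSubring (AlgebraicClosure ℚ)} (hA : A.LiesOverPrime p) : IsResOrd p r A := by
  obtain ⟨L, ⟨b, hL⟩, -, hsub⟩ := hres A hA
  subst hL
  let b' : Module.Basis (Fin 2) (ResidueField T) ρ.residual.V := b
  let r' : GQ →* Mat2 (ResidueField T) :=
    (LinearMap.toMatrixAlgEquiv b').toMonoidHom.comp ρ.residual.ρ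
  obtain ⟨U, hU⟩ := RHasMatrix.exists_conj (HasMatrix.residual hr) (r' := r') ⟨b', fun _ => rfl⟩
  have hrow : ∀ σ ∈ A.inertiaSubgroupIn ℚ, r' σ 1 0 = 0 ∧ r' σ 1 1 = 1 := by
    intro σ hσ
    have key : ∀ j, b'.repr (ρ.residual.ρ σ (b' j)) 1 = b'.repr (b' j) 1 := fun j => by
      obtain ⟨c, hc⟩ := Submodule.mem_span_singleton.mp (hsub σ hσ (b' j))
      have h1 : ρ.residual.ρ σ (b' j) = b' j + c • b' 0 := eq_add_of_sub_eq' hc.symm
      rw [h1, map_add, map_smul, Finsupp.add_apply, Finsupp.smul_apply, b'.repr_self 0,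
        Finsupp.single_eq_of_ne one_ne_zero, smul_zero, add_zero]
    refine ⟨?_, ?_⟩
    · show LinearMap.toMatrix b' b' (ρ.residual.ρ σ) 1 0 = 0
      rw [LinearMap.toMatrix_apply, key, b'.repr_self, Finsupp.single_eq_of_ne one_ne_zero]
    · show LinearMap.toMatrix b' b' (ρ.residual.ρ σ) 1 1 = 1
      rw [LinearMap.toMatrix_apply, key, b'.repr_self, Finsupp.single_eq_same]
  have hconj : ∀ σ, (r σ).map (residue T) = U.val * r' σ * U⁻¹.val := fun σ => by
    rw [← hU σ, Units.mul_inv_cancel_right]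
    rfl
  have hd : ∀ σ, residue T (r σ).det = (r' σ).det := fun σ => by
    rw [RingHom.map_det, RingHom.mapMatrix_apply, hconj, Matrix.det_mul, Matrix.det_mul,
      mul_comm U.val.det, mul_assoc, ← Matrix.det_mul, Units.mul_inv, Matrix.det_one, mul_one]
  have hα : ∀ σ ∈ A.inertiaSubgroupIn ℚ,
      r' σ 0 0 = residue T ((PadicInt.toZMod (cyc p σ : ℤ_[p])).val : T) := fun σ hσ => by
    rw [← hdet σ, hd, Matrix.det_fin_two, (hrow σ hσ).1, (hrow σ hσ).2, mul_one, mul_zero, sub_zero]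
  refine ⟨fun σ hσ => ?_, fun σ _ => hdet σ, fun σ hσ τ hτ => ?_⟩
  · rw [AddMonoidHom.map_trace (residue T), hconj, Matrix.trace_mul_cycle, Units.inv_mul, one_mul,
      Matrix.trace_fin_two, (hrow σ hσ).2, hα σ hσ]
  · rw [map_mul, map_sub, map_sub, map_one, map_natCast, gK_of, gK_of, hconj, hconj]
    set n := (PadicInt.toZMod (cyc p σ : ℤ_[p])).val with hn
    have e1 : U.val * r' σ * U⁻¹.val - (n : Mat2 (ResidueField T)) =
        U.val * (r' σ - (n : Mat2 (ResidueField T))) * U⁻¹.val := by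
      rw [mul_sub, sub_mul, ← (Nat.cast_commute n U.val).eq, mul_assoc (n : Mat2 (ResidueField T)),
        Units.mul_inv, mul_one]
    have e2 : U.val * r' τ * U⁻¹.val - 1 = U.val * (r' τ - 1) * U⁻¹.val := by
      rw [mul_sub, sub_mul, mul_one, Units.mul_inv]
    suffices h : (r' σ - (n : Mat2 (ResidueField T))) * (r' τ - 1) = 0 by
      rw [e1, e2, mul_assoc (U.val * _), ← mul_assoc U⁻¹.val, ← mul_assoc U⁻¹.val, Units.inv_mul,
        one_mul, ← mul_assoc, mul_assoc U.val, h, mul_zero, zero_mul]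
    ext i j
    have ha : r' σ 0 0 = (n : ResidueField T) := by rw [hα σ hσ, map_natCast]
    rw [natCast_mat2]
    fin_cases i <;> fin_cases j <;>
      simp [Matrix.mul_apply, Fin.sum_univ_two, (hrow σ hσ).1, (hrow τ hτ).1, (hrow τ hτ).2, ha]

variable {p : ℕ} [Fact p.Prime] {r : GQ →* Mat2 T} {A : ValuationSubring (AlgebraicClosure ℚ)}

/-- Coordinates in which a given element of inertia is diagonal. -/
theorem IsResOrd.exists_diag (h : IsResOrd p r A) {σ : GQ} (hσ : σ ∈ A.inertiaSubgroupIn ℚ)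
    (hne : residue T ((PadicInt.toZMod (cyc p σ : ℤ_[p])).val : T) ≠ 1) :
    ∃ P : (Mat2 (ResidueField T))ˣ, (P⁻¹).val * (r σ).map (residue T) * P.val =
      !![residue T ((PadicInt.toZMod (cyc p σ : ℤ_[p])).val : T), 0; 0, 1] := by
  set ω := residue T ((PadicInt.toZMod (cyc p σ : ℤ_[p])).val : T) with hω
  set M := (r σ).map (residue T) - 1
  have ht : M.trace = ω - 1 := by
    rw [Matrix.trace_sub, ← AddMonoidHom.map_trace (residue T), h.trace σ hσ, Matrix.trace_one,
      Fintype.card_fin, Nat.cast_two, ← one_add_one_eq_two, add_sub_add_right_eq_sub]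
  have h0 : ω - 1 ≠ 0 := sub_ne_zero.mpr hne
  have hd : M.det = 0 := by
    have h1 := h.trace σ hσ
    have h2 := h.det σ hσ
    rw [Matrix.trace_fin_two, map_add] at h1
    rw [Matrix.det_fin_two, map_sub, map_mul, map_mul] at h2
    simp only [M, Matrix.det_fin_two, Matrix.sub_apply, Matrix.map_apply, Matrix.one_apply_eq]
    simp
    linear_combination h2 - h1
  set e := (ω - 1)⁻¹ • M with he
  have hee : e * e = e := by
    rw [he, smul_mul_assoc, mul_smul_comm, sq_of_det_eq_zero hd, ht, smul_smul, smul_smul,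
      inv_mul_cancel_right₀ h0]
  have hte : e.trace = 1 := by rw [he, Matrix.trace_smul, ht, smul_eq_mul, inv_mul_cancel₀ h0]
  obtain ⟨P, hP, hePe⟩ := exists_adapted hee hte
  obtain ⟨u, hu⟩ := (Matrix.isUnit_iff_isUnit_det P).mpr hP
  refine ⟨u, ?_⟩
  have h1 : (r σ).map (residue T) = 1 + (ω - 1) • e := by
    rw [he, smul_smul, mul_inv_cancel₀ h0, one_smul, add_sub_cancel]
  rw [h1, mul_add, mul_one, add_mul, Units.inv_mul, mul_smul_comm, smul_mul_assoc, mul_assoc,
    hu, hePe, ← hu, Units.inv_mul_cancel_left]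
  ext i j
  fin_cases i <;> fin_cases j <;> simp

/-- The residual matrix in given coordinates. -/
def gP (r : GQ →* Mat2 T) (P : (Mat2 (ResidueField T))ˣ) :
    MonoidAlgebra ℤ GQ →+* Mat2 (ResidueField T) where
  toFun X := (P⁻¹).val * gK r X * P.val
  map_one' := by rw [map_one, mul_one, Units.inv_mul]
  map_mul' X Y := by rw [map_mul]; simp [mul_assoc]
  map_zero' := by rw [map_zero, mul_zero, zero_mul]
  map_add' X Y := by rw [map_add, mul_add, add_mul]

theorem gK_eq_zero_iff (P : (Mat2 (ResidueField T))ˣ) {X : MonoidAlgebra ℤ GQ} :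
    gP r P X = 0 ↔ gK r X = 0 := by
  show (P⁻¹).val * gK r X * P.val = 0 ↔ _
  rw [Units.mul_left_eq_zero, Units.mul_right_eq_zero]

theorem gP_of (P : (Mat2 (ResidueField T))ˣ) (g : GQ) :
    gP r P (MonoidAlgebra.of ℤ GQ g) = (P⁻¹).val * (r g).map (residue T) * P.val := by
  show (P⁻¹).val * gK r _ * P.val = _
  rw [gK_of]

/-- Elements with nonzero entries off the diagonal. -/
theorem exists_offdiag (hnd : TraceNondeg ((mapHom (residue T)).comp r))
    (P : (Mat2 (ResidueField T))ˣ) (i j : Fin 2) :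
    ∃ g, gP r P (MonoidAlgebra.of ℤ GQ g) i j ≠ 0 := by
  by_contra hcon
  push Not at hcon
  have h0 : P.val * Matrix.single j i 1 * (P⁻¹).val = 0 := hnd _ fun g => by
    show (P.val * Matrix.single j i 1 * (P⁻¹).val * (r g).map (residue T)).trace = 0
    rw [mul_assoc, mul_assoc, Matrix.trace_mul_comm, mul_assoc, ← gP_of]
    have := hcon g
    fin_cases i <;> fin_cases j <;>
      simpa [Matrix.trace_fin_two, Matrix.mul_apply, Fin.sum_univ_two] using this
  rw [Units.mul_left_eq_zero, Units.mul_right_eq_zero] at h0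
  simpa using congrFun (congrFun h0 j) i

/-- A commutator whose residual trace is not two. -/
theorem IsResOrd.exists_commutator (h : IsResOrd p r A)
    (hnd : TraceNondeg ((mapHom (residue T)).comp r)) {σ : GQ} (hσ : σ ∈ A.inertiaSubgroupIn ℚ)
    (hne : residue T ((PadicInt.toZMod (cyc p σ : ℤ_[p])).val : T) ≠ 1) :
    ∃ g : GQ, IsUnit ((r (g * σ * g⁻¹ * σ⁻¹)).trace - 2) := by
  obtain ⟨P, hP⟩ := h.exists_diag hσ hne
  set ω := residue T ((PadicInt.toZMod (cyc p σ : ℤ_[p])).val : T)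
  set f : GQ →* Mat2 (ResidueField T) :=
    (gP r P).toMonoidHom.comp (MonoidAlgebra.of ℤ GQ)
  have hf : ∀ g, f g = (P⁻¹).val * (r g).map (residue T) * P.val := gP_of P
  have hfσ : f σ = !![ω, 0; 0, 1] := by rw [hf, hP]
  have hunit : ∀ g, (f g).det ≠ 0 := fun g => by
    have h1 := congrArg Matrix.det (map_mul f g g⁻¹)
    rw [mul_inv_cancel, map_one, Matrix.det_one, Matrix.det_mul] at h1
    exact left_ne_zero_of_mul (h1 ▸ one_ne_zero)
  obtain ⟨g, hg01, hg10⟩ : ∃ g, f g 0 1 ≠ 0 ∧ f g 1 0 ≠ 0 := by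
    obtain ⟨g₁, h₁⟩ := exists_offdiag hnd P 0 1
    obtain ⟨g₂, h₂⟩ := exists_offdiag hnd P 1 0
    change f g₁ 0 1 ≠ 0 at h₁
    change f g₂ 1 0 ≠ 0 at h₂
    by_cases h₁' : f g₁ 1 0 = 0
    · by_cases h₂' : f g₂ 0 1 = 0
      · refine ⟨g₁ * g₂, ?_, ?_⟩
        · rw [map_mul, Matrix.mul_apply, Fin.sum_univ_two, h₂', mul_zero, zero_add]
          refine mul_ne_zero h₁ fun h0 => hunit g₂ ?_
          rw [Matrix.det_fin_two, h₂', h0, mul_zero, zero_mul, sub_zero]
        · rw [map_mul, Matrix.mul_apply, Fin.sum_univ_two, h₁', zero_mul, zero_add]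
          refine mul_ne_zero (fun h0 => hunit g₁ ?_) h₂
          rw [Matrix.det_fin_two, h₁', h0, mul_zero, mul_zero, sub_zero]
      · exact ⟨g₂, h₂', h₂⟩
    · exact ⟨g₁, h₁, h₁'⟩
  refine ⟨g, notMem_maximalIdeal.mp fun hm => ?_⟩
  rw [← residue_eq_zero_iff, map_sub, map_ofNat, AddMonoidHom.map_trace (residue T)] at hm
  have htr : ((r (g * σ * g⁻¹ * σ⁻¹)).map (residue T)).trace = (f (g * σ * g⁻¹ * σ⁻¹)).trace := by
    rw [hf, Matrix.trace_mul_cycle, Units.mul_inv, one_mul]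
  rw [htr] at hm
  have hinv : ∀ x, (f x).det • f x⁻¹ = (f x).adjugate := fun x => by
    have h1 : f x * f x⁻¹ = 1 := by rw [← map_mul, mul_inv_cancel, map_one]
    rw [← mul_one ((f x).adjugate), ← h1, ← mul_assoc, Matrix.adjugate_mul, smul_mul_assoc, one_mul]
  have h1 : ((f g).det * (f σ).det) • f (g * σ * g⁻¹ * σ⁻¹) =
      f g * f σ * (f g).adjugate * (f σ).adjugate := by
    rw [← hinv, ← hinv, map_mul, map_mul, map_mul]
    simp only [mul_smul_comm, smul_mul_assoc, smul_smul, mul_comm (f σ).det]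
  have h2 := congrArg Matrix.trace h1
  rw [Matrix.trace_smul, sub_eq_zero.mp hm, hfσ, Matrix.adjugate_fin_two_of, Matrix.adjugate_fin_two,
    Matrix.det_fin_two_of, Matrix.det_fin_two] at h2
  simp [Matrix.mul_apply, Fin.sum_univ_two, Matrix.trace_fin_two] at h2
  have h3 : f g 0 1 * f g 1 0 * ((ω - 1) * (ω - 1)) = 0 := by linear_combination h2
  rcases mul_eq_zero.mp h3 with h4 | h4
  · exact mul_ne_zero hg01 hg10 h4
  · exact mul_ne_zero (sub_ne_zero.mpr hne) (sub_ne_zero.mpr hne) h4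

/-- Elements of the group ring exchanging the eigenspaces of an element of inertia. -/
theorem IsResOrd.exists_exchange [Finite (ResidueField T)] (h : IsResOrd p r A)
    (hnd : TraceNondeg ((mapHom (residue T)).comp r)) {σ : GQ} (hσ : σ ∈ A.inertiaSubgroupIn ℚ)
    (hne : residue T ((PadicInt.toZMod (cyc p σ : ℤ_[p])).val : T) ≠ 1)
    {c : ℤ} (hc : (c : ResidueField T) *
      (residue T ((PadicInt.toZMod (cyc p σ : ℤ_[p])).val : T) - 1) = 1) :
    ∃ X Y : MonoidAlgebra ℤ GQ,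
      gK r ((MonoidAlgebra.of ℤ GQ σ -
        ((PadicInt.toZMod (cyc p σ : ℤ_[p])).val : MonoidAlgebra ℤ GQ)) * X) = 0 ∧
      gK r ((MonoidAlgebra.of ℤ GQ σ - 1) * Y) = 0 ∧
      gK r (Y * X + c • (MonoidAlgebra.of ℤ GQ σ - 1) - 1) = 0 ∧
      gK r (X * Y - c • (MonoidAlgebra.of ℤ GQ σ - 1)) = 0 := by
  obtain ⟨P, hP⟩ := h.exists_diag hσ hne
  set n0 := (PadicInt.toZMod (cyc p σ : ℤ_[p])).val
  set ω := residue T (n0 : T) with hω
  set E : MonoidAlgebra ℤ GQ := c • (MonoidAlgebra.of ℤ GQ σ - 1) with hE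
  have hEm : gP r P E = !![1, 0; 0, 0] := by
    rw [hE, map_zsmul, map_sub, gP_of, hP, map_one]
    ext i j
    fin_cases i <;> fin_cases j <;> simp [zsmul_eq_mul, hc]
  obtain ⟨g₁, h₁⟩ := exists_offdiag hnd P 0 1
  obtain ⟨g₂, h₂⟩ := exists_offdiag hnd P 1 0
  set X₀ := E * MonoidAlgebra.of ℤ GQ g₁ * (1 - E) with hX₀
  set Y := (1 - E) * MonoidAlgebra.of ℤ GQ g₂ * E with hYdef
  set b := gP r P (MonoidAlgebra.of ℤ GQ g₁) 0 1
  set d := gP r P (MonoidAlgebra.of ℤ GQ g₂) 1 0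
  have hXm : gP r P X₀ = !![0, b; 0, 0] := by
    rw [hX₀, map_mul, map_mul, map_sub, map_one, hEm,
      Matrix.eta_fin_two (gP r P (MonoidAlgebra.of ℤ GQ g₁)), Matrix.one_fin_two]
    ext i j
    fin_cases i <;> fin_cases j <;> simp [b]
  have hYm : gP r P Y = !![0, 0; d, 0] := by
    rw [hYdef, map_mul, map_mul, map_sub, map_one, hEm,
      Matrix.eta_fin_two (gP r P (MonoidAlgebra.of ℤ GQ g₂)), Matrix.one_fin_two]
    ext i j
    fin_cases i <;> fin_cases j <;> simp [d]
  haveI := Fintype.ofFinite (ResidueField T)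
  obtain ⟨n, hn⟩ : ∃ n, Fintype.card (ResidueField T) - 1 = n + 1 :=
    ⟨_, (Nat.sub_add_cancel (Nat.le_sub_one_of_lt (Fintype.one_lt_card))).symm⟩
  have hpow : (d * b) ^ (n + 1) = 1 := hn ▸ FiniteField.pow_card_sub_one_eq_one _ (mul_ne_zero h₂ h₁)
  have hYX : gP r P (Y * X₀) = !![0, 0; 0, d * b] := by
    rw [map_mul, hYm, hXm]
    ext i j
    fin_cases i <;> fin_cases j <;> simp [Matrix.mul_apply, Fin.sum_univ_two]
  have hXn : ∀ n : ℕ, gP r P (X₀ * (Y * X₀) ^ n) = !![0, b * (d * b) ^ n; 0, 0] := by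
    intro n
    induction n with
    | zero => rw [pow_zero, mul_one, hXm, pow_zero, mul_one]
    | succ n ih =>
      rw [pow_succ, ← mul_assoc, map_mul, ih, hYX, pow_succ]
      ext i j
      fin_cases i <;> fin_cases j <;> simp [Matrix.mul_apply, Fin.sum_univ_two, mul_assoc]
  have hσm : gP r P (MonoidAlgebra.of ℤ GQ σ) = !![ω, 0; 0, 1] := by rw [gP_of, hP]
  refine ⟨X₀ * (Y * X₀) ^ n, Y, (gK_eq_zero_iff P).mp ?_, (gK_eq_zero_iff P).mp ?_,
    (gK_eq_zero_iff P).mp ?_, (gK_eq_zero_iff P).mp ?_⟩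
  · rw [map_mul, map_sub, map_natCast, hσm, hXn, natCast_mat2]
    ext i j
    fin_cases i <;> fin_cases j <;> simp [Matrix.mul_apply, Fin.sum_univ_two, hω]
  · rw [map_mul, map_sub, map_one, hσm, hYm]
    ext i j
    fin_cases i <;> fin_cases j <;> simp [Matrix.mul_apply, Fin.sum_univ_two]
  · rw [map_sub, map_add, map_mul, hYm, hXn, hEm, map_one]
    ext i j
    fin_cases i <;> fin_cases j <;> simp
    rw [sub_eq_zero, ← mul_assoc, ← pow_succ', hpow]
  · rw [map_sub, map_mul, hXn, hYm, hEm]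
    ext i j
    fin_cases i <;> fin_cases j <;> simp
    rw [sub_eq_zero, mul_comm b, mul_assoc, mul_comm b d, ← pow_succ, hpow]

end Data

end Fermat.Agent.GalRep.Ordinary
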