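/-
Classes killed by a residual eigen ideal, fixed by an element of inertia and congruent to powers on
both components vanish, given that no ordinary module consists of such classes.
-/
import Fermat.Agent.GalRep.Ordinary.Kernel
import Fermat.Agent.GalRep.Ordinary.ResidualData
import Fermat.Agent.GalRep.Semistable.Charpoly

set_option autoImplicit false
set_option linter.style.haveILetI false
set_option linter.unusedSectionVars false

noncomputable section

namespace Fermat.Agent.GalRep.Ordinary

open UpperHalfPlane CongruenceSubgroup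
open Fermat.Agent.Galois (GQ)
open Fermat.Agent.Deform
open IsLocalRing MulOpposite
open scoped MatrixGroups IsMulCommutative

local notation "ℚb" => AlgebraicClosure ℚ

variable {N p : ℕ} [NeZero N] [Fact p.Prime] [NeZero p]

theorem neZero_pow (k : ℕ) : NeZero (p ^ k) := ⟨pow_ne_zero k (NeZero.ne p)⟩

attribute [local instance] neZero_pow

/-- The lattice datum of level `N`. -/
abbrev latDatum (hred : KummerReduction N) : EichlerShimuraDatum N p :=
  eichlerShimuraDatum (K := fun k => kummerGalois N (p ^ k)) (kummerCompat N)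
    (fun k => kummerHeckeComm N (p ^ k)) (kummerFrobenius N hred)

/-! ## Reduction modulo `p` -/

/-- A vector reducing to zero is divisible. -/
theorem exists_smul_of_redPow_eq_zero {k : ℕ} {v : Lat N p} (h : redPow k v = 0) :
    ∃ w : Lat N p, v = (p ^ k : ℤ_[p]) • w := by
  have hdvd : ∀ x, (p : ℤ_[p]) ^ k ∣ (v : Additive (Gamma0 N) →+ ℤ_[p]) x := fun x => by
    rw [← Ideal.mem_span_singleton, ← PadicInt.ker_toZModPow, RingHom.mem_ker, ← redPow_apply, h]
    rfl
  choose q hq using hdvd
  have hp : (p : ℤ_[p]) ^ k ≠ 0 := pow_ne_zero _ (Nat.cast_ne_zero.mpr (NeZero.ne p))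
  exact ⟨⟨AddMonoidHom.mk' q fun a b => mul_left_cancel₀ hp (by rw [mul_add, ← hq, ← hq, ← hq, map_add]),
      fun γ hγ => mul_left_cancel₀ hp (by
        show (p : ℤ_[p]) ^ k * q (Additive.ofMul γ) = _
        rw [← hq, v.2 γ hγ, mul_zero])⟩,
    Subtype.ext (AddMonoidHom.ext fun x => hq x)⟩

theorem redPow_smul_pow (k : ℕ) (w : Lat N p) : redPow k ((p ^ k : ℤ_[p]) • w) = 0 := by
  rw [redPow_smul, map_pow, map_natCast, ← Nat.cast_pow, ZMod.natCast_self, ZMod.val_zero,
    zero_smul]

theorem dvd_pow_one : p ∣ p ^ 1 := by rw [pow_one]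

theorem castHom_toZModPow_one (a : ℤ_[p]) :
    ZMod.castHom (dvd_pow_one (p := p)) (ZMod p) (PadicInt.toZModPow 1 a) = PadicInt.toZMod a := by
  obtain ⟨b, hb⟩ : (p : ℤ_[p]) ∣ a - (a.appr 1 : ℤ_[p]) := by
    have := PadicInt.appr_spec 1 a
    rwa [pow_one, Ideal.mem_span_singleton] at this
  rw [eq_add_of_sub_eq hb, map_add, map_add, map_add, map_mul, map_mul, map_mul, map_natCast,
    map_natCast, map_natCast, map_natCast, map_natCast, map_natCast, ZMod.natCast_self, zero_mul,
    zero_mul]

/-- Reduction of the lattice modulo `p`. -/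
def red1 : Lat N p →+ ParHom N (ZMod p) :=
  ((parMap (ZMod.castHom (dvd_pow_one (p := p)) (ZMod p)).toAddMonoidHom).toAddMonoidHom).comp
    (redPow 1)

theorem red1_apply (v : Lat N p) (x : Additive (Gamma0 N)) :
    (red1 v : Additive (Gamma0 N) →+ ZMod p) x =
      PadicInt.toZMod ((v : Additive (Gamma0 N) →+ ℤ_[p]) x) :=
  castHom_toZModPow_one _

theorem red1_eq_zero_iff {v : Lat N p} : red1 v = 0 ↔ ∃ w, v = (p : ℤ_[p]) • w := by
  constructor
  · intro h
    obtain ⟨w, hw⟩ := exists_smul_of_redPow_eq_zero (k := 1) (v := v)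
      (Subtype.ext (AddMonoidHom.ext fun x => by
        have h1 := DFunLike.congr_fun (congrArg Subtype.val h) x
        rw [red1_apply] at h1
        rw [redPow_apply]
        have h2 : (v : Additive (Gamma0 N) →+ ℤ_[p]) x ∈ RingHom.ker (PadicInt.toZMod (p := p)) := h1
        rw [PadicInt.ker_toZMod, PadicInt.maximalIdeal_eq_span_p, ← pow_one (p : ℤ_[p]),
          ← PadicInt.ker_toZModPow] at h2
        exact h2))
    exact ⟨w, by rw [hw, pow_one]⟩
  · rintro ⟨w, rfl⟩
    refine Subtype.ext (AddMonoidHom.ext fun x => ?_)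
    rw [red1_apply, Submodule.coe_smul, AddMonoidHom.smul_apply, smul_eq_mul, map_mul, map_natCast,
      ZMod.natCast_self, zero_mul]
    rfl

theorem red1_smul (a : ℤ_[p]) (v : Lat N p) :
    red1 (a • v) = (PadicInt.toZMod a).val • red1 v :=
  Subtype.ext (AddMonoidHom.ext fun x => by
    rw [red1_apply, Submodule.coe_smul, AddMonoidHom.smul_apply, smul_eq_mul, map_mul,
      Submodule.coe_smul_of_tower, AddMonoidHom.smul_apply, nsmul_eq_mul, ZMod.natCast_zmod_val,
      red1_apply])

theorem red1_galois (hred : KummerReduction N) (g : GQ) (v : Lat N p) :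
    red1 ((latDatum (p := p) hred).galois g v) = (kummerGalois N p).galois g (red1 v) := by
  have h : IsCastHom (dvd_pow_one (p := p)) (redPow 1 v) (red1 v) := rfl
  have h1 := kummerCompat N p (p ^ 1) dvd_pow_one (kummerGalois N (p ^ 1)) (kummerGalois N p) g _ _ h
  refine (Subtype.ext (h1.trans ?_)).symm
  rw [show ((latDatum (p := p) hred).galois g v : Lat N p) =
    latGalois (fun k => kummerGalois N (p ^ k)) (kummerCompat N) g v from rfl]
  show _ = (ZMod.castHom (dvd_pow_one (p := p)) (ZMod p)).toAddMonoidHom.comp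
    ((redPow 1 _ : ParHom N (ZMod (p ^ 1))) : Additive (Gamma0 N) →+ ZMod (p ^ 1))
  rw [redPow_latGalois]

/-- Reduction of the lattice datum modulo `p`. -/
def redD (hred : KummerReduction N) : (latDatum (p := p) hred).L →+ ParHom N (ZMod p) := red1

theorem redD_eq_zero_iff (hred : KummerReduction N) {v : (latDatum (p := p) hred).L} :
    redD hred v = 0 ↔ ∃ w, v = (p : ℤ_[p]) • w :=
  red1_eq_zero_iff

theorem redD_smul (hred : KummerReduction N) (a : ℤ_[p]) (v : (latDatum (p := p) hred).L) :
    redD hred (a • v) = (PadicInt.toZMod a).val • redD hred v :=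
  red1_smul a v

theorem redD_galois (hred : KummerReduction N) (g : GQ) (v : (latDatum (p := p) hred).L) :
    redD hred ((latDatum (p := p) hred).galois g v) =
      (kummerGalois N p).galois g (redD hred v) :=
  red1_galois hred g v

set_option maxHeartbeats 800000 in
theorem redD_gD (hred : KummerReduction N) (X : MonoidAlgebra ℤ GQ)
    (v : (latDatum (p := p) hred).L) :
    redD hred (gD (latDatum hred) X v) = ringAct (p := p) N X (redD hred v) := by
  induction X using MonoidAlgebra.induction_on generalizing v with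
  | of g => rw [gD_of, redD_galois, ringAct, MonoidAlgebra.lift_of]
  | add X Y hX hY =>
    rw [map_add, LinearMap.add_apply, map_add, hX, hY, map_add, LinearMap.add_apply]
  | smul a X hX =>
    rw [map_zsmul, LinearMap.smul_apply, map_zsmul, hX, map_zsmul, LinearMap.smul_apply]

/-- Multiplication by `p ^ j` on classes modulo `p`. -/
theorem parMap_torsIota_red1 (j : ℕ) (w : Lat N p) :
    parMap (torsIota p j) (red1 w) = redPow (j + 1) ((p ^ j : ℤ_[p]) • w) := by
  refine Subtype.ext (AddMonoidHom.ext fun x => ?_)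
  rw [parMap_apply, red1_apply, redPow_apply, Submodule.coe_smul, AddMonoidHom.smul_apply,
    smul_eq_mul]
  set a := (w : Additive (Gamma0 N) →+ ℤ_[p]) x
  obtain ⟨b, hb⟩ : (p : ℤ_[p]) ∣ a - (a.appr 1 : ℤ_[p]) := by
    have := PadicInt.appr_spec 1 a
    rwa [pow_one, Ideal.mem_span_singleton] at this
  have e1 : PadicInt.toZMod a = ((a.appr 1 : ℕ) : ZMod p) := by
    conv_lhs => rw [eq_add_of_sub_eq hb]
    rw [map_add, map_mul, map_natCast, map_natCast, ZMod.natCast_self,
      zero_mul, zero_add]
  have e2 : PadicInt.toZModPow (j + 1) ((p : ℤ_[p]) ^ j * a) =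
      ((p ^ j * a.appr 1 : ℕ) : ZMod (p ^ (j + 1))) := by
    conv_lhs => rw [eq_add_of_sub_eq hb, mul_add, ← mul_assoc, ← pow_succ]
    rw [map_add,
      show PadicInt.toZModPow (j + 1) ((p : ℤ_[p]) ^ (j + 1) * b) = 0 by
        rw [map_mul, map_pow, map_natCast, ← Nat.cast_pow, ZMod.natCast_self, zero_mul],
      zero_add, map_mul, map_pow, map_natCast, map_natCast, Nat.cast_mul, Nat.cast_pow]
  rw [e1, e2, ← Int.cast_natCast (R := ZMod p), torsIota_intCast]
  push_cast
  ring

theorem nsmul_sub_eq_self {n c : ℕ} (h : (c : ZMod p) * ((n : ZMod p) - 1) = 1)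
    (y : ParHom N (ZMod p)) : c • (n • y - y) = y := by
  refine Subtype.ext (AddMonoidHom.ext fun z => ?_)
  show c • (n • (y : Additive (Gamma0 N) →+ ZMod p) z - (y : Additive (Gamma0 N) →+ ZMod p) z) = _
  rw [nsmul_eq_mul, nsmul_eq_mul]
  linear_combination ((y : Additive (Gamma0 N) →+ ZMod p) z) * h

section Apply

variable {R M : Type*} [Ring R] [AddCommGroup M] (f : R →+* Module.End ℤ M) (s t X Y : R) (y : M)

theorem act_quad (n : ℕ) :
    f ((s - (n : R)) * (t - 1)) y = f s (f t y - y) - n • (f t y - y) := by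
  simp [Module.End.natCast_apply, smul_sub]

theorem act_sub_natCast_mul (n : ℕ) : f ((s - (n : R)) * X) y = f s (f X y) - n • f X y := by
  simp [Module.End.natCast_apply]

theorem act_sub_one_mul : f ((s - 1) * X) y = f s (f X y) - f X y := by simp

theorem act_mul_add (c : ℤ) :
    f (Y * X + c • (s - 1) - 1) y = f Y (f X y) + c • (f s y - y) - y := by simp

theorem act_mul_sub (c : ℤ) :
    f (X * Y - c • (s - 1)) y = f X (f Y y) - c • (f s y - y) := by simp

theorem act_smul_sub_one (c : ℕ) : f ((c : ℤ) • (s - 1)) y = c • (f s y - y) := by simp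

end Apply

/-! ## The vanishing -/

section Vanish

variable {m : ℕ} [NeZero m]
variable {T : Type} [CommRing T] [IsLocalRing T] [Algebra ℤ_[p] T]
  [IsHausdorff (maximalIdeal T) T] [Finite (ResidueField T)] [CharP (ResidueField T) p]
variable {A : ValuationSubring ℚb} {g : SL(2, ℤ)} (hg : g 1 0 = m ∧ g 1 1 = p)
  (hA : A.LiesOverPrime p)

include hg hA in
theorem powKer_heckePoly_prime (P : HeckePoly (p * m)) {χ : ParHom (p * m) (ZMod p)}
    (h : χ ∈ powKer A p m p) : heckePolyHom (p * m) (ZMod p) P χ ∈ powKer A p m p := by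
  induction P using MvPolynomial.induction_on generalizing χ with
  | C a =>
    rw [show (MvPolynomial.C a : HeckePoly (p * m)) = algebraMap ℤ _ a from rfl, AlgHom.commutes,
      Module.algebraMap_end_apply]
    exact zsmul_mem h a
  | add P Q hP hQ => rw [map_add, LinearMap.add_apply]; exact add_mem (hP h) (hQ h)
  | mul_X P i hP =>
    rw [map_mul, Module.End.mul_apply, heckePolyHom_X]
    refine hP ?_
    have hℓ := goodIndex i
    have hpℓ : p ≠ (i : Nat.Primes) := fun e => i.2 (e ▸ dvd_mul_right p m)
    rw [mem_powKer_iff hg hA] at h ⊢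
    exact ⟨h.1.hecke hA (pow_one p).symm hℓ hpℓ,
      by rw [show heckeHomAt i χ = heckeHom hℓ χ from rfl, Semistable.alR_heckeHom]
         exact h.2.hecke hA (pow_one p).symm hℓ hpℓ⟩

/-- Omega as an element of the residue field. -/
theorem natCast_omega_ne_one {σ : GQ} (h : PadicInt.toZMod (cyc p σ : ℤ_[p]) ≠ 1) :
    residue T ((PadicInt.toZMod (cyc p σ : ℤ_[p])).val : T) ≠ 1 := fun h1 => h (by
  refine (ZMod.castHom (dvd_refl p) (ResidueField T)).injective ?_
  rw [map_one, ← ZMod.natCast_zmod_val (PadicInt.toZMod (cyc p σ : ℤ_[p])), map_natCast,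
    ← map_natCast (residue T), h1])

variable (hred : KummerReduction (p * m)) {S : Finset ℕ}
  (ψ : heckeClosure (latDatum (p := p) hred) (↑S : Set ℕ) →ₐ[ℤ_[p]] T) {r : GQ →* Mat2 T}

set_option maxHeartbeats 800000 in
/-- The group generated by a class killed like the residual representation is an ordinary module. -/
theorem isOrdModule_range (x : ParHom (p * m) (ZMod p))
    (hnd : TraceNondeg ((mapHom (residue T)).comp r)) (hord : IsResOrd p r A)
    (kill : ∀ X : MonoidAlgebra ℤ GQ, gK r X = 0 → ringAct (p := p) (p * m) X x = 0) :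
    IsOrdModule A p m (AddMonoidHom.mk' (fun X => ringAct (p := p) (p * m) X x)
      fun X Y => by rw [map_add, LinearMap.add_apply]).range := by
  let act := ringAct (p := p) (p * m)
  let toM : MonoidAlgebra ℤ GQ →+ ParHom (p * m) (ZMod p) :=
    AddMonoidHom.mk' (fun X => act X x) fun X Y => by rw [map_add, LinearMap.add_apply]
  have hof : ∀ g y, act (MonoidAlgebra.of ℤ GQ g) y = (kummerGalois (p * m) p).galois g y :=
    fun g y => by
      show ringAct (p * m) _ y = _
      rw [ringAct, MonoidAlgebra.lift_of]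
  show IsOrdModule A p m toM.range
  have killM : ∀ X, gK r X = 0 → ∀ y ∈ toM.range, act X y = 0 := by
    rintro X hX _ ⟨Y, rfl⟩
    show act X (act Y x) = 0
    rw [← Module.End.mul_apply, ← map_mul]
    exact kill _ (by rw [map_mul, hX, zero_mul])
  refine ⟨?_, fun σ hσ τ hτ z hy => ?_, fun σ hσ hne => ?_⟩
  · rintro g _ ⟨Y, rfl⟩
    refine ⟨MonoidAlgebra.of ℤ GQ g * Y, ?_⟩
    show act _ x = _
    rw [map_mul, Module.End.mul_apply, hof g]
    rfl
  · have h1 := killM _ (hord.quad σ hσ τ hτ) z hy
    replace h1 := (act_quad act.toRingHom _ _ _ _).symm.trans h1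
    change act _ (act _ z - z) - _ • (act _ z - z) = 0 at h1
    rw [hof σ, hof τ] at h1
    exact sub_eq_zero.mp h1
  · set n1 := (PadicInt.toZMod (cyc p σ : ℤ_[p])).val with hn1'
    set c1 : ℕ := ((n1 : ZMod p) - 1)⁻¹.val with hc1
    have hne' : (n1 : ZMod p) - 1 ≠ 0 := by
      rw [hn1', ZMod.natCast_zmod_val]
      exact sub_ne_zero.mpr hne
    have hc1z : (c1 : ZMod p) * ((n1 : ZMod p) - 1) = 1 := by
      rw [hc1, ZMod.natCast_zmod_val, inv_mul_cancel₀ hne']
    obtain ⟨X, Y, hX, hY, hYX, hXY⟩ := hord.exists_exchange hnd hσ (natCast_omega_ne_one hne)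
      (c := (c1 : ℤ)) (by
        have := congrArg (ZMod.castHom (dvd_refl p) (ResidueField T)) hc1z
        rw [map_mul, map_sub, map_natCast, map_natCast, map_one] at this
        rw [Int.cast_natCast, ← hn1', map_natCast]
        exact this)
    refine ⟨X, Y, fun y hy => ⟨fun hy0 => ?_, fun hy0 => ?_⟩⟩
    · have h1 := killM _ hX y hy
      have h2 := killM _ hYX y hy
      replace h1 := (act_sub_natCast_mul act.toRingHom _ _ _ _).symm.trans h1
      change act _ (act X y) - _ • act X y = 0 at h1
      rw [hof σ] at h1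
      replace h2 := (act_mul_add act.toRingHom _ _ _ _ _).symm.trans h2
      change act Y (act X y) + _ • (act _ y - y) - y = 0 at h2
      rw [hof σ, hy0, sub_self, smul_zero, add_zero] at h2
      exact ⟨sub_eq_zero.mp h1, sub_eq_zero.mp h2⟩
    · have h1 := killM _ hY y hy
      have h2 := killM _ hXY y hy
      replace h1 := (act_sub_one_mul act.toRingHom _ _ _).symm.trans h1
      change act _ (act Y y) - act Y y = 0 at h1
      rw [hof σ] at h1
      replace h2 := (act_mul_sub act.toRingHom _ _ _ _ _).symm.trans h2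
      change act X (act Y y) - _ • (act _ y - y) = 0 at h2
      rw [hof σ, hy0, natCast_zsmul] at h2
      exact ⟨sub_eq_zero.mp h1, (sub_eq_zero.mp h2).trans (nsmul_sub_eq_self hc1z y)⟩

set_option maxHeartbeats 1600000 in
include hg hA in
/-- No vector modulo `p` fixed by `σ₀`, killed by the eigen ideal, lies in the kernel. -/
theorem redD_eq_zero_of_socle (hin : NoOrdInKer p m)
    (hnd : TraceNondeg ((mapHom (residue T)).comp r))
    (htr : ∀ g, (r g).trace =
      ψ ⟨uTrace (latDatum hred) g, uTrace_mem (latDatum hred) frobeniusPowDensity S g⟩)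
    (hord : IsResOrd p r A) {σ₀ : GQ} (hσ₀ : σ₀ ∈ A.inertiaSubgroupIn ℚ)
    (hω : PadicInt.toZMod (cyc p σ₀ : ℤ_[p]) ≠ 1) {w : (latDatum (p := p) hred).L}
    (hsoc : ∀ c : heckeClosure (latDatum (p := p) hred) (↑S : Set ℕ), ψ c ∈ maximalIdeal T →
      redD hred ((c : Module.End ℤ_[p] (latDatum (p := p) hred).L) w) = 0)
    (hfix : (kummerGalois (p * m) p).galois σ₀ ((redD hred) w) = (redD hred) w)
    (hK : (redD hred) w ∈ powKer A p m p) : (redD hred) w = 0 := by
  obtain ⟨g₀, hab⟩ := hord.exists_commutator hnd hσ₀ (natCast_omega_ne_one hω)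
  -- elements killing the residual representation kill the class
  have kill : ∀ X : MonoidAlgebra ℤ GQ, gK r X = 0 → ringAct (p := p) (p * m) X ((redD hred) w) = 0 := by
    intro X hX
    obtain ⟨w', hw'⟩ := gD_mem_of_residual (latDatum (p := p) hred) S ψ htr hab hX (v := w) fun c hc =>
      (redD_eq_zero_iff hred).mp (hsoc c hc)
    rw [← redD_gD hred, show gD (latDatum (p := p) hred) X w = (p : ℤ_[p]) • w' from hw']
    exact (redD_eq_zero_iff hred).mpr ⟨w', rfl⟩
  let act := ringAct (p := p) (p * m)
  set x := (redD hred) w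
  have hof : ∀ g y, act (MonoidAlgebra.of ℤ GQ g) y = (kummerGalois (p * m) p).galois g y :=
    fun g y => by
      show ringAct (p * m) _ y = _
      rw [ringAct, MonoidAlgebra.lift_of]
  let toM : MonoidAlgebra ℤ GQ →+ ParHom (p * m) (ZMod p) :=
    AddMonoidHom.mk' (fun X => act X x) fun X Y => by rw [map_add, LinearMap.add_apply]
  have hp0 : ∀ y : ParHom (p * m) (ZMod p), p • y = 0 := fun y => Semistable.parHom_nsmul_self y
  -- the scalar `1 / (ω - 1)`
  set n0 := (PadicInt.toZMod (cyc p σ₀ : ℤ_[p])).val with hn0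
  have hn1 : (n0 : ZMod p) - 1 ≠ 0 := by
    rw [hn0, ZMod.natCast_zmod_val]
    exact sub_ne_zero.mpr hω
  set c : ℕ := ((n0 : ZMod p) - 1)⁻¹.val with hc
  have hcz : ((c * n0 : ℕ) : ZMod p) = c + 1 := by
    have h1 : (c : ZMod p) * ((n0 : ZMod p) - 1) = 1 := by
      rw [hc, ZMod.natCast_zmod_val, inv_mul_cancel₀ hn1]
    push_cast
    linear_combination h1
  have hsmul : ∀ y : ParHom (p * m) (ZMod p), c • (n0 • y) = c • y + y := fun y =>
    Subtype.ext (AddMonoidHom.ext fun z => by
      rw [smul_smul, ← succ_nsmul, Submodule.coe_smul_of_tower, Submodule.coe_smul_of_tower,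
        AddMonoidHom.smul_apply, AddMonoidHom.smul_apply, nsmul_eq_mul, nsmul_eq_mul, hcz,
        Nat.cast_succ])
  set E : MonoidAlgebra ℤ GQ := (c : ℤ) • (MonoidAlgebra.of ℤ GQ σ₀ - 1) with hE
  have hactE : ∀ y, act E y = c • ((kummerGalois (p * m) p).galois σ₀ y - y) := fun y => by
    rw [hE, map_zsmul, map_sub, map_one, LinearMap.smul_apply, LinearMap.sub_apply, hof,
      Module.End.one_apply, natCast_zsmul]
  have hEx : act E x = 0 := by rw [hactE, hfix, sub_self, smul_zero]
  have hEK : ∀ y, act E y ∈ powKer A p m p := fun y => by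
    rw [hactE]
    exact nsmul_mem (powKer_inertia hg hA hσ₀ y) c
  -- the middle part acts through the Hecke algebra
  have hmid : ∀ X, act ((1 - E) * X * (1 - E)) x ∈ powKer A p m p := by
    intro X
    set Z := (1 - E) * X * (1 - E)
    have h1 : (redD hred) ((trC (latDatum (p := p) hred) S Z : Module.End ℤ_[p] (latDatum (p := p) hred).L) w) = act Z x := by
      rw [coe_trC, LinearMap.add_apply]
      rw [map_add]
      have hadj : ∀ u : (latDatum (p := p) hred).L, (redD hred) u = x →
          (redD hred) (unop (adjD (latDatum (p := p) hred) (1 - E)) u) = 0 := by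
        intro u hu
        have hinv : (kummerGalois (p * m) p).galois σ₀⁻¹ x = x := by
          conv_lhs => rw [← hfix]
          rw [← Module.End.mul_apply, ← map_mul, inv_mul_cancel, map_one, Module.End.one_apply]
        rw [hE, map_sub, map_one, map_zsmul, map_sub, map_one, unop_sub, unop_one, unop_smul,
          unop_sub, unop_one, adjD_of, LinearMap.sub_apply, LinearMap.smul_apply,
          LinearMap.sub_apply, Module.End.one_apply, LinearMap.smul_apply]
        refine (map_sub (redD hred) _ _).trans ?_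
        rw [hu, map_zsmul (redD hred)]
        refine sub_eq_zero.mpr ?_
        have h2 : (redD hred) ((cyc p σ₀ : ℤ_[p]) • (latDatum (p := p) hred).galois σ₀⁻¹ u - u) = n0 • x - x := by
          refine (map_sub (redD hred) _ _).trans ?_
          rw [hu]
          congr 1
          refine (redD_smul hred _ _).trans ?_
          rw [← hn0]
          congr 1
          exact (redD_galois hred σ₀⁻¹ u).trans (by rw [hu, hinv])
        rw [h2, natCast_zsmul, smul_sub, hsmul, add_sub_cancel_left]
      have hzero : (redD hred) (unop (adjD (latDatum (p := p) hred) Z) w) = 0 := by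
        rw [unop_adjD_mul, unop_adjD_mul, Module.End.mul_apply, Module.End.mul_apply]
        obtain ⟨w', hw'⟩ := (redD_eq_zero_iff hred).mp (hadj w rfl)
        rw [hw', map_smul, map_smul]
        exact (redD_eq_zero_iff hred).mpr ⟨_, rfl⟩
      rw [hzero, add_zero]
      exact redD_gD hred Z w
    rw [← h1]
    obtain ⟨q, hq⟩ := heckeClosureHom_surjective (latDatum (p := p) hred) (↑S : Set ℕ) (trC (latDatum (p := p) hred) S Z)
    obtain ⟨P, q', rfl⟩ := exists_int_approx q 1
    rw [← hq, map_add, map_mul, ← MvPolynomial.algebraMap_eq, AlgHom.commutes, ← Algebra.smul_def,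
      Subalgebra.coe_add, Subalgebra.coe_smul, coe_heckeClosureHom_map, LinearMap.add_apply,
      LinearMap.smul_apply, pow_one]
    refine (congrArg (· ∈ powKer A p m p) ((map_add (redD hred) _ _).trans ?_)).mpr
      (powKer_heckePoly_prime hg hA (MvPolynomial.rename Subtype.val P) hK)
    rw [(redD_eq_zero_iff hred).mpr ⟨_, rfl⟩, add_zero]
    show (redD hred) (latHeckePoly (p * m) p _ w) = _
    refine Subtype.ext (AddMonoidHom.ext fun z => ?_)
    refine DFunLike.congr_fun (congrArg Subtype.val ?_) z
    exact (congrArg (parMap (ZMod.castHom (dvd_pow_one (p := p)) (ZMod p)).toAddMonoidHom)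
      (Semistable.redPow_latHeckePoly (MvPolynomial.rename Subtype.val P) w 1)).trans
      (heckePolyHom_natural _ _ _).symm
  have hM : IsOrdModule A p m toM.range := isOrdModule_range x hnd hord kill
  have hle : toM.range ≤ powKer A p m p := by
    rintro _ ⟨X, rfl⟩
    show act X x ∈ _
    have hdec : act X x = act E (act X x) + act ((1 - E) * X * (1 - E)) x := by
      rw [map_mul, map_mul, Module.End.mul_apply, Module.End.mul_apply, map_sub, map_one,
        LinearMap.sub_apply, LinearMap.sub_apply, Module.End.one_apply, Module.End.one_apply, hEx,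
        sub_zero, add_sub_cancel]
    rw [hdec]
    exact add_mem (hEK _) (hmid X)
  have hbot := hin A hA _ hM hle
  have : act 1 x ∈ toM.range := ⟨1, rfl⟩
  rw [hbot, AddSubgroup.mem_bot, map_one, Module.End.one_apply] at this
  exact this

end Vanish

end Fermat.Agent.GalRep.Ordinary
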