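/-
Transfers between the level `pm` and the level `m` prime to the residue characteristic: they commute
with Galois and preserve the classes whose reductions are powers.
-/
import Fermat.Agent.GalRep.Ordinary.Kernel

set_option autoImplicit false
set_option linter.style.haveILetI false
set_option linter.unusedSectionVars false

noncomputable section

namespace Fermat.Agent.GalRep.Ordinary

open UpperHalfPlane CongruenceSubgroup
open Fermat.Agent.Galois (GQ)
open Fermat.Agent.GalRep.Level
open Fermat.Agent.GalRep.Semistable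
open Fermat.Agent.ModField (conjM conjM_spec conjM_eq)
open scoped MatrixGroups Manifold

local notation "ℚb" => AlgebraicClosure ℚ
local notation "κ" A:max => IsLocalRing.ResidueField A

variable {A : ValuationSubring (AlgebraicClosure ℚ)}

/-! ## Restriction to a smaller group -/

section Res

variable {N N' n : ℕ} [NeZero N] [NeZero N'] [NeZero n] (h : N ∣ N')

omit [NeZero N] [NeZero N'] in
theorem gamma0_le_of_dvd (h : N ∣ N') : Gamma0 N' ≤ Gamma0 N := fun γ hγ => Gamma0_mem.mpr <| by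
  simpa using congrArg (ZMod.castHom h (ZMod N)) (Gamma0_mem.mp hγ)

/-- Restriction of classes. -/
def resR {A : Type} [AddCommGroup A] : ParHom N A →+ ParHom N' A :=
  AddMonoidHom.mk'
    (fun χ => ⟨(χ : Additive (Gamma0 N) →+ A).comp
      (Subgroup.inclusion (gamma0_le_of_dvd h)).toAdditive,
      fun γ hγ => χ.2 (Subgroup.inclusion (gamma0_le_of_dvd h) γ) hγ⟩)
    fun _ _ => rfl

theorem resR_rep {χ : ParHom N (ZMod n)} {F : ℍ → ℂ} (hF : IsKummerRep N n χ F) :
    IsKummerRep N' n (resR h χ) F :=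
  ⟨hF.holo, hF.ne_zero, fun γ τ => hF.equivariant (Subgroup.inclusion (gamma0_le_of_dvd h) γ) τ,
    hF.cusps⟩

theorem resR_galois (σ : GQ) (χ : ParHom N (ZMod n)) :
    resR h ((kummerGalois N n).galois σ χ) = (kummerGalois N' n).galois σ (resR h χ) := by
  rw [(kummerGalois N n).galois_eq, (kummerGalois N' n).galois_eq]
  obtain ⟨F, hF, -⟩ := exists_cuspBound_rep χ
  obtain ⟨f, hf, -⟩ := hF.exists_series_one
  obtain ⟨F', hF', hf', -⟩ := autChar_spec (liftAut σ) hF hf
  exact eq_autChar (liftAut σ) (resR_rep h hF) hf (resR_rep h hF') hf'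

theorem HasPowRep.res {χ : ParHom N (ZMod n)} (hχ : HasPowRep A χ) :
    HasPowRep A (resR h χ) := by
  obtain ⟨F, f, r, Φ, hF, hf, hr, hΦ, hred⟩ := hχ
  exact ⟨F, f, r, Φ, resR_rep h hF, hf, hr, hΦ, hred⟩

end Res

/-! ## The Atkin-Lehner translate and corestriction -/

section Level

variable {p m n : ℕ} [Fact p.Prime] [NeZero p] [NeZero m] [NeZero n] {g : SL(2, ℤ)}
  (hg : g 1 0 = m ∧ g 1 1 = p)

include hg

/-- The translate is an involution. -/
theorem alR_alR (χ : ParHom (p * m) (ZMod n)) : alR hg (alR hg χ) = χ := by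
  obtain ⟨F, f, hn⟩ := exists_algebraic_rep χ
  have hR := repG_of_kummer hn.rep
  have hWW := alR_rep hg (alR_rep hg hR)
  obtain ⟨ω, hω, he⟩ := exists_const_of_pow_eq (NeZero.pos n) hWW.holo hR.holo hR.ne_zero fun τ => by
    have h1 := congrFun (Wf_Wf hg (F := F ^ n)
      (fun γ hγ τ => hR.isModFun_pow.invariant γ hγ τ)) τ
    rwa [Wf_pow, Wf_pow] at h1
  have hω0 : ω ≠ 0 := fun h0 => by
    rw [h0, zero_pow (NeZero.ne n)] at hω
    exact zero_ne_one hω
  exact char_eq_of_smul hω0 hWW hR (funext he)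

/-- The translate of a restriction has the expanded representative. -/
theorem HasPowRep.alR_res {χ : ParHom m (ZMod n)} (hχ : HasPowRep A χ) :
    HasPowRep A (alR hg (resR (dvd_mul_left m p) χ)) := by
  obtain ⟨F, f, r, Φ, hF, hf, hr, hΦ, hred⟩ := hχ
  have hgm : g ∈ Gamma0 m := Gamma0_mem.mpr (by rw [hg.1]; simp)
  set ζ : ℂ := ZMod.stdAddChar
    ((χ : Additive (Gamma0 m) →+ ZMod n) (Additive.ofMul (⟨g, hgm⟩ : Gamma0 m))) with hζ
  have hζ0 : ζ ≠ 0 := fun h0 => by
    have h1 := AddChar.map_neg_eq_inv (A := ZMod n) ZMod.stdAddChar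
      (-((χ : Additive (Gamma0 m) →+ ZMod n) (Additive.ofMul (⟨g, hgm⟩ : Gamma0 m))))
    rw [neg_neg, ← hζ, h0, eq_comm, inv_eq_zero] at h1
    exact (AddChar.val_isUnit _ _).ne_zero h1
  have hW := IsRepG.kummer (alR_rep hg (repG_of_kummer (resR_rep (dvd_mul_left m p) hF)))
  refine ⟨fun τ => ζ⁻¹ * Wf p g F τ, GalRep.expand p (NeZero.ne p) f, r,
    GalRep.expand p (NeZero.ne p) Φ, hW.const_mul (inv_ne_zero hζ0), ?_, hr, fun h0 =>
      hΦ ((GalRep.expand p (NeZero.ne p)).injective (h0.trans (map_zero _).symm)), ?_⟩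
  · have h1 := hasQSeries_dq (q := p) one_pos (F := F) (δ := 1) (s := seriesToC f)
      (by simpa using hf)
    rw [seriesToC_eq_lmap (GalRep.expand _ _ _), lmap_expand, ← seriesToC_eq_lmap]
    refine h1.congr (.of_forall fun τ => ?_)
    show F ((1 : SL(2, ℤ)) • dq p τ) = ζ⁻¹ * F (g • dq p τ)
    rw [one_smul, show g • dq p τ = ((⟨g, hgm⟩ : Gamma0 m) : SL(2, ℤ)) • dq p τ from rfl,
      hF.equivariant, ← hζ, inv_mul_cancel_left₀ hζ0]
  · rw [← map_pow, ← map_pow, ← expand_series_C p (NeZero.ne p) r, ← map_mul]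
    exact hred.expand p (NeZero.ne p)

variable (hpm : ¬ p ∣ m)

include hpm

/-- Corestriction commutes with the Galois action on classes. -/
theorem corR_galois (σ : GQ) (χ : ParHom (p * m) (ZMod n)) :
    corR hg hpm ((kummerGalois (p * m) n).galois σ χ) =
      (kummerGalois m n).galois σ (corR hg hpm χ) := by
  classical
  obtain ⟨F, f, hn⟩ := exists_algebraic_rep χ
  have hR := repG_of_kummer hn.rep
  set φ := powMF (isLevel_gamma0 (p * m)) hR
  have hφi : Inv0 (p * m) (φ : ℍ → ℂ) := fun γ hγ τ => hR.isModFun_pow.invariant γ hγ τ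
  set s := liftAut σ
  obtain ⟨F', hF', hF'p⟩ := Semistable.exists_conj_rep (dvd_refl _) s hR (φ := φ) rfl
  obtain ⟨G, hG, hGp⟩ := Semistable.exists_conj_rep (dvd_mul_left m p) s (corR_rep hg hpm hR)
    (φ := normM g φ) (coe_pow_transfer_cosR g (φ := φ) rfl).symm
  -- conjugation permutes the cosets
  choose c' hc' using fun i => exists_conjEq (cycC (p * m) s) (cosR p m g i)
  have hm : ∀ i, c' i ∈ Gamma0 m := fun i =>
    (((isLevel_gamma0 m).of_dvd (dvd_mul_left m p)).conj_iff (hc' i)).mp (cosR_mem hg i)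
  choose π hπ using fun i => exists_cosR hg hpm (hm i)
  have hπinj : Function.Injective π := fun i j hij => by
    refine cosR_inj hg hpm (((isLevel_gamma0 (p * m)).conj_iff ((hc' i).mul (hc' j).inv)).mpr ?_)
    have := mul_mem (hπ i) (inv_mem (hπ j))
    rwa [hij, mul_inv_rev, inv_inv, mul_assoc, inv_mul_cancel_left] at this
  have hconj : conjM s (normM g φ) = normM g (conjM s φ) := by
    have hi' := inv0_conjM hφi σ
    have hshift : ∀ i, conjM s (shift (p * m) (cosR p m g i) φ) =
        shift (p * m) (cosR p m g (π i)) (conjM s φ) := fun i => by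
      rw [conjM_eq (Fermat.Agent.ModField.ConjF.shift' (conjM_spec s φ) (hc' i))]
      refine Subtype.ext (funext fun τ => ?_)
      rw [shift_apply, shift_apply, ← inv_mul_cancel_right (c' i) (cosR p m g (π i)), mul_smul,
        hi' _ (hπ i)]
    rw [normM, conjM_prod]
    simp only [hshift]
    exact Fintype.prod_bijective π (Finite.injective_iff_bijective.mp hπinj) _ _ fun i => rfl
  rw [hconj, ← coe_pow_transfer_cosR g (φ := conjM s φ) hF'p] at hGp
  have hcor := corR_rep hg hpm hF'
  rw [(kummerGalois (p * m) n).galois_eq, (kummerGalois m n).galois_eq]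
  obtain ⟨ω, hω, he⟩ := exists_const_of_pow_eq (NeZero.pos n) hcor.holo hG.holo hG.ne_zero fun τ =>
    congrFun hGp τ
  have hω0 : ω ≠ 0 := fun h0 => by
    rw [h0, zero_pow (NeZero.ne n)] at hω
    exact zero_ne_one hω
  exact char_eq_of_smul hω0 hcor hG (funext he)

end Level

/-- Twisting by roots of unity of the order of the characteristic does not change reductions. -/
theorem hasRed_twist_one {p : ℕ} [Fact p.Prime] [CharP (κ A) p] {z : ℚbˣ} (hz : z ^ p = 1)
    {f : LaurentSeries ℚb} {F : LaurentSeries (κ A)} (h : HasRed A f F) :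
    HasRed A (twist z f) F := by
  intro k
  obtain ⟨h1, e1⟩ := h k
  have hp : p ≠ 0 := (Fact.out : p.Prime).ne_zero
  have hk : ((z ^ k : ℚbˣ) : ℚb) ^ p = 1 := by
    rw [← Units.val_pow_eq_pow_val, ← zpow_natCast, ← zpow_mul, mul_comm, zpow_mul, zpow_natCast,
      hz, one_zpow, Units.val_one]
  have hmem : ((z ^ k : ℚbˣ) : ℚb) ∈ A := (A.valuation_le_one_iff _).mp
    ((pow_le_one_iff_of_nonneg zero_le hp).mp (by rw [← map_pow, hk, map_one]))
  have hres : IsLocalRing.residue A ⟨_, hmem⟩ = 1 := frobenius_inj (κ A) p (by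
    rw [frobenius_def, ← map_pow, show (⟨_, hmem⟩ : A) ^ p = 1 from Subtype.ext hk, map_one,
      map_one])
  refine ⟨by rw [twist_coeff]; exact mul_mem h1 hmem, ?_⟩
  rw [← e1, ← mul_one (IsLocalRing.residue A ⟨f.coeff k, h1⟩), ← hres, ← map_mul]
  exact congrArg _ (Subtype.ext (twist_coeff z f k))

/-- A series congruent to powers at infinity and after the translate has corestriction congruent
to a power. -/
theorem HasPowRep.cor {p m : ℕ} [Fact p.Prime] [NeZero p] [NeZero m] {g : SL(2, ℤ)}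
    (hg : g 1 0 = m ∧ g 1 1 = p) (hpm : ¬ p ∣ m) (hA : A.LiesOverPrime p)
    {χ : ParHom (p * m) (ZMod p)} (h : HasPowRep A χ) (h' : HasPowRep A (alR hg χ)) :
    HasPowRep A (corR hg hpm χ) := by
  classical
  haveI : CharP (κ A) p := charP_residue Fact.out hA
  have hp : p.Prime := Fact.out
  obtain ⟨F, hF, ⟨a, c, Φ, hc, hΦ, ha, ra⟩, hW⟩ := (mem_powKer_iff hg hA).mpr ⟨h, h'⟩
  obtain ⟨b, d, Ψ, hd, hΨ, hb, rb⟩ := hW g hg
  have hR := repG_of_kummer hF
  set φ := powMF (isLevel_gamma0 (p * m)) hR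
  have hG := corR_rep hg hpm hR
  set G := transferProd (fun i => (cosR p m g i : IMat))
    (fun i => by rw [(cosR p m g i).det_coe]; exact one_pos) F
  have hGp : G ^ p = F ^ p * Uf p m (Wf p g F ^ p) := by
    rw [coe_pow_transfer_cosR g (φ := φ) rfl, coe_normM, ← Wf_pow]
    rfl
  -- the series of width `p`
  obtain ⟨z, hz⟩ : ∃ z : ℚbˣ, qbarToC z = Complex.exp (2 * Real.pi * Complex.I / p) := by
    obtain ⟨y, hy⟩ := exists_qbarToC_eq (isAlgebraic_iff_isIntegral.mpr
      ((Complex.isPrimitiveRoot_exp p hp.ne_zero).isIntegral hp.pos).tower_top)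
    exact ⟨Units.mk0 y fun h0 => Complex.exp_ne_zero _ (by rw [← hy, h0, map_zero]), hy⟩
  have hzp : z ^ p = 1 := Units.ext (qbarToC.injective (by
    rw [Units.val_pow_eq_pow_val, map_pow, hz, Units.val_one, map_one]
    exact (Complex.isPrimitiveRoot_exp p hp.ne_zero).pow_eq_one))
  have hU : HasQSeries p (Uf p m (Wf p g F ^ p))
      (seriesToC (∏ i : Fin p, twist (z ^ ((i : ℕ) * m)) b)) := by
    rw [seriesToC_eq_lmap, map_prod]
    refine HasQSeries.prod _ fun i _ => ?_
    rw [lmap_twist, ← seriesToC_eq_lmap]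
    have h1 := hb.comp_affine one_pos 1 p one_ne_zero hp.pos ((i : ℕ) * m) (uq p m i)
      (fun τ => by rw [coe_uq]; push_cast; ring)
      (Units.map ((qbarToC : ℚb →+* ℂ) : ℚb →* ℂ) (z ^ ((i : ℕ) * m))) (by
        rw [Units.coe_map]
        show qbarToC ((z ^ ((i : ℕ) * m) : ℚbˣ) : ℚb) = _
        rw [Units.val_pow_eq_pow_val, map_pow, hz, ← Complex.exp_nat_mul]
        congr 1
        push_cast
        ring)
    rwa [expand_one, one_mul] at h1
  have hGK := IsRepG.kummer hG
  obtain ⟨u, hu, -⟩ := hGK.exists_series_one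
  set S := GalRep.expand p hp.ne_zero a * ∏ i : Fin p, twist (z ^ ((i : ℕ) * m)) b
  have hexp : GalRep.expand p hp.ne_zero (u ^ p) = seriesToC S := by
    have h1 := (hu.pow p).refine_width one_pos p hp.ne_zero
    rw [one_mul] at h1
    refine h1.unique hp.pos ?_
    have h2 := ha.refine_width one_pos p hp.ne_zero
    rw [one_mul] at h2
    rw [hGp, seriesToC_eq_lmap, map_mul, lmap_expand, ← seriesToC_eq_lmap, ← seriesToC_eq_lmap]
    exact h2.mul hU
  obtain ⟨w, hw⟩ := exists_seriesToC_eq (f := u ^ p) fun j => by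
    rw [← expand_coeff_mul p hp.ne_zero (u ^ p) j, hexp]
    exact (Algebra.IsAlgebraic.isAlgebraic _).algHom qbarToC.toRatAlgHom
  have hwS : GalRep.expand p hp.ne_zero w = S := seriesToC_injective (by
    rw [← hexp, ← hw, seriesToC_eq_lmap, lmap_expand, ← seriesToC_eq_lmap])
  obtain ⟨v, hv, rfl⟩ := exists_series_of_pow hGK (a := w) (hw ▸ hu.pow p)
  -- the reduction
  have hred : HasRed A (GalRep.expand p hp.ne_zero (HahnSeries.C (c * d ^ p) * v ^ p))
      (GalRep.expand p hp.ne_zero (Φ ^ p) * ∏ _i : Fin p, Ψ ^ p) := by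
    rw [map_mul, hwS, expand_series_C]
    convert (ra.expand p hp.ne_zero).mul (HasRed.prod (Finset.univ : Finset (Fin p)) fun i _ =>
      hasRed_twist_one (z := z ^ ((i : ℕ) * m))
        (by rw [← pow_mul, mul_comm, pow_mul, hzp, one_pow]) rb) using 1
    simp only [S, map_mul, expand_series_C, twist_series_C, Finset.prod_mul_distrib,
      Finset.prod_const, Finset.card_univ, Fintype.card_fin, map_pow]
    ring
  rw [Finset.prod_const, Finset.card_univ, Fintype.card_fin, pow_char_eq_expand (Ψ ^ p),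
    ← map_mul, map_pow, ← mul_pow] at hred
  obtain ⟨X, hX, hXe⟩ := exists_hasRed_of_expand hp.ne_zero hred
  obtain rfl := expand_injective p hp.ne_zero hXe
  refine ⟨G, v, c * d ^ p, _, hGK, hv, mul_ne_zero hc (pow_ne_zero _ hd),
    mul_ne_zero hΦ fun h0 => hΨ (lmap_injective (frobenius (κ A) p).injective
      (h0.trans (map_zero _).symm)), hX⟩

end Fermat.Agent.GalRep.Ordinary
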