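/-
Kummer functions inside the field of functions over given constants: two representatives of one
class differ by a constant times a power; corestriction is the product over cosets; the
Atkin-Lehner translate is the expanded series.
-/
import Fermat.Agent.GalRep.Ordinary.Kernel
import Fermat.Agent.GalRep.WildModel.Roots
import Fermat.Agent.NewVec.SeriesAct

set_option autoImplicit false
set_option linter.style.haveILetI false
set_option linter.unusedSectionVars false

noncomputable section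

namespace Fermat.Agent.GalRep.Ordinary

open UpperHalfPlane CongruenceSubgroup
open Fermat.Agent.GalRep Fermat.Agent.GalRep.Level
open Fermat.Agent.GalRep.Semistable
open Fermat.Agent.ModField
open scoped MatrixGroups Manifold

variable {O : Type} [CommRing O] [IsDomain O] {M : ℕ} [NeZero M] {E : Emb O M}

/-! ## Two representatives of one class -/

section Same

variable {N n q m : ℕ} [NeZero N] [NeZero n] [Fact q.Prime]

/-- The powers of two representatives of one class differ by a constant times a power. -/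
theorem exists_pow_of_rep_eq (hNM : N ∣ M) (hle : levelG q m ≤ Gamma0 N)
    {χ : ParHom N (ZMod n)} {F₁ F₂ : ℍ → ℂ} (h1 : IsRepG (Gamma0 N) n χ F₁)
    (h2 : IsRepG (Gamma0 N) n χ F₂) {b₁ b₂ : bddMF E} (hb₁ : ((b₁ : MF M) : ℍ → ℂ) = F₁ ^ n)
    (hb₂ : ((b₂ : MF M) : ℍ → ℂ) = F₂ ^ n) :
    ∃ (c : O) (H : Fld E), c ≠ 0 ∧ H ≠ 0 ∧ H ∈ levelFld E q m E.K ∧
      toFld E b₂ = algebraMap O (Fld E) c * toFld E b₁ * H ^ n := by
  obtain ⟨d, hd⟩ : ∃ d, n = d + 1 := ⟨n - 1, (Nat.sub_add_cancel (NeZero.pos n)).symm⟩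
  have hG := h2.mul (h1.pow d)
  rw [show χ + d • χ = 0 by
    rw [add_comm, ← succ_nsmul]
    exact hd ▸ parHom_nsmul_self χ] at hG
  have hlev : IsLevel M (Gamma0 N) := (isLevel_gamma0 N).of_dvd hNM
  let Gm : MF M := ⟨_, modFuns_anti hlev.gamma_le hG.isModFun⟩
  have hGn : (Gm ^ n : MF M) = (b₂ : MF M) * (b₁ : MF M) ^ d := Subtype.ext (by
    show (F₂ * F₁ ^ d) ^ n = ((b₂ : MF M) : ℍ → ℂ) * ((b₁ : MF M) : ℍ → ℂ) ^ d
    rw [hb₁, hb₂, mul_pow, ← pow_mul, ← pow_mul, mul_comm d n])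
  have hGs0 : serAlg M Gm ≠ 0 := (map_ne_zero_iff _ (serAlg_injective M)).mpr fun h0 =>
    hG.ne_zero (congrArg (fun x : MF M => (x : ℍ → ℂ)) h0)
  set l := (serAlg M Gm).coeff (serAlg M Gm).order
  have hl0 : l ≠ 0 := HahnSeries.coeff_order_eq_zero.not.mpr hGs0
  let Gn : MF M := algebraMap ℂ (MF M) l⁻¹ * Gm
  have hser : serAlg M Gn = HahnSeries.C l⁻¹ * serAlg M Gm := by
    rw [map_mul, AlgHom.commutes, HahnSeries.algebraMap_apply']
    simp
  have hsn : serAlg M Gm ^ n = serAlg M (b₂ : MF M) * serAlg M (b₁ : MF M) ^ d := by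
    rw [← map_pow, hGn, map_mul, map_pow]
  have hsK : serAlg M Gm ^ n ∈ kSer E.K := by
    rw [hsn]
    exact mul_mem (kSer_of_bdd E b₂.2) (pow_mem (kSer_of_bdd E b₁.2) d)
  have hlK : l ^ n ∈ E.K := by
    have h3 := mem_kSer.mp hsK (serAlg M Gm ^ n).order
    have hp : ∀ k : ℕ, (serAlg M Gm ^ k).leadingCoeff = l ^ k := fun k => by
      induction k with
      | zero => simp
      | succ k ih =>
        rw [pow_succ, HahnSeries.leadingCoeff_mul, ih, pow_succ,
          HahnSeries.leadingCoeff_eq (x := serAlg M Gm)]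
    rwa [← HahnSeries.leadingCoeff_eq, hp] at h3
  have hGK : serAlg M Gn ∈ kSer E.K := by
    rw [hser]
    refine NewVec.kSer_of_pow E.K (NeZero.pos n) (mul_ne_zero (HahnSeries.C_ne_zero (inv_ne_zero hl0))
      hGs0) ?_ ?_
    · rw [HahnSeries.order_mul (HahnSeries.C_ne_zero (inv_ne_zero hl0)) hGs0, HahnSeries.order_C,
        zero_add, HahnSeries.C_mul_eq_smul, HahnSeries.coeff_smul, smul_eq_mul]
      exact inv_mul_cancel₀ hl0
    · rw [mul_pow, ← map_pow, inv_pow]
      exact mul_mem (mem_kSer.mpr fun i => by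
        rw [HahnSeries.C_apply, HahnSeries.coeff_single]
        split_ifs
        · exact inv_mem hlK
        · exact zero_mem _) hsK
  obtain ⟨a, b, hb0, hab⟩ := exists_frac_of_mem E hlK
  let G' : bddMF E := ⟨Gn, bdd_of_kSer E hGK⟩
  have hbF : algebraMap O (Fld E) b ≠ 0 :=
    (map_ne_zero_iff _ (algebraMap_injective E)).mpr hb0
  have hb₁0 : toFld E b₁ ≠ 0 := (map_ne_zero_iff _ (toFld_injective E)).mpr fun h0 =>
    h1.ne_zero (funext fun z => (pow_eq_zero_iff (NeZero.ne n)).mp (by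
      have := congrFun hb₁ z
      rw [h0] at this
      exact this.symm))
  have ha0 : a ≠ 0 := fun h0 => pow_ne_zero n hl0 (by rw [hab, h0, map_zero, zero_div])
  have key : algebraMap O (Fld E) b * toFld E b₂ * toFld E b₁ ^ d =
      algebraMap O (Fld E) a * toFld E G' ^ n := by
    rw [algebraMap_eq, algebraMap_eq, ← map_pow, ← map_pow, ← map_mul, ← map_mul, ← map_mul]
    refine congrArg _ (Subtype.ext ?_)
    show algebraMap ℂ (MF M) (E.φ b) * (b₂ : MF M) * (b₁ : MF M) ^ d =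
      algebraMap ℂ (MF M) (E.φ a) * (algebraMap ℂ (MF M) l⁻¹ * Gm) ^ n
    rw [mul_pow, hGn, ← map_pow, ← mul_assoc, ← mul_assoc, ← map_mul]
    congr 3
    rw [inv_pow, ← div_eq_mul_inv, eq_div_iff (pow_ne_zero n hl0), hab, mul_div_assoc',
      div_eq_iff ((map_ne_zero_iff _ E.inj).mpr hb0)]
    ring
  refine ⟨a * b ^ d, toFld E G' / (toFld E b₁ * algebraMap O (Fld E) b),
    mul_ne_zero ha0 (pow_ne_zero d hb0), div_ne_zero ?_ (mul_ne_zero hb₁0 hbF), ?_, ?_⟩
  · refine (map_ne_zero_iff _ (toFld_injective E)).mpr fun h0 => mul_ne_zero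
      ((map_ne_zero_iff _ (RingHom.injective (algebraMap ℂ (MF M)))).mpr (inv_ne_zero hl0))
      (fun h' => hG.ne_zero (congrArg (fun x : MF M => (x : ℍ → ℂ)) h')) (congrArg Subtype.val h0)
  · refine div_mem ?_ (mul_mem ?_ ?_)
    · refine mem_levelFld.mpr ⟨fun g hg => ?_, by rw [toLS_toFld]; exact hGK⟩
      rw [fShift_toFld]
      refine congrArg _ (Subtype.ext ?_)
      show shift M g (algebraMap ℂ (MF M) l⁻¹ * Gm) = _
      rw [map_mul, shift_eq_self_of_invariant
        (G := Gamma0 N) (φ := Gm) (fun γ hγ τ => hG.isModFun.invariant γ hγ τ) (hle hg)]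
      rfl
    · refine mem_levelFld.mpr ⟨fun g hg => ?_, by rw [toLS_toFld]; exact kSer_of_bdd E b₁.2⟩
      rw [fShift_toFld]
      refine congrArg _ (Subtype.ext ?_)
      show shift M g (b₁ : MF M) = _
      exact shift_eq_self_of_invariant (G := Gamma0 N)
        (fun γ hγ τ => by rw [hb₁]; exact h1.isModFun_pow.invariant γ hγ τ) (hle hg)
    · refine mem_levelFld.mpr ⟨fun g _ => fShift_algebraMap E g b, ?_⟩
      rw [toLS_algebraMap]
      exact Emb.sFld_le E (E.C_mem (E.φ_mem b))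
  · rw [map_mul, map_pow, div_pow, mul_pow]
    rw [hd] at key ⊢
    rw [mul_div_assoc', eq_div_iff (mul_ne_zero (pow_ne_zero _ hb₁0) (pow_ne_zero _ hbF))]
    linear_combination (toFld E b₁ * algebraMap O (Fld E) b ^ d) * key

end Same

/-! ## Corestriction and the Atkin-Lehner translate -/

section Transfer

variable {n p m m' : ℕ} [NeZero n] [Fact p.Prime] [NeZero p] [NeZero m]
  {g : SL(2, ℤ)} (hg : g 1 0 = m ∧ g 1 1 = p)

include hg

/-- The product over the cosets of the level group in `Γ(m')` is the power of a representative of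
the corestriction. -/
theorem exists_norm_rep (hpm : ¬ p ∣ m) (hmm : m ∣ m') (h : Option (Fin p) → SL(2, ℤ))
    (hmem : ∀ i, h i ∈ Gamma m') (hinj : ∀ i j, h i * (h j)⁻¹ ∈ levelG p m' → i = j)
    {χ : ParHom (p * m) (ZMod n)} {F : ℍ → ℂ} {b : bddMF E}
    (hF : IsRepG (Gamma0 (p * m)) n χ F) (hb : ((b : MF M) : ℍ → ℂ) = F ^ n) :
    ∃ (G : ℍ → ℂ) (b' : bddMF E), IsRepG (Gamma0 m) n (corR hg hpm χ) G ∧
      ((b' : MF M) : ℍ → ℂ) = G ^ n ∧ toFld E b' = ∏ i, fShift E (h i) (toFld E b) := by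
  have hle : Gamma m' ≤ Gamma0 m := fun γ hγ => Gamma0_mem.mpr (by
    simpa using congrArg (ZMod.castHom hmm (ZMod m)) (Gamma_mem.mp hγ).2.2.1)
  choose π hπ using fun i => exists_cosR hg hpm (hle (hmem i))
  have hπb : Function.Bijective π := by
    rw [← Finite.injective_iff_bijective]
    intro i j hij
    have h1 := mul_mem (hπ i) (inv_mem (hπ j))
    rw [hij, mul_inv_rev, inv_inv, mul_assoc, inv_mul_cancel_left] at h1
    refine hinj i j (mem_levelG.mpr ⟨?_, mul_mem (hmem i) (inv_mem (hmem j))⟩)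
    exact Gamma0_mem.mpr (by
      simpa using congrArg (ZMod.castHom (dvd_mul_right p m) (ZMod p)) (Gamma0_mem.mp h1))
  refine ⟨_, ∏ i, shiftB E (h i) b, corR_rep hg hpm hF, ?_, ?_⟩
  · funext τ
    rw [SubmonoidClass.coe_finsetProd, SubmonoidClass.coe_finsetProd, Finset.prod_apply,
      Pi.pow_apply, transferProd, Finset.prod_apply, ← Finset.prod_pow]
    refine Fintype.prod_bijective π hπb _ _ fun i => ?_
    show ((b : MF M) : ℍ → ℂ) (h i • τ) = _
    rw [posMat_coe_smul, hb, Pi.pow_apply, show h i • τ =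
      (h i * (cosR p m g (π i))⁻¹) • cosR p m g (π i) • τ by rw [← mul_smul, inv_mul_cancel_right]]
    exact hF.isModFun_pow.invariant _ (hπ i) _
  · rw [map_prod]
    exact Finset.prod_congr rfl fun i _ => (fShift_toFld E (h i) b).symm

/-- The element with the expanded series at the cusp is the power of the translated
representative. -/
theorem exists_al_rep (hNM : p * m ∣ M) (hmm : m ∣ m') {g' : SL(2, ℤ)}
    (hg' : g' 1 0 = m' ∧ g' 1 1 = p) {χ : ParHom (p * m) (ZMod n)} {F : ℍ → ℂ} {b : bddMF E}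
    (hF : IsRepG (Gamma0 (p * m)) n χ F) (hb : ((b : MF M) : ℍ → ℂ) = F ^ n) {x : Fld E}
    (hx : toLS E x = GalRep.expand p (NeZero.ne p) (toLS E (fShift E g' (toFld E b)))) :
    ∃ b' : bddMF E, ((b' : MF M) : ℍ → ℂ) = Wf p g F ^ n ∧ toFld E b' = x := by
  set φ' : MF M := powMF ((isLevel_gamma0 (p * m)).of_dvd hNM) (alR_rep hg hF) with hφ'
  have hgg : g' * g⁻¹ ∈ Gamma0 (p * m) := mem_gamma0_of_conj _ _ (by
    obtain ⟨c, rfl⟩ := hmm
    refine ⟨(c : ℤ) - 1, ?_⟩
    rw [hg.1, hg.2, hg'.1, hg'.2]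
    push_cast
    ring)
  have hser : serAlg M φ' =
      GalRep.expand p (NeZero.ne p) (serAlg M (shift M g' (b : MF M))) := by
    refine (hasQSeries_serHom φ').unique (NeZero.pos M) ?_
    refine (hasQSeries_dq (NeZero.pos M) (hasQSeries_shift (b : MF M) g')).congr
      (.of_forall fun τ => ?_)
    show ((b : MF M) : ℍ → ℂ) (g' • dq p τ) = Wf p g F τ ^ n
    rw [hb, show g' • dq p τ = (g' * g⁻¹) • (g • dq p τ) by
      rw [← mul_smul, inv_mul_cancel_right]]
    exact hF.isModFun_pow.invariant _ hgg _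
  have hx' : toLS E x = serAlg M φ' := by
    rw [hx, hser, fShift_toFld, toLS_toFld]
  refine ⟨⟨φ', bdd_of_kSer E (hx' ▸ Emb.sFld_le E (toLS_mem E x))⟩, rfl, toLS_injective E ?_⟩
  exact (toLS_toFld E _).trans hx'.symm

end Transfer

end Fermat.Agent.GalRep.Ordinary
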