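/-
A representation of a Hecke algebra with residually ordinary reduction is ordinary at an odd prime
exactly dividing the level, given that no ordinary module consists of classes congruent to powers on
both components.
-/
import Fermat.Agent.GalRep.Ordinary.Socle
import Fermat.Agent.GalRep.Unipotent
import Fermat.Agent.Deform.AbsIrred
import Fermat.Agent.Period.CosetCount

set_option autoImplicit false
set_option linter.style.haveILetI false
set_option linter.unusedSectionVars false

noncomputable section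

namespace Fermat.Agent.GalRep.Ordinary

open UpperHalfPlane CongruenceSubgroup
open Fermat.Agent.Galois (GQ)
open Fermat.Agent.Deform
open IsLocalRing MulOpposite
open scoped MatrixGroups IsMulCommutative

local notation "ℚb" => AlgebraicClosure ℚ

attribute [local instance] neZero_pow

/-! ## Elements outside a maximal ideal killing part of a finite module -/

section Kill

variable {C K R V : Type*} [CommRing C] [CommRing K] [IsDomain K] [Semiring R] [AddCommGroup V]
  [Module R V] [Finite V] (φ : C →+* Module.End R V) (π : C →+* K) (W : Set V)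

/-- A finite module whose socle at a prime vanishes is killed outside the prime. -/
theorem exists_kill_one (hW : ∀ c, ∀ x ∈ W, φ c x ∈ W)
    (hsoc : ∀ x ∈ W, (∀ c, π c = 0 → φ c x = 0) → x = 0) {x : V} (hx : x ∈ W) :
    ∃ y, π y ≠ 0 ∧ φ y x = 0 := by
  classical
  let orb : V → Set V := fun v => Set.range fun c => φ c v
  have hself : ∀ v, v ∈ orb v := fun v => ⟨1, by simp⟩
  have hsub : ∀ d v, orb (φ d v) ⊆ orb v := by
    rintro d v _ ⟨c, rfl⟩
    exact ⟨c * d, by simp⟩
  have hcomm : ∀ c d v, φ c (φ d v) = φ d (φ c v) := fun c d v => by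
    rw [← Module.End.mul_apply, ← map_mul, mul_comm, map_mul, Module.End.mul_apply]
  have heq : ∀ {d v}, (orb v).ncard ≤ (orb (φ d v)).ncard → ∃ c, φ c (φ d v) = v := by
    intro d v h
    obtain ⟨c, hc⟩ : v ∈ orb (φ d v) := by
      rw [Set.eq_of_subset_of_ncard_le (hsub d v) h]
      exact hself v
    exact ⟨c, hc⟩
  obtain ⟨y, hy, hmin⟩ :=
    exists_minimalFor_of_wellFoundedLT (fun y => π y ≠ 0) (fun y => (orb (φ y x)).ncard)
      ⟨1, by rw [map_one]; exact one_ne_zero⟩
  set z := φ y x with hz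
  refine ⟨y, hy, by_contra fun hz0 => ?_⟩
  -- every element of the prime is nilpotent on `z`
  have hnil : ∀ a, π a = 0 → ∃ n : ℕ, φ (a ^ n) z = 0 := by
    intro a ha
    have hN0 : (Nat.card (Module.End R V)).factorial ≠ 0 := Nat.factorial_ne_zero _
    haveI : Finite (Module.End R V) := Finite.of_injective _ DFunLike.coe_injective
    set n := (Nat.card (Module.End R V)).factorial
    have hidem := pow_idem (φ a) hN0 dvd_rfl
    have hu : π (1 - a ^ n) ≠ 0 := by
      rw [map_sub, map_one, map_pow, ha, zero_pow hN0, sub_zero]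
      exact one_ne_zero
    have hle := hmin (j := (1 - a ^ n) * y) (by show π _ ≠ 0; rw [map_mul]; exact mul_ne_zero hu hy) (by
      show (orb (φ ((1 - a ^ n) * y) x)).ncard ≤ (orb z).ncard
      rw [map_mul, Module.End.mul_apply]
      exact Set.ncard_le_ncard (hsub _ _))
    obtain ⟨c, hc⟩ := heq (d := 1 - a ^ n) (v := z) (by
      simpa only [map_mul, Module.End.mul_apply, ← hz] using hle)
    refine ⟨n, ?_⟩
    rw [← hc, hcomm (a ^ n) c, ← Module.End.mul_apply (φ (a ^ n)), ← map_mul φ (a ^ n), mul_one_sub,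
      map_sub, map_mul, map_pow, hidem, sub_self, LinearMap.zero_apply, map_zero]
  -- a minimal nonzero multiple of `z` is in the socle
  obtain ⟨d, hd, hdmin⟩ :=
    exists_minimalFor_of_wellFoundedLT (fun d => φ d z ≠ 0) (fun d => (orb (φ d z)).ncard)
      ⟨1, by rw [map_one, Module.End.one_apply]; exact hz0⟩
  refine hd (hsoc _ (hW _ _ (hW _ _ hx)) fun a ha => by_contra fun haw => ?_)
  obtain ⟨c, hc⟩ := heq (d := a) (v := φ d z) (by
    have := hdmin (j := a * d) (by show φ _ z ≠ 0; rwa [map_mul, Module.End.mul_apply]) (by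
      show (orb (φ (a * d) z)).ncard ≤ _
      rw [map_mul, Module.End.mul_apply]
      exact Set.ncard_le_ncard (hsub _ _))
    simpa only [map_mul, Module.End.mul_apply] using this)
  obtain ⟨n, hn⟩ := hnil (c * a) (by rw [map_mul, ha, mul_zero])
  have hfix : ∀ i : ℕ, φ ((c * a) ^ i) (φ d z) = φ d z := fun i => by
    induction i with
    | zero => rw [pow_zero, map_one, Module.End.one_apply]
    | succ i ih => rw [pow_succ, map_mul, Module.End.mul_apply, map_mul, Module.End.mul_apply, hc, ih]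
  apply hd
  rw [← hfix n, hcomm, hn, map_zero]

/-- A finite module whose socle at a prime vanishes is killed by one element outside the prime. -/
theorem exists_kill_all (hW : ∀ c, ∀ x ∈ W, φ c x ∈ W)
    (hsoc : ∀ x ∈ W, (∀ c, π c = 0 → φ c x = 0) → x = 0) :
    ∃ y, π y ≠ 0 ∧ ∀ x ∈ W, φ y x = 0 := by
  classical
  haveI := Fintype.ofFinite V
  choose f hf hfx using fun x : {x // x ∈ W} => exists_kill_one φ π W hW hsoc x.2
  refine ⟨∏ x, f x, by rw [map_prod]; exact Finset.prod_ne_zero_iff.mpr fun x _ => hf x, fun x hx => ?_⟩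
  rw [← Finset.prod_erase_mul _ _ (Finset.mem_univ (⟨x, hx⟩ : {x // x ∈ W})), map_mul,
    Module.End.mul_apply, hfx ⟨x, hx⟩, map_zero]

end Kill

/-- In a ring an element with `a * a = s • a` satisfies `a ^ (i + 1) = s ^ i • a`. -/
theorem pow_succ_of_mul_self {R : Type*} [Ring R] {a : R} {s : ℤ} (h : a * a = (s : R) * a) :
    ∀ i : ℕ, a ^ (i + 1) = (s : R) ^ i * a
  | 0 => by rw [pow_one, pow_zero, one_mul]
  | i + 1 => by
    rw [pow_succ, pow_succ_of_mul_self h i, mul_assoc, h, ← mul_assoc, ← pow_succ]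

variable {p : ℕ} [Fact p.Prime] [NeZero p] {m : ℕ} [NeZero m]

/-- Reduction of the lattice datum modulo a power of `p` is injective on the quotient. -/
theorem finite_latQuot (hred : KummerReduction (p * m)) (n : ℕ) :
    Finite ((latDatum (p := p) hred).L ⧸ LinearMap.range ((p ^ n : ℤ_[p]) •
      (LinearMap.id : (latDatum (p := p) hred).L →ₗ[ℤ_[p]] (latDatum (p := p) hred).L))) := by
  refine Finite.of_injective (fun x => redPow n (x.out : Lat (p * m) p)) fun x y h => ?_
  rw [← Quotient.out_eq x, ← Quotient.out_eq y]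
  refine (Submodule.Quotient.eq _).mpr ?_
  obtain ⟨w, hw⟩ := exists_smul_of_redPow_eq_zero (k := n)
    (v := (x.out : Lat (p * m) p) - y.out) ((map_sub (redPow n) _ _).trans (sub_eq_zero.mpr h))
  exact ⟨w, hw.symm⟩

/-- Hecke elements preserve the classes congruent to powers. -/
theorem powKer_heckeClosure {A : ValuationSubring ℚb} {g : SL(2, ℤ)} (hg : g 1 0 = m ∧ g 1 1 = p)
    (hA : A.LiesOverPrime p) (hred : KummerReduction (p * m)) {S : Finset ℕ} (n : ℕ)
    (c : heckeClosure (latDatum (p := p) hred) (↑S : Set ℕ)) {v : Lat (p * m) p}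
    (h : redPow n v ∈ powKer A p m (p ^ n)) :
    redPow n (((c : Module.End ℤ_[p] (latDatum (p := p) hred).L) v : Lat (p * m) p)) ∈
      powKer A p m (p ^ n) := by
  obtain ⟨q, rfl⟩ := heckeClosureHom_surjective (latDatum (p := p) hred) (↑S : Set ℕ) c
  obtain ⟨P, q', rfl⟩ := exists_int_approx q n
  set f : Lat (p * m) p := ((heckeClosureHom (latDatum (p := p) hred) (↑S : Set ℕ) q' :
    heckeClosure (latDatum (p := p) hred) (↑S : Set ℕ)) :
      Module.End ℤ_[p] (latDatum (p := p) hred).L) v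
  have h1 : redPow n (latHeckePoly (p * m) p (MvPolynomial.rename Subtype.val P) v +
      (p ^ n : ℤ_[p]) • f) ∈ powKer A p m (p ^ n) := by
    rw [map_add, redPow_smul_pow, add_zero, Semistable.redPow_latHeckePoly]
    exact powKer_heckePoly hg hA n _ h
  convert h1 using 2
  rw [map_add, map_mul, ← MvPolynomial.algebraMap_eq, AlgHom.commutes, ← Algebra.smul_def,
    Subalgebra.coe_add, Subalgebra.coe_smul, coe_heckeClosureHom_map]
  rfl

section Reduce

variable {T : Type} [CommRing T] [IsLocalRing T] [Algebra ℤ_[p] T]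
  [IsHausdorff (maximalIdeal T) T] [Finite (ResidueField T)] [CharP (ResidueField T) p]
variable {A : ValuationSubring ℚb} {g : SL(2, ℤ)} (hg : g 1 0 = m ∧ g 1 1 = p)
  (hA : A.LiesOverPrime p)
variable (hred : KummerReduction (p * m)) {S : Finset ℕ}
  (ψ : heckeClosure (latDatum (p := p) hred) (↑S : Set ℕ) →ₐ[ℤ_[p]] T) {r : GQ →* Mat2 T}

set_option maxHeartbeats 1600000 in
include hg hA in
/-- Modulo `p ^ (j + 1)`, outside the residual eigen ideal `(σ₀ - 1) ^ N` is the identity on the
image of `τ - 1`. -/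
theorem exists_unit_kill (hin : NoOrdInKer p m)
    (hnd : TraceNondeg ((mapHom (residue T)).comp r))
    (htr : ∀ g, (r g).trace =
      ψ ⟨uTrace (latDatum hred) g, uTrace_mem (latDatum hred) frobeniusPowDensity S g⟩)
    (hord : IsResOrd p r A) {σ₀ : GQ} (hσ₀ : σ₀ ∈ A.inertiaSubgroupIn ℚ)
    (hω : PadicInt.toZMod (cyc p σ₀ : ℤ_[p]) ≠ 1) {τ : GQ} (hτ : τ ∈ A.inertiaSubgroupIn ℚ)
    (j : ℕ) {N : ℕ} (hN : N ≠ 0)
    (hidem : endMod p (j + 1) (gD (latDatum (p := p) hred) ((MonoidAlgebra.of ℤ GQ σ₀ - 1) ^ N)) *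
        endMod p (j + 1) (gD (latDatum (p := p) hred) ((MonoidAlgebra.of ℤ GQ σ₀ - 1) ^ N)) =
      endMod p (j + 1) (gD (latDatum (p := p) hred) ((MonoidAlgebra.of ℤ GQ σ₀ - 1) ^ N))) :
    ∃ y : heckeClosure (latDatum (p := p) hred) (↑S : Set ℕ), IsUnit (ψ y) ∧
      ∀ v, ∃ w, (y : Module.End ℤ_[p] (latDatum (p := p) hred).L)
        (gD (latDatum (p := p) hred)
          ((1 - (MonoidAlgebra.of ℤ GQ σ₀ - 1) ^ N) * (MonoidAlgebra.of ℤ GQ τ - 1)) v) =
          (p ^ (j + 1) : ℤ_[p]) • w := by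
  let L := (latDatum (p := p) hred).L
  let P := LinearMap.range ((p ^ (j + 1) : ℤ_[p]) • (LinearMap.id : L →ₗ[ℤ_[p]] L))
  let V := L ⧸ P
  haveI : Finite V := finite_latQuot hred (j + 1)
  let mk : L → V := fun v => Submodule.Quotient.mk v
  have hmk : ∀ {v : L}, mk v = 0 ↔ ∃ w, v = (p ^ (j + 1) : ℤ_[p]) • w := fun {v} => by
    show Submodule.Quotient.mk v = 0 ↔ _
    rw [Submodule.Quotient.mk_eq_zero]
    exact ⟨fun ⟨w, hw⟩ => ⟨w, hw.symm⟩, fun ⟨w, hw⟩ => ⟨w, hw.symm⟩⟩
  let C := heckeClosure (latDatum (p := p) hred) (↑S : Set ℕ)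
  let φ : C →+* Module.End ℤ_[p] V := (endMod p (j + 1) (L := L)).toRingHom.comp C.val.toRingHom
  let a : MonoidAlgebra ℤ GQ := MonoidAlgebra.of ℤ GQ σ₀ - 1
  let ga := gD (latDatum (p := p) hred) (a ^ N)
  let e : Module.End ℤ_[p] V := endMod p (j + 1) ga
  have hemk : ∀ v : L, e (mk v) = mk (ga v) := fun v => rfl
  let K := powKer A p m (p ^ (j + 1))
  let W : Set V := {x | e x = 0 ∧ ∃ v : L, mk v = x ∧ redPow (j + 1) (v : Lat (p * m) p) ∈ K}
  obtain ⟨n', hn'⟩ := Nat.exists_eq_succ_of_ne_zero hN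
  -- images of `σ - 1` are congruent to powers
  have hdiff : ∀ σ ∈ A.inertiaSubgroupIn ℚ, ∀ v : L,
      redPow (j + 1) ((gD (latDatum (p := p) hred) (MonoidAlgebra.of ℤ GQ σ - 1) v : L) :
        Lat (p * m) p) ∈ K := by
    intro σ hσ v
    rw [map_sub, map_one, gD_of, LinearMap.sub_apply, Module.End.one_apply]
    have h1 := powKer_inertia hg hA hσ (redPow (j + 1) (v : Lat (p * m) p))
    refine (congrArg (· ∈ K) ((map_sub (redPow (j + 1)) _ _).trans
      (congrArg (· - redPow (j + 1) (v : Lat (p * m) p))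
        (redPow_latGalois (fun k => kummerGalois (p * m) (p ^ k)) (kummerCompat (p * m)) σ v
          (j + 1))))).mpr h1
  have hWC : ∀ c, ∀ x ∈ W, φ c x ∈ W := by
    rintro c x ⟨hex, v, rfl, hv⟩
    refine ⟨?_, (c : Module.End ℤ_[p] L) v, rfl, powKer_heckeClosure hg hA hred (j + 1) c hv⟩
    show (e * φ c) (mk v) = 0
    rw [show e * φ c = φ c * e from ((commute_gD _ S c _).map (endMod p (j + 1) (L := L))).eq.symm,
      Module.End.mul_apply, hex, map_zero]
  let π : C →+* ResidueField T := (residue T).comp ψ.toRingHom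
  have hπ : ∀ c, π c = 0 ↔ ψ c ∈ maximalIdeal T := fun c => residue_eq_zero_iff (ψ c)
  have hp0 : (p : ℤ_[p]) ≠ 0 := Nat.cast_ne_zero.mpr (NeZero.ne p)
  have hsoc : ∀ x ∈ W, (∀ c, π c = 0 → φ c x = 0) → x = 0 := by
    rintro x ⟨hex, v, rfl, hv⟩ hkill
    obtain ⟨u, hu⟩ := hmk.mp (hkill (p : C) (by rw [map_natCast, CharP.cast_eq_zero]))
    obtain ⟨w, rfl⟩ : ∃ w, v = (p ^ j : ℤ_[p]) • w := by
      refine ⟨u, smul_right_injective L hp0 ?_⟩
      show (p : ℤ_[p]) • v = (p : ℤ_[p]) • ((p ^ j : ℤ_[p]) • u)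
      rw [smul_smul, ← pow_succ', ← hu]
      show _ = ((p : C) : Module.End ℤ_[p] L) v
      rw [show ((p : C) : Module.End ℤ_[p] L) = (p : Module.End ℤ_[p] L) from map_natCast C.val p,
        Module.End.natCast_apply, Nat.cast_smul_eq_nsmul]
    have hcancel : ∀ z : L, (∃ z', (p ^ j : ℤ_[p]) • z = (p ^ (j + 1) : ℤ_[p]) • z') →
        redD hred z = 0 := by
      rintro z ⟨z', hz'⟩
      refine (redD_eq_zero_iff hred).mpr ⟨z', smul_right_injective L (pow_ne_zero j hp0) ?_⟩
      show (p ^ j : ℤ_[p]) • z = (p ^ j : ℤ_[p]) • ((p : ℤ_[p]) • z')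
      rw [hz', smul_smul, ← pow_succ]
    have hsoc1 : ∀ c : C, ψ c ∈ maximalIdeal T →
        redD hred ((c : Module.End ℤ_[p] L) w) = 0 := fun c hc => by
      obtain ⟨z', hz'⟩ := hmk.mp (hkill c ((hπ c).mpr hc))
      exact hcancel _ ⟨z', (LinearMap.map_smul (c : Module.End ℤ_[p] L) _ _).symm.trans hz'⟩
    -- `σ₀` fixes the class
    obtain ⟨g₀, hab⟩ := hord.exists_commutator hnd hσ₀ (natCast_omega_ne_one hω)
    have kill : ∀ X : MonoidAlgebra ℤ GQ, gK r X = 0 →
        redD hred (gD (latDatum (p := p) hred) X w) = 0 := fun X hX => by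
      obtain ⟨w', hw'⟩ := gD_mem_of_residual (latDatum (p := p) hred) S ψ htr hab hX (v := w)
        fun c hc => (redD_eq_zero_iff hred).mp (hsoc1 c hc)
      exact (redD_eq_zero_iff hred).mpr ⟨w', hw'⟩
    set n0 := (PadicInt.toZMod (cyc p σ₀ : ℤ_[p])).val with hn0
    have hn1 : (n0 : ZMod p) - 1 ≠ 0 := by
      rw [hn0, ZMod.natCast_zmod_val]
      exact sub_ne_zero.mpr hω
    set c : ℕ := ((n0 : ZMod p) - 1)⁻¹.val with hc
    have hcK : (c : ResidueField T) * ((n0 : ResidueField T) - 1) = 1 := by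
      have h1 : (c : ZMod p) * ((n0 : ZMod p) - 1) = 1 := by
        rw [hc, ZMod.natCast_zmod_val, inv_mul_cancel₀ hn1]
      have := congrArg (ZMod.castHom (dvd_refl p) (ResidueField T)) h1
      rwa [map_mul, map_sub, map_natCast, map_natCast, map_one] at this
    have haa : gK r a * gK r a = (((n0 : ℤ) - 1 : ℤ) : Mat2 (ResidueField T)) * gK r a := by
      have h1 : gK r ((MonoidAlgebra.of ℤ GQ σ₀ - (n0 : MonoidAlgebra ℤ GQ)) * a) = 0 :=
        hord.quad σ₀ hσ₀ σ₀ hσ₀
      rw [map_mul, map_sub, map_natCast] at h1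
      simp only [a, map_sub, map_one] at h1 ⊢
      push_cast
      rw [← sub_eq_zero, ← sub_mul, ← h1]
      congr 1
      abel
    have hX0 : gK r (a - ((c ^ n' : ℕ) : MonoidAlgebra ℤ GQ) * a ^ N) = 0 := by
      rw [map_sub, map_mul, map_natCast, map_pow, hn', pow_succ_of_mul_self haa, ← mul_assoc,
        sub_eq_zero]
      suffices h : ((c ^ n' : ℕ) : Mat2 (ResidueField T)) *
          (((n0 : ℤ) - 1 : ℤ) : Mat2 (ResidueField T)) ^ n' = 1 by rw [h, one_mul]
      have h2 := congrArg (algebraMap (ResidueField T) (Mat2 (ResidueField T))) hcK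
      rw [map_mul, map_sub, map_natCast, map_natCast, map_one] at h2
      push_cast
      rw [← Commute.mul_pow (Nat.cast_commute c _), h2, one_pow]
    have hfix : (kummerGalois (p * m) p).galois σ₀ (redD hred w) = redD hred w := by
      have h1 := kill _ hX0
      rw [map_sub, map_mul, map_natCast, LinearMap.sub_apply, map_sub, Module.End.mul_apply,
        Module.End.natCast_apply, map_nsmul, hcancel (gD (latDatum (p := p) hred) (a ^ N) w) (by
          obtain ⟨z', hz'⟩ := hmk.mp ((hemk _).symm.trans hex)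
          exact ⟨z', by rw [← map_smul, hz']⟩), smul_zero, sub_zero] at h1
      simp only [a, map_sub, map_one, gD_of, LinearMap.sub_apply, Module.End.one_apply] at h1
      rwa [redD_galois, sub_eq_zero] at h1
    have hK : redD hred w ∈ powKer A p m p := by
      have h1 := parMap_torsIota_red1 j (w : Lat (p * m) p)
      change parMap (torsIota p j) (redD hred w) =
        redPow (j + 1) (((p ^ j : ℤ_[p]) • w : L) : Lat (p * m) p) at h1
      rw [← h1] at hv
      obtain ⟨ξ, hξ, hξe⟩ := exists_powKer_torsion hg hA j (by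
        rw [← map_nsmul, Semistable.parHom_nsmul_self, map_zero]) hv
      convert hξ using 1
      refine Subtype.ext (AddMonoidHom.ext fun x => ?_)
      have h2 := DFunLike.congr_fun (congrArg Subtype.val hξe) x
      rw [parMap_apply, parMap_apply] at h2
      refine ZMod.injective_stdAddChar ?_
      exact ((stdAddChar_torsIota (p := p) j _).symm.trans (congrArg _ h2.symm)).trans
        (stdAddChar_torsIota (p := p) j _)
    obtain ⟨w', hw'⟩ := (redD_eq_zero_iff hred).mp
      (redD_eq_zero_of_socle hg hA hred ψ hin hnd htr hord hσ₀ hω hsoc1 hfix hK)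
    exact hmk.mpr ⟨w', by rw [hw', smul_smul, ← pow_succ]⟩
  obtain ⟨y, hy, hyW⟩ := exists_kill_all φ π W hWC hsoc
  refine ⟨y, notMem_maximalIdeal.mp fun h => hy ((hπ y).mpr h), fun v => ?_⟩
  let u := gD (latDatum (p := p) hred) (MonoidAlgebra.of ℤ GQ τ - 1) v
  refine hmk.mp (hyW (mk (gD (latDatum (p := p) hred) ((1 - a ^ N) * _) v)) ⟨?_, _, rfl, ?_⟩)
  · rw [map_mul, map_sub, map_one, Module.End.mul_apply, LinearMap.sub_apply, Module.End.one_apply]
    show e (mk u - mk (ga u)) = 0
    rw [← hemk, map_sub, ← Module.End.mul_apply, hidem, sub_self]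
  · rw [map_mul, map_sub, map_one, Module.End.mul_apply, LinearMap.sub_apply, Module.End.one_apply]
    refine (congrArg (· ∈ K) (map_sub (redPow (j + 1)) (u : Lat (p * m) p)
      (ga u : Lat (p * m) p))).mpr (sub_mem (hdiff τ hτ v) ?_)
    show redPow (j + 1) ((gD (latDatum (p := p) hred) (a ^ N) u : L) : Lat (p * m) p) ∈ K
    rw [show a ^ N = a * a ^ n' by rw [hn', pow_succ'], map_mul, Module.End.mul_apply]
    exact hdiff σ₀ hσ₀ _

end Reduce

variable {T : Type} [CommRing T] [IsLocalRing T] [IsNoetherianRing T] [Algebra ℤ_[p] T]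
  [IsHausdorff (maximalIdeal T) T] [Finite (ResidueField T)] [CharP (ResidueField T) p]

set_option maxHeartbeats 800000 in
/-- The criterion applies to a representation with the traces of the Hecke algebra. -/
theorem isOrdinaryAt_of_noOrdInKer (hp2 : p ≠ 2) (hpm : ¬ p ∣ m) (hin : NoOrdInKer p m)
    (hred : KummerReduction (p * m)) {S : Finset ℕ}
    (ψ : heckeClosure (latDatum (p := p) hred) (↑S : Set ℕ) →ₐ[ℤ_[p]] T)
    (hψc : ∀ k, ∃ n : ℕ, ∀ c : heckeClosure (latDatum (p := p) hred) (↑S : Set ℕ),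
      (∃ f, (c : Module.End ℤ_[p] (latDatum (p := p) hred).L) = (p ^ n : ℤ_[p]) • f) →
        ψ c ∈ maximalIdeal T ^ k)
    {ρ : GaloisRepAdic T} {r : GQ →* Mat2 T} (hr : HasMatrix ρ r)
    (hnd : TraceNondeg ((mapHom (residue T)).comp r))
    (htr : ∀ g, (r g).trace =
      ψ ⟨uTrace (latDatum hred) g, uTrace_mem (latDatum hred) frobeniusPowDensity S g⟩)
    (hord : ∀ A : ValuationSubring ℚb, A.LiesOverPrime p → IsResOrd p r A) :
    ρ.IsOrdinaryAt p := by
  refine isOrdinaryAt_of_idem hr fun A hA => ?_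
  obtain ⟨g, hg⟩ : ∃ g : SL(2, ℤ), g 1 0 = m ∧ g 1 1 = p :=
    Period.exists_bottom_row _ _ (Nat.Coprime.isCoprime
      (((Fact.out : p.Prime).coprime_iff_not_dvd.mpr hpm).symm))
  obtain ⟨σ₀, hσ₀, hω⟩ := exists_inertia_cyc_ne_one hp2 hA
  have hord := hord A hA
  obtain ⟨g₀, hab⟩ := hord.exists_commutator hnd hσ₀ (natCast_omega_ne_one hω)
  set M := r σ₀ - 1 with hM
  have h1 := hord.trace σ₀ hσ₀
  have h2 := hord.det σ₀ hσ₀
  have hd : M.det ∈ maximalIdeal T := by
    rw [← residue_eq_zero_iff]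
    rw [Matrix.trace_fin_two, map_add] at h1
    rw [Matrix.det_fin_two, map_sub, map_mul, map_mul] at h2
    simp [hM, Matrix.det_fin_two]
    linear_combination h2 - h1
  have ht : IsUnit M.trace := notMem_maximalIdeal.mp fun h => by
    rw [← residue_eq_zero_iff, hM, Matrix.trace_sub, Matrix.trace_one, Fintype.card_fin,
      Nat.cast_two, map_sub, h1, map_ofNat] at h
    exact natCast_omega_ne_one (T := T) hω (by linear_combination h)
  let ι := {τ : GQ // τ ∈ A.inertiaSubgroupIn ℚ}
  obtain ⟨e, hee, hte, hMe, hfix⟩ := exists_idem_of_congr hd ht (fun τ : ι => r τ.1 - 1)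
    (fun τ k => by
      obtain ⟨j, hj⟩ := hψc k
      haveI : Finite (T ⧸ maximalIdeal T) := inferInstanceAs (Finite (ResidueField T))
      haveI : Finite (T ⧸ maximalIdeal T ^ k) :=
        Ideal.finite_quotient_pow (IsNoetherian.noetherian _) k
      haveI := finite_latQuot (p := p) (m := m) hred (j + 1)
      let V := (latDatum (p := p) hred).L ⧸ LinearMap.range ((p ^ (j + 1) : ℤ_[p]) •
        (LinearMap.id : (latDatum (p := p) hred).L →ₗ[ℤ_[p]] (latDatum (p := p) hred).L))
      haveI : Finite (Module.End ℤ_[p] V) := Finite.of_injective _ DFunLike.coe_injective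
      refine ⟨(Nat.card (Mat2 (T ⧸ maximalIdeal T ^ k))).factorial *
        (Nat.card (Module.End ℤ_[p] V)).factorial, ?_⟩
      have hN : (Nat.card (Mat2 (T ⧸ maximalIdeal T ^ k))).factorial *
          (Nat.card (Module.End ℤ_[p] V)).factorial ≠ 0 :=
        mul_ne_zero (Nat.factorial_ne_zero _) (Nat.factorial_ne_zero _)
      refine ⟨hN, by rw [map_pow]; exact pow_idem _ hN (dvd_mul_right _ _), ?_⟩
      have key : ∀ t ∈ A.inertiaSubgroupIn ℚ, redMat T k
          ((1 - M ^ ((Nat.card (Mat2 (T ⧸ maximalIdeal T ^ k))).factorial *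
            (Nat.card (Module.End ℤ_[p] V)).factorial)) * (r t - 1)) = 0 := by
        intro t ht'
        obtain ⟨y, hy, hX⟩ := exists_unit_kill hg hA hred ψ hin hnd htr hord hσ₀ hω ht' j hN
          (by rw [map_pow, map_pow]; exact pow_idem _ hN (dvd_mul_left _ _))
        have := redMat_gR_eq_zero (latDatum (p := p) hred) S ψ hnd htr hab (k := k) (m := j + 1)
          (fun c ⟨f, hf⟩ => hj c ⟨(p : ℤ_[p]) • f, by rw [hf, smul_smul, ← pow_succ]⟩) hy hX
        simpa only [hM, map_mul, map_sub, map_one, map_pow, gR_of] using this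
      exact ⟨by simpa only [← hM] using key σ₀ hσ₀, key τ.1 τ.2⟩)
    ⟨⟨σ₀, hσ₀⟩⟩
  exact ⟨σ₀, hσ₀, M.trace, e, ht, hee, hte, hMe, fun τ hτ => hfix ⟨τ, hτ⟩⟩

end Fermat.Agent.GalRep.Ordinary
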