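/-
The representation of a Hecke algebra is ordinary at an odd prime exactly dividing the level if its
reduction is, given that no ordinary module consists of classes congruent to powers on both
components.
-/
import Fermat.Agent.GalRep.Ordinary.Reduce
import Fermat.Agent.GalRep.Model.Reduction

set_option autoImplicit false
set_option linter.style.haveILetI false
set_option linter.unusedSectionVars false

noncomputable section

namespace Fermat.Agent.GalRep.Ordinary

open Fermat.Agent.Galois (GQ)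
open Fermat.Agent.Deform
open IsLocalRing
open scoped IsMulCommutative

attribute [local instance] neZero_pow

/-- The determinant of a representation with the traces of the Hecke algebra. -/
theorem det_eq_cyc {p N : ℕ} [Fact p.Prime] [NeZero N] (D : EichlerShimuraDatum N p) {S : Finset ℕ}
    {T : Type} [CommRing T] [Algebra ℤ_[p] T] (h2 : ∀ x : T, 2 * x = 0 → x = 0)
    (ψ : heckeClosure D (↑S : Set ℕ) →ₐ[ℤ_[p]] T) {r : GQ →* Mat2 T}
    (htr : ∀ g, (r g).trace = ψ ⟨uTrace D g, uTrace_mem D frobeniusPowDensity S g⟩) (g : GQ) :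
    (r g).det = algebraMap ℤ_[p] T (cyc p g : ℤ_[p]) := by
  set u : heckeClosure D (↑S : Set ℕ) := ⟨uTrace D g, uTrace_mem D frobeniusPowDensity S g⟩ with hu
  have hsq : (⟨uTrace D (g ^ 2), uTrace_mem D frobeniusPowDensity S _⟩ :
      heckeClosure D (↑S : Set ℕ)) = u ^ 2 - 2 * algebraMap ℤ_[p] _ (cyc p g : ℤ_[p]) := by
    refine Subtype.ext ?_
    show uTrace D (g ^ 2) = _
    rw [Semistable.uTrace_sq]
    simp [hu]
    rfl
  have h1 := htr (g ^ 2)
  rw [hsq, map_pow, trace_pow_eq_frobPoly, map_sub, map_pow, map_mul, map_ofNat, AlgHom.commutes,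
    htr g] at h1
  simp only [frobPoly] at h1
  exact sub_eq_zero.mp (h2 _ (by linear_combination -h1))

/-- Ordinarity at the residue characteristic, exactly dividing the level. -/
theorem isOrdinaryAt_of_heckeDatum
    {𝒪 : Type} [CommRing 𝒪] [IsDomain 𝒪] [IsDiscreteValuationRing 𝒪]
    [IsAdicComplete (maximalIdeal 𝒪) 𝒪] [Finite (ResidueField 𝒪)] [CharZero 𝒪]
    {p m : ℕ} [NeZero p] [NeZero m] (hp : p.Prime) (hp2 : p ≠ 2) (hpm : ¬ p ∣ m)
    (hin : ∀ [Fact p.Prime], NoOrdInKer p m) (hp𝒪 : (p : 𝒪) ∈ maximalIdeal 𝒪)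
    {S : Finset ℕ} {θ : CuspForm.heckeAlgebra (p * m) 2 (↑S : Set ℕ) →+* ResidueField 𝒪}
    {T : Type} [CommRing T] [IsLocalRing T] [IsNoetherianRing T]
    [IsAdicComplete (maximalIdeal T) T] [Algebra 𝒪 T] [IsLocalHom (algebraMap 𝒪 T)]
    [Module.Finite 𝒪 T] [Module.Free 𝒪 T]
    (H : CuspForm.HeckeGaloisRepDatum (p * m) (↑S : Set ℕ) 𝒪 θ T)
    (hres : (GaloisRepAdic.ofResidualGaloisRep H.ρ.residual).IsOrdinaryAt p) :
    H.ρ.IsOrdinaryAt p := by
  haveI : Fact p.Prime := ⟨hp⟩
  have hpT : (p : T) ∈ maximalIdeal T := by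
    have := map_nonunit (algebraMap 𝒪 T) _ hp𝒪
    rwa [map_natCast] at this
  letI : Algebra ℤ_[p] T := padicAlgebra hpT
  haveI : Finite (ResidueField T) :=
    Finite.of_surjective (ResidueField.map (algebraMap 𝒪 T)) fun x => by
      obtain ⟨a, ha⟩ := H.residue_surjective x
      exact ⟨residue 𝒪 a, ha⟩
  haveI : CharP (ResidueField T) p := by
    refine (CharP.charP_iff_prime_eq_zero hp).mpr ?_
    rw [← map_natCast (residue T), residue_eq_zero_iff]
    exact hpT
  have h2 : ∀ x : T, 2 * x = 0 → x = 0 := fun x hx => by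
    have : (2 : 𝒪) • x = 0 := by rw [Algebra.smul_def, map_ofNat, hx]
    exact (smul_eq_zero.mp this).resolve_left two_ne_zero
  have hred := Model.kummerReduction (p * m)
  obtain ⟨ψ, hψ, hψc⟩ := exists_extension (D := latDatum (p := p) hred) hpT
    (fun x hx => IsHausdorff.haus (inferInstance : IsHausdorff (maximalIdeal T) T) x fun k => by
      rw [SModEq.zero, smul_eq_mul, Ideal.mul_top]; exact hx k) H.π
  obtain ⟨r, hr⟩ := exists_hasMatrix H.ρ
  have htr := trace_eq_uTrace (latDatum (p := p) hred) S frobeniusPowDensity H.π ψ hψ hψc H.ρ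
    H.charpoly_frob hr
  have hdet : ∀ g, residue T (r g).det =
      residue T ((PadicInt.toZMod (cyc p g : ℤ_[p])).val : T) := fun g => by
    rw [det_eq_cyc (latDatum (p := p) hred) h2 ψ htr g, ← sub_eq_zero, ← map_sub,
      residue_eq_zero_iff, ← map_natCast (algebraMap ℤ_[p] T), ← map_sub]
    have hk : (cyc p g : ℤ_[p]) - ((PadicInt.toZMod (cyc p g : ℤ_[p])).val : ℤ_[p]) ∈
        RingHom.ker (PadicInt.toZMod (p := p)) := by
      rw [RingHom.mem_ker, map_sub, map_natCast, ZMod.natCast_zmod_val, sub_self]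
    rw [PadicInt.ker_toZMod, PadicInt.maximalIdeal_eq_span_p, Ideal.mem_span_singleton] at hk
    obtain ⟨c, hc⟩ := hk
    rw [hc, map_mul, map_natCast]
    exact Ideal.mul_mem_right _ _ hpT
  exact isOrdinaryAt_of_noOrdInKer hp2 hpm hin hred ψ hψc hr
    ((HasMatrix.residual hr).traceNondeg H.residual_absIrr) htr
    fun A hA => isResOrd_of_residual hr hdet hres hA

end Fermat.Agent.GalRep.Ordinary
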