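/-
Group ring actions on classes: equivariance, exchanged eigenspaces, and classes vanishing on a
principal congruence subgroup, on which Galois acts through roots of unity.
-/
import Fermat.Agent.GalRep.Ordinary.Classes
import Fermat.Agent.GalRep.KummerHecke

set_option autoImplicit false
set_option linter.style.haveILetI false
set_option linter.unusedSectionVars false

noncomputable section

namespace Fermat.Agent.GalRep.Ordinary

open UpperHalfPlane CongruenceSubgroup
open Fermat.Agent.Galois (GQ)
open Fermat.Agent.GalRep.Level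
open Fermat.Agent.GalRep.Semistable
open Fermat.Agent.ModField (conjM conjM_spec conjM_eq)
open scoped MatrixGroups Manifold

/-! ## Classes vanishing on a principal congruence subgroup -/

section Vanish

variable {N n M : ℕ} [NeZero N] [NeZero n] [NeZero M]

/-- Galois elements fixing the roots of unity of order `M` fix classes vanishing on `Γ(M)`. -/
theorem galois_eq_self_of_vanish (hNM : N ∣ M) (hnM : n ∣ M) {χ : ParHom N (ZMod n)}
    (hv : ∀ γ : Gamma0 N, (γ : SL(2, ℤ)) ∈ Gamma M →
      (χ : Additive (Gamma0 N) →+ ZMod n) (Additive.ofMul γ) = 0)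
    {s : GQ} (hs : cycM M s = 1) : (kummerGalois N n).galois s χ = χ := by
  rw [(kummerGalois N n).galois_eq]
  obtain ⟨F, hF, -⟩ := exists_cuspBound_rep χ
  obtain ⟨f, hf, -⟩ := hF.exists_series_one
  have hle : Gamma M ≤ Gamma0 N := ((isLevel_gamma0 N).of_dvd hNM).gamma_le
  let Fm : MF M := ⟨F, hF.holo, fun γ hγ τ => by
    rw [show γ • τ = ((⟨γ, hle hγ⟩ : Gamma0 N) : SL(2, ℤ)) • τ from rfl, hF.equivariant,
      hv ⟨γ, hle hγ⟩ hγ, AddChar.map_zero_eq_one, one_mul], hF.cusps⟩
  set σ := liftAut s
  have hcyc : cycC M σ = 1 := by rw [cycC_liftAut, hs]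
  set F' := conjM σ Fm
  have hμ : ∀ x : ZMod n, σ (ZMod.stdAddChar x) = ZMod.stdAddChar x := fun x => by
    have hx : (ZMod.stdAddChar x : ℂ) ^ M = 1 := by
      rw [← AddChar.map_nsmul_eq_pow, nsmul_eq_mul,
        (ZMod.natCast_eq_zero_iff M n).mpr hnM, zero_mul, AddChar.map_zero_eq_one]
    rw [cycC_spec σ hx, hcyc, Units.val_one]
    rcases eq_or_ne M 1 with rfl | hM1
    · rw [pow_one] at hx
      rw [hx, one_pow]
    · haveI : Fact (1 < M) := ⟨lt_of_le_of_ne (NeZero.pos M) (Ne.symm hM1)⟩
      rw [ZMod.val_one, pow_one]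
  have hser := serAlg_conjM_one σ Fm
  have hF'ne : (F' : ℍ → ℂ) ≠ 0 := fun h0 => by
    have h1 : serAlg M F' = 0 := by rw [show F' = 0 from Subtype.ext h0, map_zero]
    rw [hser, map_eq_zero_iff _ (lmap σ.toRingHom).injective,
      map_eq_zero_iff _ (serAlg_injective M)] at h1
    exact hF.ne_zero (congrArg Subtype.val h1)
  have hrep : IsKummerRep N n χ (F' : ℍ → ℂ) := by
    refine ⟨F'.2.holo, hF'ne, fun γ τ => ?_, F'.2.cusps⟩
    set ζ : ℂ := ZMod.stdAddChar ((χ : Additive (Gamma0 N) →+ ZMod n) (Additive.ofMul γ))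
    have h1 : shift M (γ : SL(2, ℤ)) Fm = algebraMap ℂ (MF M) ζ * Fm :=
      Subtype.ext (funext fun z => hF.equivariant γ z)
    have h2 := conjM_spec σ Fm (γ : SL(2, ℤ)) (γ : SL(2, ℤ)) (by rw [hcyc, conjEq_iff]; simp)
    rw [h1, map_mul, AlgHom.commutes, HahnSeries.algebraMap_apply', map_mul, ← hser] at h2
    have h3 : shift M (γ : SL(2, ℤ)) F' = algebraMap ℂ (MF M) ζ * F' := by
      refine serAlg_injective M (h2.trans ?_)
      rw [map_mul, AlgHom.commutes, HahnSeries.algebraMap_apply']
      congr 1
      ext i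
      rw [lmap_coeff]
      rcases eq_or_ne i 0 with rfl | hi <;> simp_all [ζ]
    exact congrFun (congrArg Subtype.val h3) τ
  obtain ⟨f', hf', -⟩ := hrep.exists_series_one
  refine (eq_autChar σ hF hf hrep ?_).symm
  have hexp : ∀ {G : MF M} {u : LaurentSeries ℂ}, HasQSeries 1 (G : ℍ → ℂ) u →
      serAlg M G = expand M (NeZero.ne M) u := fun {G u} hu => by
    have h := hu.refine_width one_pos M (NeZero.ne M)
    rw [one_mul] at h
    exact (hasQSeries_serHom G).unique (NeZero.pos M) h
  rw [hexp (G := Fm) hf, hexp hf', lmap_expand] at hser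
  rwa [expand_injective M (NeZero.ne M) hser] at hf'

/-- Galois acts commutatively on classes vanishing on `Γ(M)`. -/
theorem galois_comm_of_vanish (hNM : N ∣ M) (hnM : n ∣ M) {χ : ParHom N (ZMod n)}
    (hv : ∀ γ : Gamma0 N, (γ : SL(2, ℤ)) ∈ Gamma M →
      (χ : Additive (Gamma0 N) →+ ZMod n) (Additive.ofMul γ) = 0) (s t : GQ) :
    (kummerGalois N n).galois s ((kummerGalois N n).galois t χ) =
      (kummerGalois N n).galois t ((kummerGalois N n).galois s χ) := by
  have hc : cycM M ((t * s)⁻¹ * (s * t)) = 1 := by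
    rw [map_mul, map_inv, map_mul, map_mul, mul_comm (cycM M t)]
    exact inv_mul_cancel _
  have h := congrArg ((kummerGalois N n).galois (t * s))
    (galois_eq_self_of_vanish hNM hnM hv hc)
  rw [← Module.End.mul_apply, ← map_mul, mul_inv_cancel_left, map_mul, map_mul] at h
  exact h

end Vanish

/-! ## The group ring -/

section Ring

variable {p : ℕ} [Fact p.Prime] [NeZero p]

/-- An equivariant homomorphism commutes with the group ring. -/
theorem ringAct_comm {N N' : ℕ} [NeZero N] [NeZero N']
    (φ : ParHom N (ZMod p) →+ ParHom N' (ZMod p))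
    (hφ : ∀ (g : GQ) x, φ ((kummerGalois N p).galois g x) = (kummerGalois N' p).galois g (φ x))
    (X : MonoidAlgebra ℤ GQ) (x : ParHom N (ZMod p)) :
    φ (ringAct N X x) = ringAct N' X (φ x) := by
  induction X using MonoidAlgebra.induction_on with
  | of g => simp only [ringAct, MonoidAlgebra.lift_of]; exact hφ g x
  | add a b ha hb => simp only [map_add, LinearMap.add_apply, ha, hb]
  | smul r a ha => simp only [map_smul, LinearMap.smul_apply, map_zsmul, ha]

/-- Where an element commutes with all others its group ring commutes with it. -/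
theorem ringAct_galois_comm {N : ℕ} [NeZero N] {s : GQ} {x : ParHom N (ZMod p)}
    (h : ∀ g : GQ, (kummerGalois N p).galois s ((kummerGalois N p).galois g x) =
      (kummerGalois N p).galois g ((kummerGalois N p).galois s x)) (X : MonoidAlgebra ℤ GQ) :
    (kummerGalois N p).galois s (ringAct N X x) =
      ringAct N X ((kummerGalois N p).galois s x) := by
  induction X using MonoidAlgebra.induction_on with
  | of g => simp only [ringAct, MonoidAlgebra.lift_of]; exact h g
  | add a b ha hb => simp only [map_add, LinearMap.add_apply, ha, hb]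
  | smul r a ha => simp only [map_smul, LinearMap.smul_apply, ha]

end Ring

end Fermat.Agent.GalRep.Ordinary
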