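/-
Classes on which inertia acts as on an ordinary residual representation: the defining identities
are linear, so they pass to transfers, and classes of either eigenvalue vanishing on a principal
congruence subgroup are zero.
-/
import Fermat.Agent.GalRep.Ordinary.Module
import Fermat.Agent.GalRep.Ordinary.Transfers

set_option autoImplicit false
set_option linter.style.haveILetI false
set_option linter.unusedSectionVars false

noncomputable section

namespace Fermat.Agent.GalRep.Ordinary

open CongruenceSubgroup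
open Fermat.Agent.Galois (GQ)
open Fermat.Agent.GalRep.Level
open Fermat.Agent.GalRep.Semistable
open scoped MatrixGroups

attribute [local irreducible] ringAct kummerGalois

variable {p : ℕ} [Fact p.Prime] [NeZero p]
variable {A : ValuationSubring (AlgebraicClosure ℚ)}

theorem natCast_omegaNat (σ : GQ) :
    (omegaNat (p := p) σ : ZMod p) = PadicInt.toZMod (cyc p σ : ℤ_[p]) :=
  ZMod.natCast_zmod_val _

theorem omegaNat_eq_one {σ : GQ} (h : PadicInt.toZMod (cyc p σ : ℤ_[p]) = 1) :
    omegaNat (p := p) σ = 1 := by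
  haveI : Fact (1 < p) := ⟨(Fact.out : p.Prime).one_lt⟩
  rw [omegaNat, h, ZMod.val_one]

/-- Multiplication by a number different from one has no fixed classes but zero. -/
theorem eq_zero_of_sub_nsmul {N : ℕ} [NeZero N] {k : ℕ} (hk : (k : ZMod p) ≠ 1)
    {w : ParHom N (ZMod p)} (h : w - k • w = 0) : w = 0 := by
  refine Subtype.ext (AddMonoidHom.ext fun x => ?_)
  have h1 : (w : Additive (Gamma0 N) →+ ZMod p) x - k • (w : Additive (Gamma0 N) →+ ZMod p) x = 0 :=
    DFunLike.congr_fun (congrArg Subtype.val h) x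
  rw [nsmul_eq_mul, ← one_sub_mul] at h1
  exact (mul_eq_zero.mp h1).resolve_left (sub_ne_zero.mpr (Ne.symm hk))

section Exch

variable {N : ℕ} [NeZero N]

local notation "g[" N' "]" => KummerGalois.galois (kummerGalois N' p)

/-- The identities of an ordinary module at one class. -/
structure Exch {V : Type} [AddCommGroup V] (I : Set GQ) (k : GQ → ℕ) (G : GQ → Module.End ℤ V)
    (s : GQ) (X Y : Module.End ℤ V) (z : V) : Prop where
  quad : ∀ σ ∈ I, ∀ τ ∈ I, G σ (G τ z - z) = k σ • (G τ z - z)
  fwd : G s (X (G s z - k s • z)) = k s • X (G s z - k s • z)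
  fwd' : Y (X (G s z - k s • z)) = G s z - k s • z
  bwd : G s (Y (G s z - z)) = Y (G s z - z)
  bwd' : X (Y (G s z - z)) = G s z - z

namespace Exch

variable {V : Type} [AddCommGroup V] {I : Set GQ} {k : GQ → ℕ} {G : GQ → Module.End ℤ V} {s : GQ}
  {X Y : Module.End ℤ V} {z w : V}

theorem zero : Exch I k G s X Y (0 : V) := by constructor <;> intros <;> simp

theorem add (h : Exch I k G s X Y z) (h' : Exch I k G s X Y w) : Exch I k G s X Y (z + w) := by
  have e : ∀ τ, G τ (z + w) - (z + w) = (G τ z - z) + (G τ w - w) := fun τ => by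
    rw [map_add]; abel
  have e' : G s (z + w) - k s • (z + w) = (G s z - k s • z) + (G s w - k s • w) := by
    rw [map_add, smul_add]; abel
  constructor
  · intro σ hσ τ hτ
    rw [e, map_add, h.quad σ hσ τ hτ, h'.quad σ hσ τ hτ, smul_add]
  · rw [e', map_add, map_add, h.fwd, h'.fwd, smul_add]
  · rw [e', map_add, map_add, h.fwd', h'.fwd']
  · rw [e, map_add, map_add, h.bwd, h'.bwd]
  · rw [e, map_add, map_add, h.bwd', h'.bwd']

theorem nsmul (h : Exch I k G s X Y z) : ∀ j : ℕ, Exch I k G s X Y (j • z)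
  | 0 => by rw [zero_smul]; exact zero
  | j + 1 => by rw [succ_nsmul]; exact (h.nsmul j).add h

theorem neg (h : Exch I k G s X Y z) : Exch I k G s X Y (-z) := by
  have e : ∀ τ, G τ (-z) - -z = -(G τ z - z) := fun τ => by rw [map_neg]; abel
  have e' : G s (-z) - k s • (-z) = -(G s z - k s • z) := by rw [map_neg, smul_neg]; abel
  constructor
  · intro σ hσ τ hτ
    rw [e, map_neg, h.quad σ hσ τ hτ, smul_neg]
  · rw [e', map_neg, map_neg, h.fwd, smul_neg]
  · rw [e', map_neg, map_neg, h.fwd']
  · rw [e, map_neg, map_neg, h.bwd]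
  · rw [e, map_neg, map_neg, h.bwd']

variable (hk : ∀ w : V, w - k s • w = 0 → w = 0)

include hk

/-- On fixed classes the exchange is exact. -/
theorem fixed (h : Exch I k G s X Y z) (hz : G s z = z) :
    G s (X z) = k s • X z ∧ Y (X z) = z := by
  have h1 := h.fwd
  have h2 := h.fwd'
  rw [hz] at h1 h2
  refine ⟨sub_eq_zero.mp (hk _ ?_), sub_eq_zero.mp (hk _ ?_)⟩
  · rw [← sub_eq_zero] at h1
    simp only [map_sub, map_nsmul, smul_sub] at h1 ⊢
    rw [← h1]; abel
  · rw [← sub_eq_zero] at h2
    simp only [map_sub, map_nsmul, smul_sub] at h2 ⊢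
    rw [← h2]; abel

/-- Inertia acts on the moved eigenspace through the cyclotomic character. -/
theorem inertia_eigen (hsI : s ∈ I) (h : Exch I k G s X Y z) (hz : G s z = k s • z) {τ : GQ}
    (hτ : τ ∈ I) : G τ z = k τ • z := by
  have h1 := h.quad τ hτ s hsI
  rw [hz] at h1
  refine sub_eq_zero.mp (hk _ ?_)
  rw [← sub_eq_zero] at h1
  simp only [map_sub, map_nsmul, smul_sub] at h1 ⊢
  rw [← neg_eq_zero, ← h1, smul_comm (k τ)]
  abel

/-- Where Galois commutes with the exchange, a fixed class is zero. -/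
theorem eq_zero_of_comm (h : Exch I k G s X Y z) (hz : G s z = z)
    (hc : G s (X z) = X (G s z)) : z = 0 := by
  obtain ⟨h1, h2⟩ := h.fixed hk hz
  rw [hc, hz] at h1
  rw [← h2, hk _ (sub_eq_zero.mpr h1), map_zero]

/-- Where Galois commutes with the exchange on the moved class, a fixed class is zero. -/
theorem eq_zero_of_comm_moved (h : Exch I k G s X Y z) (hz : G s z = z)
    (hc : G s (Y (X z)) = Y (G s (X z))) : z = 0 := by
  obtain ⟨h1, h2⟩ := h.fixed hk hz
  rw [h1, map_nsmul, h2, hz] at hc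
  exact hk _ (sub_eq_zero.mpr hc)

/-- The identities from the exchange of the eigenspaces. -/
theorem of_eigen {M : AddSubgroup V} (hst : ∀ σ, ∀ x ∈ M, G σ x ∈ M) (hs : s ∈ I)
    (hq : ∀ σ ∈ I, ∀ τ ∈ I, ∀ x ∈ M, G σ (G τ x - x) = k σ • (G τ x - x))
    (hXY : ∀ x ∈ M, (G s x = x → G s (X x) = k s • X x ∧ Y (X x) = x) ∧
      (G s x = k s • x → G s (Y x) = Y x ∧ X (Y x) = x))
    {x : V} (hx : x ∈ M) : Exch I k G s X Y x := by
  have hω := hq s hs s hs x hx
  have hfix : G s (G s x - k s • x) = G s x - k s • x := by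
    simp only [map_sub, map_nsmul, smul_sub] at hω ⊢
    rw [← sub_eq_zero] at hω ⊢
    rw [← hω]; abel
  obtain ⟨a, b⟩ := (hXY _ (sub_mem (hst s x hx) (nsmul_mem hx _))).1 hfix
  obtain ⟨c, d⟩ := (hXY _ (sub_mem (hst s x hx) hx)).2 hω
  exact ⟨fun σ hσ τ hτ => hq σ hσ τ hτ x hx, a, b, c, d⟩

omit hk

/-- Equivariant homomorphisms preserve the identities. -/
theorem map_hom (h : Exch I k G s X Y z) {V' : Type} [AddCommGroup V'] {G' : GQ → Module.End ℤ V'}
    {X' Y' : Module.End ℤ V'} (φ : V →+ V') (hφ : ∀ σ x, φ (G σ x) = G' σ (φ x))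
    (hX : ∀ x, φ (X x) = X' (φ x)) (hY : ∀ x, φ (Y x) = Y' (φ x)) :
    Exch I k G' s X' Y' (φ z) := by
  constructor
  · intro σ hσ τ hτ
    rw [← hφ, ← map_sub, ← hφ, h.quad σ hσ τ hτ, map_nsmul]
  · rw [← hφ, ← map_nsmul, ← map_sub, ← hX, ← hφ, h.fwd, map_nsmul]
  · rw [← hφ, ← map_nsmul, ← map_sub, ← hX, ← hY, h.fwd']
  · rw [← hφ, ← map_sub, ← hY, ← hφ, h.bwd]
  · rw [← hφ, ← map_sub, ← hY, ← hX, h.bwd']

end Exch

/-- The identities of an ordinary module at a class modulo `p`. -/
abbrev IsExch (A : ValuationSubring (AlgebraicClosure ℚ)) (s : GQ) (X Y : MonoidAlgebra ℤ GQ)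
    (z : ParHom N (ZMod p)) : Prop :=
  Exch (A.inertiaSubgroupIn ℚ : Set GQ) (omegaNat (p := p)) (fun σ => g[N] σ) s (ringAct N X)
    (ringAct N Y) z

variable {s : GQ} {X Y : MonoidAlgebra ℤ GQ} {z w : ParHom N (ZMod p)}

variable (hs : PadicInt.toZMod (cyc p s : ℤ_[p]) ≠ 1)

include hs

theorem hk_omega (w : ParHom N (ZMod p)) (h : w - omegaNat (p := p) s • w = 0) : w = 0 :=
  eq_zero_of_sub_nsmul (by rwa [natCast_omegaNat]) h

variable {M : ℕ} [NeZero M] (hNM : N ∣ M) (hpM : p ∣ M)

include hNM hpM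

/-- A fixed class vanishing on `Γ(M)` is zero. -/
theorem eq_zero_of_vanish (h : IsExch A s X Y z) (hz : g[N] s z = z)
    (hv : ∀ γ : Gamma0 N, (γ : SL(2, ℤ)) ∈ Gamma M →
      (z : Additive (Gamma0 N) →+ ZMod p) (Additive.ofMul γ) = 0) : z = 0 :=
  h.eq_zero_of_comm (hk_omega hs) hz (ringAct_galois_comm (galois_comm_of_vanish hNM hpM hv s) X)

/-- A fixed class whose moved class vanishes on `Γ(M)` is zero. -/
theorem eq_zero_of_vanish_moved (h : IsExch A s X Y z) (hz : g[N] s z = z)
    (hv : ∀ γ : Gamma0 N, (γ : SL(2, ℤ)) ∈ Gamma M →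
      (ringAct N X z : Additive (Gamma0 N) →+ ZMod p) (Additive.ofMul γ) = 0) : z = 0 :=
  h.eq_zero_of_comm_moved (hk_omega hs) hz
    (ringAct_galois_comm (galois_comm_of_vanish hNM hpM hv s) Y)

end Exch

/-! ## The transfers of an ordinary module -/

section Old

variable {m : ℕ} [NeZero m] {g : SL(2, ℤ)} (hg : g 1 0 = m ∧ g 1 1 = p) (hpm : ¬ p ∣ m)

/-- The transfer `U_p ∘ W` on classes of level `m`, as a composite of translate and
corestriction. -/
def transT : ParHom m (ZMod p) →+ ParHom m (ZMod p) :=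
  ((corL hpm hg).toAddMonoidHom.comp (alL hg).toAddMonoidHom).comp (resR (dvd_mul_left m p))

theorem transT_apply (z : ParHom m (ZMod p)) :
    transT hg hpm z = corR hg hpm (alR hg (resR (dvd_mul_left m p) z)) := rfl

theorem transT_galois (σ : GQ) (z : ParHom m (ZMod p)) :
    transT hg hpm ((kummerGalois m p).galois σ z) =
      (kummerGalois m p).galois σ (transT hg hpm z) := by
  rw [transT_apply, transT_apply, resR_galois, alR_galois, corR_galois]

theorem HasPowRep.transT (hA : A.LiesOverPrime p) {z : ParHom m (ZMod p)} (h : HasPowRep A z) :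
    HasPowRep A (transT hg hpm z) := by
  rw [transT_apply]
  exact (h.alR_res hg).cor hg hpm hA (by rw [alR_alR]; exact h.res _)

/-- The classes of level `m` coming from a module. -/
def oldPart (M : AddSubgroup (ParHom (p * m) (ZMod p))) : AddSubgroup (ParHom m (ZMod p)) :=
  AddSubgroup.closure {z | ∃ x ∈ M, ∃ j : ℕ,
    z = (transT hg hpm)^[j] (corR hg hpm x) ∨ z = (transT hg hpm)^[j] (corR hg hpm (alR hg x))}

variable {M : AddSubgroup (ParHom (p * m) (ZMod p))}

theorem corR_mem_oldPart {x : ParHom (p * m) (ZMod p)} (hx : x ∈ M) :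
    corR hg hpm x ∈ oldPart hg hpm M :=
  AddSubgroup.subset_closure ⟨x, hx, 0, Or.inl rfl⟩

theorem corR_alR_mem_oldPart {x : ParHom (p * m) (ZMod p)} (hx : x ∈ M) :
    corR hg hpm (alR hg x) ∈ oldPart hg hpm M :=
  AddSubgroup.subset_closure ⟨x, hx, 0, Or.inr rfl⟩

theorem transT_mem_oldPart {z : ParHom m (ZMod p)} (hz : z ∈ oldPart hg hpm M) :
    transT hg hpm z ∈ oldPart hg hpm M := by
  induction hz using AddSubgroup.closure_induction with
  | mem z hz =>
    obtain ⟨x, hx, j, rfl | rfl⟩ := hz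
    · exact AddSubgroup.subset_closure
        ⟨x, hx, j + 1, Or.inl (Function.iterate_succ_apply' _ _ _).symm⟩
    · exact AddSubgroup.subset_closure
        ⟨x, hx, j + 1, Or.inr (Function.iterate_succ_apply' _ _ _).symm⟩
  | zero => rw [map_zero]; exact zero_mem _
  | add a b _ _ ha hb => rw [map_add]; exact add_mem ha hb
  | neg a _ ha => rw [map_neg]; exact neg_mem ha

variable (hM : IsOrdModule A p m M)

include hM

theorem galois_mem_oldPart (σ : GQ) {z : ParHom m (ZMod p)} (hz : z ∈ oldPart hg hpm M) :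
    (kummerGalois m p).galois σ z ∈ oldPart hg hpm M := by
  have hit : ∀ (j : ℕ) (w : ParHom m (ZMod p)), (kummerGalois m p).galois σ
      ((transT hg hpm)^[j] w) = (transT hg hpm)^[j] ((kummerGalois m p).galois σ w) := by
    intro j w
    induction j with
    | zero => rfl
    | succ j ih => rw [Function.iterate_succ_apply', Function.iterate_succ_apply',
        ← transT_galois, ih]
  induction hz using AddSubgroup.closure_induction with
  | mem z hz =>
    obtain ⟨x, hx, j, rfl | rfl⟩ := hz
    · exact AddSubgroup.subset_closure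
        ⟨_, hM.stable σ x hx, j, Or.inl (by rw [hit, corR_galois])⟩
    · exact AddSubgroup.subset_closure
        ⟨_, hM.stable σ x hx, j, Or.inr (by rw [hit, alR_galois, corR_galois])⟩
  | zero => rw [map_zero]; exact zero_mem _
  | add a b _ _ ha hb => rw [map_add]; exact add_mem ha hb
  | neg a _ ha => rw [map_neg]; exact neg_mem ha

theorem ringAct_mem_oldPart (X : MonoidAlgebra ℤ GQ) {z : ParHom m (ZMod p)}
    (hz : z ∈ oldPart hg hpm M) : ringAct m X z ∈ oldPart hg hpm M := by
  induction X using MonoidAlgebra.induction_on with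
  | of γ => simp only [ringAct, MonoidAlgebra.lift_of]; exact galois_mem_oldPart hg hpm hM γ hz
  | add a b ha hb => simp only [map_add, LinearMap.add_apply]; exact add_mem ha hb
  | smul r a ha => simp only [map_smul, LinearMap.smul_apply]; exact zsmul_mem ha r

omit hg hpm in
theorem isExch_of_mem {s : GQ} (hs : s ∈ A.inertiaSubgroupIn ℚ)
    (hω : PadicInt.toZMod (cyc p s : ℤ_[p]) ≠ 1) {X Y : MonoidAlgebra ℤ GQ}
    (hXY : ∀ x ∈ M,
      ((kummerGalois (p * m) p).galois s x = x →
        (kummerGalois (p * m) p).galois s (ringAct (p * m) X x) =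
            omegaNat (p := p) s • ringAct (p * m) X x ∧
          ringAct (p * m) Y (ringAct (p * m) X x) = x) ∧
      ((kummerGalois (p * m) p).galois s x = omegaNat (p := p) s • x →
        (kummerGalois (p * m) p).galois s (ringAct (p * m) Y x) = ringAct (p * m) Y x ∧
          ringAct (p * m) X (ringAct (p * m) Y x) = x))
    {x : ParHom (p * m) (ZMod p)} (hx : x ∈ M) : IsExch A s X Y x :=
  Exch.of_eigen (hk_omega hω) hM.stable hs hM.quad hXY hx

theorem isExch_oldPart {s : GQ} {X Y : MonoidAlgebra ℤ GQ}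
    (hE : ∀ x ∈ M, IsExch A s X Y x) {z : ParHom m (ZMod p)} (hz : z ∈ oldPart hg hpm M) :
    IsExch A s X Y z := by
  induction hz using AddSubgroup.closure_induction with
  | mem z hz =>
    have hit : ∀ (j : ℕ) {w : ParHom m (ZMod p)}, IsExch A s X Y w →
        IsExch A s X Y ((transT hg hpm)^[j] w) := by
      intro j w hw
      induction j with
      | zero => exact hw
      | succ j ih =>
        rw [Function.iterate_succ_apply']
        exact ih.map_hom _ (transT_galois hg hpm) (ringAct_comm _ (transT_galois hg hpm) X)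
          (ringAct_comm _ (transT_galois hg hpm) Y)
    have hc : ∀ {w : ParHom (p * m) (ZMod p)}, IsExch A s X Y w →
        IsExch A s X Y (corR hg hpm w) := fun hw =>
      hw.map_hom (corL hpm hg).toAddMonoidHom (corR_galois hg hpm)
        (ringAct_comm _ (corR_galois hg hpm) X) (ringAct_comm _ (corR_galois hg hpm) Y)
    obtain ⟨x, hx, j, rfl | rfl⟩ := hz
    · exact hit j (hc (hE x hx))
    · exact hit j (hc ((hE x hx).map_hom (alL hg).toAddMonoidHom (alR_galois hg)
        (ringAct_comm _ (alR_galois hg) X) (ringAct_comm _ (alR_galois hg) Y)))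
  | zero => exact Exch.zero
  | add a b _ _ ha hb => exact ha.add hb
  | neg a _ ha => exact ha.neg

theorem hasPowRep_oldPart (hA : A.LiesOverPrime p) (hle : M ≤ powKer A p m p)
    {z : ParHom m (ZMod p)} (hz : z ∈ oldPart hg hpm M) : HasPowRep A z := by
  induction hz using AddSubgroup.closure_induction with
  | mem z hz =>
    have hit : ∀ (j : ℕ) {w : ParHom m (ZMod p)}, HasPowRep A w →
        HasPowRep A ((Ordinary.transT hg hpm)^[j] w) := by
      intro j w hw
      induction j with
      | zero => exact hw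
      | succ j ih => rw [Function.iterate_succ_apply']; exact ih.transT hg hpm hA
    obtain ⟨x, hx, j, rfl | rfl⟩ := hz <;>
      obtain ⟨h1, h2⟩ := (mem_powKer_iff hg hA).mp (hle hx)
    · exact hit j (h1.cor hg hpm hA h2)
    · exact hit j (h2.cor hg hpm hA (by rwa [alR_alR]))
  | zero => exact hasPowRep_zero
  | add a b _ _ ha hb => exact ha.add hb
  | neg a _ ha =>
    rw [neg_eq_of_add_eq_zero_right (add_pred_nsmul_eq_zero a)]
    exact ha.nsmul _

end Old

end Fermat.Agent.GalRep.Ordinary
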