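/-
The base data of an ordinary comparison at a place over `p`: the critical level, a tame element of
inertia, Frobenius on the constants and the components of the model.
-/
import Fermat.Agent.GalRep.Ordinary.ResidualData
import Fermat.Agent.GalRep.Ordinary.Input
import Fermat.Agent.GalRep.WildModel.Base
import Fermat.Agent.GalRep.WildModel.Aut
import Fermat.Agent.Models.Gamma0.CompUnique
import Fermat.Agent.GalRep.KummerHecke

set_option autoImplicit false
set_option linter.style.haveILetI false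
set_option linter.unusedSectionVars false

noncomputable section

namespace Fermat.Agent.GalRep.Ordinary

open IsLocalRing
open Fermat.Agent.Galois (GQ)
open Fermat.Agent.GalRep.InertiaBase
open Fermat.Agent.GalRep.Semistable (ChartsSemi)
open Fermat.Agent.ModField
open Fermat.Agent.NewVec
open Fermat.Agent.Models (TrivialMod)
open Fermat.Agent.GalRep.Model (chartRing)

local notation "Qb" => AlgebraicClosure ℚ

/-- Galois acts on roots of unity of order `p` through `omegaNat`. -/
theorem apply_root {p : ℕ} [Fact p.Prime] (s : GQ) {t : Qb} (ht : t ^ p = 1) :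
    s t = t ^ omegaNat (p := p) s := by
  have h := cyc_spec p s (k := 1) t (by rwa [pow_one])
  have hk : (cyc p s : ℤ_[p]) - (omegaNat (p := p) s : ℤ_[p]) ∈
      RingHom.ker (PadicInt.toZMod (p := p)) := by
    rw [RingHom.mem_ker, map_sub, map_natCast, omegaNat, ZMod.natCast_zmod_val, sub_self]
  rw [PadicInt.ker_toZMod, PadicInt.maximalIdeal_eq_span_p] at hk
  have hx : (cyc p s : ℤ_[p]).toZModPow 1 = ((omegaNat (p := p) s : ℕ) : ZMod (p ^ 1)) := by
    rw [← sub_eq_zero, ← map_natCast (PadicInt.toZModPow (p := p) 1), ← map_sub,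
      ← RingHom.mem_ker, PadicInt.ker_toZModPow, pow_one]
    exact hk
  haveI : NeZero p := ⟨(Fact.out : p.Prime).ne_zero⟩
  rw [hx, ZMod.val_natCast_of_lt (by rw [pow_one]; exact ZMod.val_lt _)] at h
  exact h

/-- A finite normal field with the roots of unity of order `M` over which the classes of two levels
are defined. -/
theorem exists_base_field (M N₁ N₂ n : ℕ) [NeZero M] [NeZero N₁] [NeZero N₂] [NeZero n] :
    ∃ (L : IntermediateField ℚ Qb) (_ : FiniteDimensional ℚ L) (_ : Normal ℚ L), zetaQ M ∈ L ∧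
      ∀ s : GQ, (∀ x ∈ L, s x = x) → (kummerGalois N₁ n).galois s = 1 ∧
        (kummerGalois N₂ n).galois s = 1 := by
  obtain ⟨L₁, hL₁, h₁⟩ := (kummerGalois N₁ n).continuous
  obtain ⟨L₂, hL₂, h₂⟩ := (kummerGalois N₂ n).continuous
  haveI := hL₁
  haveI := hL₂
  haveI : FiniteDimensional ℚ (IntermediateField.adjoin ℚ ({zetaQ M} : Set Qb)) :=
    IntermediateField.adjoin.finiteDimensional (Algebra.IsIntegral.isIntegral (R := ℚ) (zetaQ M))
  haveI : Normal ℚ Qb := IsGalois.to_normal
  set L₀ := L₁ ⊔ L₂ ⊔ IntermediateField.adjoin ℚ ({zetaQ M} : Set Qb)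
  have hle : L₀ ≤ IntermediateField.normalClosure ℚ L₀ Qb :=
    IntermediateField.le_normalClosure _
  exact ⟨IntermediateField.normalClosure ℚ L₀ Qb, inferInstance, normalClosure.normal ℚ _ Qb,
    hle ((le_sup_right : _ ≤ L₀) (IntermediateField.mem_adjoin_simple_self ℚ _)), fun s hs =>
      ⟨h₁ s fun x hx => hs x (hle ((le_sup_left.trans le_sup_left : L₁ ≤ L₀) hx)),
        h₂ s fun x hx => hs x (hle ((le_sup_right.trans le_sup_left : L₂ ≤ L₀) hx))⟩⟩

variable {A : ValuationSubring (AlgebraicClosure ℚ)} {L : IntermediateField ℚ (AlgebraicClosure ℚ)}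
  [FiniteDimensional ℚ L] {p m M : ℕ} [Fact p.Prime] [NeZero M]

section Index

variable (hA : A.LiesOverPrime p) (hMm : M = p * m) (hζ : zetaQ M ∈ L)

local notation "hp" => (Fact.out : p.Prime)

include hA hMm hζ

/-- The critical level: `μ - 1` is a unit times its power of the uniformiser. -/
theorem exists_crit : ∃ (k : ℕ) (u : rBase A L), 0 < k ∧
    k * (p - 1) = rIdx (L := L) hp hA ∧ IsUnit u ∧
      rVal A L u * rVal A L (rUnif hp hA) ^ k = zetaQ M ^ m - 1 := by
  set ϖv := rVal A L (rUnif (L := L) hp hA)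
  have hϖ0 : ϖv ≠ 0 := rUnif_ne hp hA
  have hv0 : 0 < A.valuation ϖv := zero_lt_iff.mpr ((_root_.map_ne_zero _).mpr hϖ0)
  have hvlt : A.valuation ϖv < 1 := val_rUnif_lt hp hA
  have hμ1 : zetaQ M ^ m - 1 ≠ 0 :=
    sub_ne_zero.mpr ((isPrimitiveRoot_mu hp hMm).ne_one (Fact.out : p.Prime).one_lt)
  have hmem : zetaQ M ^ m - 1 ∈ rFld A L :=
    sub_mem (pow_mem (mem_rFld_of_mem A L hζ) m) (one_mem _)
  obtain ⟨k, hk⟩ := exists_val_rFld (L := L) hp hA hmem hμ1
  have hp1 : 0 < p - 1 := Nat.sub_pos_of_lt (Fact.out : p.Prime).one_lt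
  have h1 : A.valuation ϖv ^ (k * ((p - 1 : ℕ) : ℤ)) =
      A.valuation ϖv ^ ((rIdx (L := L) hp hA : ℕ) : ℤ) := by
    rw [zpow_mul, ← hk, zpow_natCast, zpow_natCast, val_mu_sub_one hp hA hMm,
      val_rUnif_pow hp hA]
  have h2 := (zpow_right_strictAnti₀ hv0 hvlt).injective h1
  have hk0 : 0 < k := by
    have := rIdx_pos (L := L) hp hA
    by_contra hle
    push Not at hle
    nlinarith
  obtain ⟨k', rfl⟩ := Int.eq_ofNat_of_zero_le hk0.le
  rw [zpow_natCast] at hk
  have hx : (zetaQ M ^ m - 1) / ϖv ^ k' ∈ rFld A L :=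
    div_mem hmem (pow_mem (rVal_mem_rFld A L _) _)
  have hv : A.valuation ((zetaQ M ^ m - 1) / ϖv ^ k') = 1 := by
    rw [map_div₀, map_pow, hk, div_self (pow_ne_zero _ hv0.ne')]
  let u : rBase A L := ⟨⟨_, hx⟩, (A.valuation_le_one_iff _).mp hv.le⟩
  exact ⟨k', u, by omega, by exact_mod_cast h2, (isUnit_cut_iff _ u).mpr hv,
    div_mul_cancel₀ _ (pow_ne_zero _ hϖ0)⟩

variable [Normal ℚ L]

/-- A tame element acts on the critical power of the uniformiser through the character. -/
theorem isUnit_tame {s : A.inertiaSubgroupIn ℚ}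
    (hs : PadicInt.toZMod (cyc p (s : GQ) : ℤ_[p]) ≠ 1) {k : ℕ} {u : rBase A L} (hu : IsUnit u)
    (hk0 : 0 < k) (he : rVal A L u * rVal A L (rUnif hp hA) ^ k = zetaQ M ^ m - 1)
    {v : rBase A L} (hv : rAct L s (rUnif hp hA) = rUnif hp hA * v) : IsUnit (v ^ k - 1) := by
  haveI := (rBase_dvr (L := L) hp hA).1
  have hirr := (rBase_dvr (L := L) hp hA).2.2
  set ϖ := rUnif (L := L) hp hA
  set j := omegaNat (p := p) (s : GQ)
  have hsum : rAct L s u * v ^ k = u * ∑ i ∈ Finset.range j, (u * ϖ ^ k + 1) ^ i := by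
    refine mul_left_cancel₀ (pow_ne_zero k hirr.ne_zero) (rVal_injective A L ?_)
    have h1 : rVal A L (u * ϖ ^ k + 1) = zetaQ M ^ m := by
      rw [map_add, map_mul, map_pow, he, map_one, sub_add_cancel]
    calc rVal A L (ϖ ^ k * (rAct L s u * v ^ k))
        = rVal A L (rAct L s (u * ϖ ^ k)) := by rw [map_mul (rAct L s), map_pow, hv]; ring_nf
      _ = (zetaQ M ^ m) ^ j - 1 := by
          rw [rVal_rAct, map_mul, map_pow, he, map_sub, map_one,
            apply_root (p := p) (s : GQ) ((isPrimitiveRoot_mu hp hMm).pow_eq_one)]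
      _ = rVal A L (ϖ ^ k * (u * ∑ i ∈ Finset.range j, (u * ϖ ^ k + 1) ^ i)) := by
          rw [← mul_assoc, mul_comm (ϖ ^ k) u]
          simp only [map_mul, map_sum, map_pow, h1]
          rw [he, mul_geom_sum]
  have hres : residue (rBase A L) (rAct L s u) = residue (rBase A L) u := by
    rw [← sub_eq_zero, ← map_sub, residue_eq_zero_iff]
    exact rAct_sub_mem s u
  have hϖr : residue (rBase A L) ϖ = 0 :=
    (residue_eq_zero_iff _).mpr ((IsLocalRing.mem_maximalIdeal _).mpr hirr.not_isUnit)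
  have h2 := congrArg (residue (rBase A L)) hsum
  simp only [map_mul, map_sum, map_pow, map_add, map_one, hres, hϖr, zero_pow hk0.ne', mul_zero,
    zero_add, one_pow, Finset.sum_const, Finset.card_range, nsmul_eq_mul, mul_one] at h2
  have h3 := mul_left_cancel₀ ((residue_ne_zero_iff_isUnit u).mpr hu) h2
  obtain ⟨c, hc⟩ := exists_unit (L := L) hp hA
  have hp0 : residue (rBase A L) (p : rBase A L) = 0 := by
    rw [residue_eq_zero_iff, IsLocalRing.mem_maximalIdeal]
    intro h
    rw [map_natCast] at hc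
    exact hirr.not_isUnit ((isUnit_pow_iff (rIdx_pos (L := L) hp hA).ne').mp
      (hc ▸ h.mul c.isUnit))
  haveI : CharP (ResidueField (rBase A L)) p :=
    (CharP.charP_iff_prime_eq_zero hp).mpr (by rw [← map_natCast (residue (rBase A L)), hp0])
  rw [← residue_ne_zero_iff_isUnit, map_sub, map_pow, map_one, h3, sub_ne_zero, Ne,
    ← Nat.cast_one, CharP.natCast_eq_natCast (ResidueField (rBase A L)) p]
  intro hj
  rw [← ZMod.natCast_eq_natCast_iff, Nat.cast_one] at hj
  exact hs ((ZMod.natCast_zmod_val _).symm.trans hj)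

end Index

/-- Over the roots of unity of order `p m` the index is `p - 1`. -/
theorem rIdx_cyclotomic (hA : A.LiesOverPrime p) (hMm : M = p * m) (hpm : ¬ p ∣ m)
    (hζ : zetaQ M ∈ L) (hL : L ≤ IntermediateField.adjoin ℚ ({zetaQ M} : Set Qb)) :
    rIdx (L := L) (Fact.out : p.Prime) hA = p - 1 := by
  have hp : p.Prime := Fact.out
  set K := IntermediateField.adjoin (inertiaFld A) ({zetaQ M ^ m} : Set Qb)
  have hint : IsIntegral (inertiaFld A) (zetaQ M ^ m) :=
    (Algebra.IsIntegral.isIntegral (R := ℚ) (zetaQ M ^ m)).tower_top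
  haveI : FiniteDimensional (inertiaFld A) K := IntermediateField.adjoin.finiteDimensional hint
  have hle : rFld A L ≤ K := IntermediateField.adjoin_le_iff.mpr fun x hx => by
    have hζK : zetaQ M ∈ K := zetaQ_mem_adjoin_mu hp hA hMm hpm
    let T : IntermediateField ℚ Qb :=
      { K.toSubfield with
        algebraMap_mem' := fun c => by
          rw [IsScalarTower.algebraMap_apply ℚ (inertiaFld A) Qb]
          exact IntermediateField.algebraMap_mem _ _ }
    exact ((IntermediateField.adjoin_le_iff (T := T)).mpr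
      (Set.singleton_subset_iff.mpr hζK)) (hL hx)
  have h1 : rIdx (L := L) hp hA ≤ p - 1 := by
    rw [← finrank_rFld hp hA]
    refine (LinearMap.finrank_le_finrank_of_injective
      (f := (IntermediateField.inclusion hle).toLinearMap)
      (IntermediateField.inclusion hle).injective).trans ?_
    rw [IntermediateField.adjoin.finrank hint]
    haveI : NeZero (p : Qb) := ⟨Nat.cast_ne_zero.mpr hp.ne_zero⟩
    have hroot : Polynomial.aeval (zetaQ M ^ m) (Polynomial.cyclotomic p (inertiaFld A)) = 0 := by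
      rw [Polynomial.aeval_def, ← Polynomial.eval_map, Polynomial.map_cyclotomic]
      exact (Polynomial.isRoot_cyclotomic_iff.mpr (isPrimitiveRoot_mu hp hMm)).eq_zero
    refine (Polynomial.natDegree_le_of_dvd (minpoly.dvd _ _ hroot)
      (Polynomial.cyclotomic_ne_zero p _)).trans ?_
    rw [Polynomial.natDegree_cyclotomic, Nat.totient_prime hp]
  obtain ⟨k, -, hk0, hk, -⟩ := exists_crit (L := L) hA hMm hζ
  refine le_antisymm h1 ?_
  rw [← hk]
  exact Nat.le_mul_of_pos_left _ hk0

section Model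

variable [Normal ℚ L] [NeZero (p * m)] {hζ : zetaQ (p * m) ∈ L}
  [IsDiscreteValuationRing (rBase A L)] (hA : A.LiesOverPrime p) (hpm : ¬ p ∣ m)
  (hcharts : ChartsSemi A p m)

include hA hpm hcharts

/-- The component of a translate depends only on the type of the cusp. -/
theorem comp_rTop (δ : Matrix.SpecialLinearGroup (Fin 2) ℤ) :
    comp (W := rBase A L) (E := embR A L hζ) (q := p) (m := m)
        (WildModel.irreducible_rUnif (L := L) (Fact.out : p.Prime) hA) δ =
      twoP (rBase A L) (embR A L hζ) p m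
        (WildModel.irreducible_rUnif (L := L) (Fact.out : p.Prime) hA)
        (!decide ((p : ℤ) ∣ δ 1 0)) := by
  have hq : p.Prime := Fact.out
  obtain ⟨hWdvr, hqW, hWac⟩ := wBase_props A hq hA
  haveI := hWdvr
  haveI := hWac
  haveI : NeZero m := ⟨fun h => NeZero.ne (p * m) (by rw [h, mul_zero])⟩
  haveI := (oBase_dvr (A := A) (M := p * m) hq hA rfl hpm).1
  haveI := Semistable.finite_oBase (A := A) (M := p * m) hq hA rfl hpm
  haveI := isAlgClosed_rBase (L := L) hq hA
  exact comp_eq_twoP_level hqW (dvd_mul_right p m) (dvd_mul_left m p) hpm hcharts.1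
    (fun x => toLS_algebraMap_top x) (embO_K_le hζ) (WildModel.embO_value hζ)
    (totRam (hζ := hζ) rfl hq hA) rfl (WildModel.irreducible_rUnif hq hA) δ

/-- Inertia is trivial modulo the uniformiser on both charts and their overlap. -/
theorem tauTop_trivial (σ : A.inertiaSubgroupIn ℚ) :
    TrivialMod (model₀ (rBase A L) (embR A L hζ) p m).B₀ (rUnif (Fact.out : p.Prime) hA)
        (tauTop hζ rfl σ) ∧
      TrivialMod (model₀ (rBase A L) (embR A L hζ) p m).B₁ (rUnif (Fact.out : p.Prime) hA)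
        (tauTop hζ rfl σ) ∧
      TrivialMod (model₀ (rBase A L) (embR A L hζ) p m).B₀₁ (rUnif (Fact.out : p.Prime) hA)
        (tauTop hζ rfl σ) := by
  have hq : p.Prime := Fact.out
  haveI := (wBase_props A hq hA).1
  haveI : NeZero m := ⟨fun h => NeZero.ne (p * m) (by rw [h, mul_zero])⟩
  haveI := (oBase_dvr (A := A) (M := p * m) hq hA rfl hpm).1
  haveI := Semistable.finite_oBase (A := A) (M := p * m) hq hA rfl hpm
  set X := totRam (hζ := hζ) rfl hq hA
  have hw := algebraMap_top_jF₀ (A := A) (L := L) (hζ := hζ) (q := p) (m := m)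
  have hw' : algebraMap (wTop A (p * m) p m) (rTop A L hζ p m)
      (jF₀ (wBase A) (embO A (p * m)) p m)⁻¹ = (jF₀ (rBase A L) (embR A L hζ) p m)⁻¹ := by
    rw [map_inv₀, hw]
  have he₀ : chartRing (rBase A L) (jF₀ (rBase A L) (embR A L hζ) p m) =
      X.extend (chartRing (wBase A) (jF₀ (wBase A) (embO A (p * m)) p m)) := by
    rw [← hw]
    exact (extend_chart X (by rw [coe_jF₀]; exact aeval_jF_injective _)
      (by rw [coe_jF₀]; exact fixedRational_jF _) hcharts.1).symm
  have he₁ : chartRing (rBase A L) (jF₀ (rBase A L) (embR A L hζ) p m)⁻¹ =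
      X.extend (chartRing (wBase A) (jF₀ (wBase A) (embO A (p * m)) p m)⁻¹) := by
    rw [← hw']
    exact (extend_chart X (by rw [coe_inv_jF₀]; exact aeval_inv_jF_injective _)
      (by rw [coe_inv_jF₀]; exact fixedRational_inv_jF _) hcharts.2).symm
  have htriv : ∀ C : Subalgebra (wBase A) (wTop A (p * m) p m),
      TrivialMod (X.extend C) (rUnif hq hA) (tauTop hζ rfl σ) := fun C =>
    WildModel.trivialMod_extend_of_dvd X (fun x _ => tauTop_base rfl σ x)
      (tauTop_residual rfl hq hA σ)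
  have h₀ : TrivialMod (model₀ (rBase A L) (embR A L hζ) p m).B₀ (rUnif hq hA)
      (tauTop hζ rfl σ) := by
    show TrivialMod (chartRing _ _) _ _
    rw [he₀]; exact htriv _
  refine ⟨h₀, ?_, ((model₀ (rBase A L) (embR A L hζ) p m).toCharts hq.pos).trivialMod_overlap _ _
    (tauTop_jF₀ rfl σ) h₀⟩
  show TrivialMod (chartRing _ _) _ _
  rw [he₁]; exact htriv _

end Model

/-- Frobenius on the constants. -/
theorem exists_frob_stab [Normal ℚ L] (hA : A.LiesOverPrime p) {n : ℕ} [NeZero n]
    (hζ : zetaQ n ∈ L) [IsLocalRing (rBase A L)] :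
    ∃ σ : stabK (embR A L hζ),
      (∀ o : rBase A L, ∃ o' : rBase A L, σ.1 ((embR A L hζ).φ o) = (embR A L hζ).φ o' ∧
        residue (rBase A L) o' = residue (rBase A L) o ^ p) ∧
      ∀ o : rBase A L, ∃ o' : rBase A L,
        σ.1 ((embR A L hζ).φ o') = (embR A L hζ).φ o := by
  obtain ⟨s, hs⟩ := Galois.exists_isFrobeniusAt (Fact.out : p.Prime) hA
  obtain ⟨hdec, hres⟩ := hs
  -- the field is stable
  have hfld : ∀ t : A.decompositionSubgroup ℚ, ∀ x ∈ rFld A L, (t : GQ) x ∈ rFld A L := by
    intro t x hx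
    have hI : ∀ y ∈ inertiaFld A, (t : GQ) y ∈ inertiaFld A := fun y hy =>
      (mem_inertiaFld A).mpr fun i hi => by
        obtain ⟨i', hi', rfl⟩ := hi
        have h1 := (mem_inertiaFld A).mp hy _
          ⟨t⁻¹ * i' * t, by
            have h := (MonoidHom.normal_ker _).conj_mem i' hi' t⁻¹
            rw [inv_inv] at h
            exact h, rfl⟩
        simpa using congrArg (t : GQ) h1
    induction hx using IntermediateField.adjoin_induction with
    | mem x hx =>
      refine mem_rFld_of_mem A L ?_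
      have h := AlgEquiv.restrictNormal_commutes (t : GQ) L ⟨x, hx⟩
      change _ = (t : GQ) x at h
      rw [← h]
      exact ((t : GQ).restrictNormal L ⟨x, hx⟩).2
    | algebraMap x => exact inertia_mem_rFld A L ⟨_, hI _ x.2⟩
    | add x y _ _ hx hy => rw [map_add]; exact add_mem hx hy
    | inv x _ hx => rw [map_inv₀]; exact inv_mem hx
    | mul x y _ _ hx hy => rw [map_mul]; exact mul_mem hx hy
  have hring : ∀ (t : A.decompositionSubgroup ℚ) (o : rBase A L),
      ∃ o' : rBase A L, rVal A L o' = (t : GQ) (rVal A L o) := fun t o =>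
    ⟨⟨⟨_, hfld t _ (rVal_mem_rFld A L o)⟩, (t • (⟨_, rVal_mem A L o⟩ : A)).2⟩, rfl⟩
  let t : A.decompositionSubgroup ℚ := ⟨s, hdec⟩
  have hmem : liftAut s ∈ stabK (embR A L hζ) := by
    rw [mem_stabK]
    intro c
    simp only [mem_embR_K hζ]
    constructor
    · rintro ⟨x, hx, he⟩
      refine ⟨((t⁻¹ : A.decompositionSubgroup ℚ) : GQ) x, hfld _ _ hx,
        (liftAut s).injective ?_⟩
      rw [liftAut_spec, ← he]
      exact congrArg qbarToC (s.apply_symm_apply x)
    · rintro ⟨x, hx, rfl⟩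
      exact ⟨s x, hfld t x hx, (liftAut_spec s x).symm⟩
  refine ⟨⟨_, hmem⟩, fun o => ?_, fun o => ?_⟩
  · obtain ⟨o', ho'⟩ := hring t o
    refine ⟨o', by rw [embR_φ, embR_φ, ho']; exact liftAut_spec s _, ?_⟩
    rw [← sub_eq_zero, ← map_pow, ← map_sub, residue_eq_zero_iff, mem_maximalIdeal_rBase,
      ← A.mem_nonunits_iff, map_sub, map_pow, ho']
    let y : A := ⟨_, rVal_mem A L o⟩
    have h1 : residue A (t • y) = residue A y ^ p :=
      (ResidueField.residue_smul (A.decompositionSubgroup ℚ) t y).trans (hres _)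
    rw [← map_pow, ← sub_eq_zero, ← map_sub, residue_eq_zero_iff] at h1
    exact A.coe_mem_nonunits_iff.mpr h1
  · obtain ⟨o', ho'⟩ := hring t⁻¹ o
    refine ⟨o', ?_⟩
    rw [embR_φ, embR_φ, ho']
    exact (liftAut_spec s _).trans (congrArg qbarToC (s.apply_symm_apply _))

end Fermat.Agent.GalRep.Ordinary
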