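/-
Kummer functions of classes with power reductions in the field over the ramified base: power
series on the components, and the effect of the involution and of the norm.
-/
import Fermat.Agent.GalRep.Ordinary.Classes
import Fermat.Agent.GalRep.Ordinary.Setup
import Fermat.Agent.GalRep.WildModel.Classes
import Fermat.Agent.Models.Gamma0.CompPower
import Fermat.Agent.Models.Gamma0.OrdOps

set_option autoImplicit false
set_option linter.style.haveILetI false
set_option linter.unusedSectionVars false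

noncomputable section

namespace Fermat.Agent.GalRep.Ordinary

open UpperHalfPlane CongruenceSubgroup IsLocalRing
open Fermat.Agent.GalRep Fermat.Agent.GalRep.Level
open Fermat.Agent.GalRep.InertiaBase
open Fermat.Agent.GalRep.Semistable
open Fermat.Agent.ModField
open Fermat.Agent.NewVec
open scoped MatrixGroups

local notation "Qb" => AlgebraicClosure ℚ
local notation "κ" A:max => IsLocalRing.ResidueField A

variable {A : ValuationSubring (AlgebraicClosure ℚ)} {L : IntermediateField ℚ (AlgebraicClosure ℚ)}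
  [FiniteDimensional ℚ L] [Normal ℚ L] {p m m' N : ℕ} [Fact p.Prime] [NeZero (p * m')] [NeZero N]
  {hζ : zetaQ (p * m') ∈ L} [IsDiscreteValuationRing (rBase A L)]

local notation "EL" => embR A L hζ
local notation "RO" => rBase A L
local notation "FT" => rTop A L hζ p m'

/-- Two Kummer functions of one class differ by a constant times a power in the descended field. -/
theorem exists_pow_rTop (hpm' : ¬ p ∣ m') (hN : N ∣ p * m') {χ : ParHom N (ZMod p)}
    {F₁ F₂ : ℍ → ℂ} (h1 : IsRepG (Gamma0 N) p χ F₁) (h2 : IsRepG (Gamma0 N) p χ F₂)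
    {b₁ b₂ : bddMF EL} (hb₁ : ((b₁ : MF (p * m')) : ℍ → ℂ) = F₁ ^ p)
    (hb₂ : ((b₂ : MF (p * m')) : ℍ → ℂ) = F₂ ^ p) {f₁ f₂ : FT}
    (hf₁ : (f₁ : Fld EL) = toFld EL b₁) (hf₂ : (f₂ : Fld EL) = toFld EL b₂) :
    ∃ (c : RO) (H : FT), c ≠ 0 ∧ H ≠ 0 ∧ f₂ = algebraMap RO FT c * f₁ * H ^ p := by
  obtain ⟨c, H, hc, hH0, hH, he⟩ := exists_pow_of_rep_eq (q := p) (m := m') hN
    (fun γ hγ => WildModel.levelG_le_gamma0 Fact.out hpm' hN hγ) h1 h2 hb₁ hb₂
  refine ⟨c, ⟨H, mem_rTop_iff.mpr (mem_levelFld.mp hH).1⟩, hc,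
    fun h0 => hH0 (congrArg Subtype.val h0), Subtype.ext ?_⟩
  rw [hf₂, he, ← hf₁]
  push_cast
  rw [coe_algebraMap_fld₀]

/-- The Kummer function of the zero class is a constant times a power. -/
theorem exists_pow_zero (hpm' : ¬ p ∣ m') (hN : N ∣ p * m') {F : ℍ → ℂ}
    (hF : IsRepG (Gamma0 N) p (0 : ParHom N (ZMod p)) F) {b : bddMF EL}
    (hb : ((b : MF (p * m')) : ℍ → ℂ) = F ^ p) {f : FT} (hf : (f : Fld EL) = toFld EL b) :
    ∃ (c : RO) (H : FT), c ≠ 0 ∧ H ≠ 0 ∧ f = algebraMap RO FT c * H ^ p := by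
  obtain ⟨c, H, hc, hH, he⟩ := exists_pow_rTop hpm' hN WildModel.isRepG_one hF
    (b₁ := (1 : bddMF EL)) (by rw [one_pow]; rfl) hb (f₁ := 1)
    (by rw [map_one]; rfl) hf
  exact ⟨c, H, hc, hH, by rwa [mul_one] at he⟩

/-- A class with a power reduction has a Kummer function which is a power series along the
component at infinity. -/
theorem powSer_kummer (hA : A.LiesOverPrime p) (hN : N ∣ p * m') {χ : ParHom N (ZMod p)}
    (hχ : HasPowRep A χ) {F : ℍ → ℂ} {b : bddMF EL} (hF : IsRepG (Gamma0 N) p χ F)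
    (hb : ((b : MF (p * m')) : ℍ → ℂ) = F ^ p) {f : FT} (hf : (f : Fld EL) = toFld EL b) :
    PowSer p (f : Fld EL) := by
  classical
  haveI : CharP (κ A) p := charP_residue Fact.out hA
  have hp : p.Prime := Fact.out
  obtain ⟨u, hu, -⟩ := (IsRepG.kummer hF).exists_series_one
  have hexp : GalRep.expand (p * m') (NeZero.ne _) (u ^ p) = serAlg (p * m') (b : MF (p * m')) := by
    rw [serAlg_of_rep_pow hu hb]
  have hK : ∀ j, ∃ x ∈ rFld A L, qbarToC x = (u ^ p).coeff j := fun j => by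
    rw [← expand_coeff_mul (p * m') (NeZero.ne _) (u ^ p) j, hexp]
    exact (mem_embR_K hζ).mp (mem_kSer.mp (kSer_of_bdd EL b.2) _)
  obtain ⟨a, ha⟩ := exists_seriesToC_eq (f := u ^ p) fun j => by
    obtain ⟨x, -, hx⟩ := hK j
    rw [← hx]
    exact (Algebra.IsAlgebraic.isAlgebraic _).algHom qbarToC.toRatAlgHom
  obtain ⟨g, hg, rfl⟩ := exists_series_of_pow (IsRepG.kummer hF) (a := a) (ha ▸ hu.pow p)
  have hmem : ∀ j, (g ^ p).coeff j ∈ rFld A L := fun j => by
    obtain ⟨x, hx, hxe⟩ := hK j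
    rw [show (g ^ p).coeff j = x from qbarToC.injective (by rw [hxe, ← ha]; rfl)]
    exact hx
  obtain ⟨r, Φ, hr, hΦ, hred⟩ := hχ.red hA (IsRepG.kummer hF) hg
  obtain ⟨i, hi⟩ : ∃ i, (Φ ^ p).coeff i ≠ 0 := by
    by_contra h
    push Not at h
    exact pow_ne_zero p hΦ (HahnSeries.ext (funext h))
  obtain ⟨hiA, hir⟩ := hred i
  have hC : ∀ j, (HahnSeries.C r * g ^ p).coeff j = r * (g ^ p).coeff j := fun j => by
    rw [HahnSeries.C_mul_eq_smul, HahnSeries.coeff_smul, smul_eq_mul]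
  set d : A := ⟨_, hiA⟩
  have hdu : IsUnit d := by
    rw [← IsLocalRing.notMem_maximalIdeal, ← IsLocalRing.residue_eq_zero_iff, hir]
    exact hi
  obtain ⟨d', hd'⟩ := hdu.exists_right_inv
  have hgi : (g ^ p).coeff i ≠ 0 := fun h0 => hi (by
    rw [← hir, show d = 0 from Subtype.ext (((hC i).trans (by rw [h0, mul_zero])).trans (ZeroMemClass.coe_zero A).symm), map_zero])
  -- normalise by a constant of the field
  set c : Qb := ((g ^ p).coeff i)⁻¹
  have hcr : c = (d' : Qb) * r := by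
    have h1 := congrArg Subtype.val hd'
    change (HahnSeries.C r * g ^ p).coeff i * (d' : Qb) = 1 at h1
    rw [hC] at h1
    refine inv_eq_of_mul_eq_one_right ?_
    linear_combination h1
  have hred' : HasRed A (HahnSeries.C c * g ^ p) (HahnSeries.C (residue A d') * Φ ^ p) := by
    rw [hcr, map_mul, mul_assoc]
    exact (hasRed_C d'.2).mul hred
  have hcoef : ∀ j, (HahnSeries.C c * g ^ p).coeff j ∈ rFld A L := fun j => by
    rw [HahnSeries.C_mul_eq_smul, HahnSeries.coeff_smul, smul_eq_mul]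
    exact mul_mem (inv_mem (hmem i)) (hmem j)
  set S := GalRep.expand (p * m') (NeZero.ne _) (HahnSeries.C c * g ^ p) with hSdef
  have hS := hred'.expand (p * m') (NeZero.ne _)
  have hSc : ∀ j, S.coeff j ∈ rFld A L := fun j => by
    by_cases hd : ((p * m' : ℕ) : ℤ) ∣ j
    · obtain ⟨t, rfl⟩ := hd
      rw [hSdef, expand_coeff_mul]
      exact hcoef t
    · rw [hSdef, expand_coeff_of_not_dvd _ _ _ _ hd]
      exact zero_mem _
  let s : LaurentSeries RO :=
    ⟨fun j => ⟨⟨S.coeff j, hSc j⟩, (hS j).1⟩, S.isPWO_support.mono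
      fun j hj h0 => hj (Subtype.ext (Subtype.ext h0))⟩
  have hres : ∀ j, residue RO (s.coeff j) = 0 ↔
      (GalRep.expand (p * m') (NeZero.ne _) (HahnSeries.C (residue A d') * Φ ^ p)).coeff j = 0 := by
    intro j
    obtain ⟨h2, e2⟩ := hS j
    rw [← e2, residue_eq_zero_iff, residue_eq_zero_iff, mem_maximalIdeal_rBase,
      ← A.mem_nonunits_iff, ← A.coe_mem_nonunits_iff]
    rfl
  refine ⟨⟨qbarToC c, (mem_embR_K hζ).mpr ⟨c, inv_mem (hmem i), rfl⟩⟩, s,
    fun h0 => ?_, ?_, ?_, fun j hj => ?_⟩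
  · exact inv_ne_zero hgi (qbarToC.injective ((congrArg Subtype.val h0).trans (map_zero _).symm))
  · show HahnSeries.C (qbarToC c) * toLS EL (f : Fld EL) = _
    rw [show lmap (embR A L hζ).φ s = seriesToC S from HahnSeries.ext (funext fun j => rfl), hf,
      toLS_toFld, ← hexp, ← ha, hSdef, map_mul, expand_series_C, seriesToC_eq_lmap,
      seriesToC_eq_lmap, map_mul, lmap_C, lmap_expand]
  · intro h0
    have h1 : residue RO (s.coeff (((p * m' : ℕ) : ℤ) * i)) = 0 :=
      congrArg (fun z => HahnSeries.coeff z (((p * m' : ℕ) : ℤ) * i)) h0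
    rw [hres, expand_coeff_mul, HahnSeries.C_mul_eq_smul, HahnSeries.coeff_smul, smul_eq_mul,
      mul_eq_zero] at h1
    have hu' : residue A d * residue A d' = 1 := by rw [← map_mul, hd', map_one]
    exact h1.elim (fun h => one_ne_zero (α := κ A) (by rw [← hu', h, mul_zero])) hi
  · rw [lmap_coeff, hres]
    by_cases hd : ((p * m' : ℕ) : ℤ) ∣ j
    · obtain ⟨t, rfl⟩ := hd
      have ht : ¬ (p : ℤ) ∣ t := fun ⟨v, hv⟩ =>
        hj ⟨(m' : ℤ) * v, by rw [hv]; push_cast; ring⟩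
      rw [expand_coeff_mul, HahnSeries.C_mul_eq_smul, HahnSeries.coeff_smul, pow_char_eq_expand,
        expand_coeff_of_not_dvd _ _ _ _ ht, smul_zero]
    · exact expand_coeff_of_not_dvd _ _ _ _ hd

variable [NeZero p] [NeZero m] [NeZero m'] {g g' : SL(2, ℤ)} (hg : g 1 0 = m ∧ g 1 1 = p)
  (hg' : g' 1 0 = m' ∧ g' 1 1 = p) (hpm' : ¬ p ∣ m') (hmm : m ∣ m')
  {χ : ParHom (p * m) (ZMod p)} {F : ℍ → ℂ} {b : bddMF (embR A L hζ)}
  (hF : IsRepG (Gamma0 (p * m)) p χ F) (hb : ((b : MF (p * m')) : ℍ → ℂ) = F ^ p)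
  {f : rTop A L hζ p m'} (hf : (f : Fld (embR A L hζ)) = toFld (embR A L hζ) b)

include hg hg' hpm' hmm hF hb hf

/-- The involution gives a Kummer function of the translate. -/
theorem exists_kummer_wOp :
    ∃ b' : bddMF EL, ((b' : MF (p * m')) : ℍ → ℂ) = Wf p g F ^ p ∧
      ((wOp rfl hpm' hg' f : FT) : Fld EL) = toFld EL b' := by
  obtain ⟨b', h1, h2⟩ := exists_al_rep hg (mul_dvd_mul_left p hmm) hmm hg' hF hb
    (x := ((wOp rfl hpm' hg' f : FT) : Fld EL)) (by rw [toLS_wOp, hf])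
  exact ⟨b', h1, h2.symm⟩

omit hg' in
/-- The norm gives a Kummer function of the corestriction. -/
theorem exists_kummer_norm (hpm : ¬ p ∣ m) :
    ∃ (G : ℍ → ℂ) (b' : bddMF EL), IsRepG (Gamma0 m) p (corR hg hpm χ) G ∧
      ((b' : MF (p * m')) : ℍ → ℂ) = G ^ p ∧ ((normOp hpm' f : FT) : Fld EL) = toFld EL b' := by
  obtain ⟨G, b', h1, h2, h3⟩ := exists_norm_rep hg hpm hmm (cosRep p m') cosRep_mem
    (fun i j h => cosRep_inj hpm' h) hF hb
  exact ⟨G, b', h1, h2, by rw [coe_normOp, hf, h3]⟩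

end Fermat.Agent.GalRep.Ordinary
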