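/-
Roots of Kummer functions off the special fibre for every odd exponent. Over `j = 0` the orders are
divisible by three only where the ramification is three, and there `λ² - λ + 1` has order one.
-/
import Fermat.Agent.GalRep.WildModel.OffRoots
import Fermat.Agent.Models.Gamma0.OrdNorm
import Fermat.Agent.Models.Gamma0.Interior

set_option autoImplicit false
set_option linter.style.haveILetI false
set_option linter.unusedSectionVars false

noncomputable section

namespace Fermat.Agent.GalRep.Ordinary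

open UpperHalfPlane CongruenceSubgroup IsLocalRing ModularGroup
open Fermat.Agent.GalRep Fermat.Agent.GalRep.Level
open Fermat.Agent.ModField
open Fermat.Agent.GalRep.WildModel
open Fermat.Agent.Moduli (lamF absQuad halfPeriods halfPeriods_lam jF_mul_lamF lamF_ne)
open Fermat.Agent.GalRep.Model (chartRing Lev)
open Fermat.Agent.Models (HasRootAt)
open Fermat.Agent.Period (jFun)
open scoped MatrixGroups Manifold

variable {O : Type} [CommRing O] [IsDomain O] [IsDiscreteValuationRing O] {M : ℕ} [NeZero M]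
  {E : Emb O M}

/-- A modular function without zero at the centre has order zero there. -/
theorem order_localAlg_eq_zero {ψ : ℂ → ℂ} (hψ : AnalyticAt ℂ ψ 0)
    (h0 : ψ 0 ∈ upperHalfPlaneSet) (hd : deriv ψ 0 ≠ 0) (φ : MF M)
    (hne : (φ : ℍ → ℂ) (ofComplex (ψ 0)) ≠ 0) :
    (HahnSeries.ofPowerSeries ℤ ℂ (localAlg M hψ h0 φ)).order = 0 := by
  refine order_ofPS ?_
  have h : (localAlg M hψ h0 φ).order = 0 := by
    rw [order_localAlg hψ h0 hd]
    exact analyticOrderAt_eq_zero.mpr (Or.inr hne)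
  intro hz
  refine absurd h (ne_of_gt ?_)
  exact lt_of_lt_of_le zero_lt_one (PowerSeries.le_order _ 1 fun i hi => by
    rw [Nat.cast_lt_one] at hi
    rw [hi, PowerSeries.coeff_zero_eq_constantCoeff_apply, hz])

/-- The parameter of level two avoids `0` and `1` at every interior centre. -/
theorem order_lamF_shift {L : Lev M} (hLm : L.m = 2) {ψ : ℂ → ℂ} (hψ : AnalyticAt ℂ ψ 0)
    (h0 : ψ 0 ∈ upperHalfPlaneSet) (hd : deriv ψ 0 ≠ 0) (g : SL(2, ℤ)) :
    (locEmb hψ h0 hd E (fShift E g (lamF E L))).order = 0 ∧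
      (locEmb hψ h0 hd E (fShift E g (lamF E L - 1))).order = 0 := by
  set a : bddMF E := ⟨quadMF (absQuad L (L.V 1) (L.nz_V 1)), bdd_of_kSer E (quadMF_mem E _)⟩
  set τ := ofComplex (ψ 0)
  have hv : ((a : MF M) : ℍ → ℂ) (g • τ) = (halfPeriods L hLm (g • τ)).lam := by
    rw [halfPeriods_lam]; rfl
  constructor
  · rw [show lamF E L = toFld E a from rfl, fShift_toFld, locEmb_toFld]
    refine order_localAlg_eq_zero hψ h0 hd _ ?_
    show ((a : MF M) : ℍ → ℂ) (g • τ) ≠ 0
    rw [hv]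
    exact (halfPeriods L hLm (g • τ)).lam_ne_zero
  · rw [show lamF E L - 1 = toFld E (a - 1) by rw [map_sub, map_one]; rfl, fShift_toFld,
      locEmb_toFld]
    refine order_localAlg_eq_zero hψ h0 hd _ ?_
    show ((a : MF M) : ℍ → ℂ) (g • τ) - 1 ≠ 0
    rw [hv, sub_ne_zero]
    exact (halfPeriods L hLm (g • τ)).lam_ne_one

/-- An interior centre with its exact index. -/
theorem centred_jF_exact (c : ℂ) :
    ∃ (ψ : ℂ → ℂ) (hψ : AnalyticAt ℂ ψ 0) (h0 : ψ 0 ∈ upperHalfPlaneSet) (hd : deriv ψ 0 ≠ 0),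
      Centred E (locEmb hψ h0 hd E) (jF E) c (eOf c) := by
  obtain ⟨τ, rfl⟩ := jFun_surjective c
  obtain ⟨ψ, hψ, h0, -, hd, he⟩ := exists_jCoord M τ
  refine ⟨ψ, hψ, h0, hd, locEmb_algebraMap hψ h0 hd, eOf (jFun τ),
    PowerSeries.C (jFun τ) + PowerSeries.X ^ eOf (jFun τ), 1, eOf_pos _, dvd_rfl, ?_, ?_, by simp⟩
  · rw [jF, locEmb_toFld]; exact congrArg _ he
  · rw [add_sub_cancel_left, mul_one]

/-- An interior centre of the inverse coordinate with its exact index. -/
theorem centred_inv_jF_exact {c : ℂ} (hc : c ≠ 0) :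
    ∃ (ψ : ℂ → ℂ) (hψ : AnalyticAt ℂ ψ 0) (h0 : ψ 0 ∈ upperHalfPlaneSet) (hd : deriv ψ 0 ≠ 0),
      Centred E (locEmb hψ h0 hd E) (jF E)⁻¹ c (eOf c⁻¹) := by
  obtain ⟨ψ, hψ, h0, hd, hC, e, u, v, he, heD, hu, huv, hv⟩ := centred_jF_exact (E := E) c⁻¹
  have hcu : PowerSeries.constantCoeff u = c⁻¹ := by
    have := congrArg PowerSeries.constantCoeff huv
    rw [map_sub, PowerSeries.constantCoeff_C, map_mul, map_pow, PowerSeries.constantCoeff_X,
      zero_pow he.ne', zero_mul, sub_eq_zero] at this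
    exact this
  have huu : u⁻¹ * u = 1 := PowerSeries.inv_mul_cancel u (hcu ▸ inv_ne_zero hc)
  refine ⟨ψ, hψ, h0, hd, hC, e, u⁻¹, -(PowerSeries.C c * u⁻¹ * v), he, heD, ?_, ?_, ?_⟩
  · rw [map_inv₀, hu]
    exact (eq_inv_of_mul_eq_one_left (by rw [← map_mul, huu, map_one])).symm
  · have hcc : PowerSeries.C c * PowerSeries.C c⁻¹ = 1 := by
      rw [← map_mul, mul_inv_cancel₀ hc, map_one]
    linear_combination (-(PowerSeries.C c * u⁻¹)) * huv + PowerSeries.C c * huu - u⁻¹ * hcc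
  · rw [map_neg, neg_ne_zero, map_mul, map_mul, PowerSeries.constantCoeff_C,
      PowerSeries.constantCoeff_inv, hcu, inv_inv]
    exact mul_ne_zero (mul_ne_zero hc hc) hv

variable {q m N : ℕ} [hq : Fact q.Prime]

/-- An odd prime dividing an index is three, over the value zero. -/
theorem eq_three_of_dvd_eOf (hq2 : q ≠ 2) {c : ℂ} (h : (q : ℤ) ∣ (eOf c : ℤ)) :
    q = 3 ∧ c = 0 := by
  have h' : q ∣ eOf c := Int.natCast_dvd_natCast.mp h
  have h2 := hq.out.two_le
  unfold eOf at h'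
  split_ifs at h' with h1 h1
  · exact ⟨(Nat.prime_dvd_prime_iff_eq hq.out Nat.prime_three).mp h', h1⟩
  · exact absurd ((Nat.prime_dvd_prime_iff_eq hq.out Nat.prime_two).mp h') hq2
  · exact absurd (Nat.dvd_one.mp h') hq.out.ne_one

/-- A Kummer function of odd exponent has roots at the horizontal primes of both charts. -/
theorem hasRootAt_kummer_odd (hq2 : q ≠ 2) (hm2 : 2 ∣ m) (hqm : ¬ q ∣ m) (hM : M = q * m)
    (hN : N ∣ M) (hqO : (q : O) ∈ maximalIdeal O) {χ : ParG (Gamma0 N) (ZMod q)} {F : ℍ → ℂ}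
    (hF : IsRepG (Gamma0 N) q χ F) {b : bddMF E} (hb : ((b : MF M) : ℍ → ℂ) = F ^ q)
    {x : Fld₀ O E q m} (hx : x ≠ 0) (hxb : (x : Fld E) = toFld E b) {w : Fld₀ O E q m}
    (hw : w = jF₀ O E q m ∨ w = (jF₀ O E q m)⁻¹) (Q : Ideal (chartRing O w)) [Q.IsPrime]
    (hQ0 : Q ≠ ⊥) (hQq : algebraMap O (chartRing O w) (q : O) ∉ Q) :
    HasRootAt (chartRing O w) q x Q := by
  have hp : Prime (q : ℤ) := Nat.prime_iff_prime_int.mp hq.out
  have hqm' : ¬ (q : ℤ) ∣ m := fun h => hqm (Int.natCast_dvd_natCast.mp h)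
  have hlev : IsLevel M (Gamma0 N) := (isLevel_gamma0 N).of_dvd hN
  have hpow : IsPowFun q (b : MF M) := isPowFun_of_rep hF hlev hb
  have hint : ∀ {ψ : ℂ → ℂ} (hψ : AnalyticAt ℂ ψ 0) (h0 : ψ 0 ∈ upperHalfPlaneSet)
      (hd : deriv ψ 0 ≠ 0) (g : SL(2, ℤ)) (k : ℤ), ¬ (q : ℤ) ∣ k →
      ∀ i : ℤ, (locEmb hψ h0 hd E (fShift E g (x : Fld E))).order = i * k → (q : ℤ) ∣ i := by
    intro ψ hψ h0 hd g k hk i hi
    refine (hp.dvd_or_dvd (?_ : (q : ℤ) ∣ i * k)).resolve_right hk
    rw [← hi, hxb]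
    exact dvd_order_locEmb hψ h0 hd hpow g
  rcases hw with rfl | rfl
  · refine hasRootAt_of_valuation (w := jF₀ O E q m) (fun g => by rw [coe_jF₀, fShift_jF])
      (by rw [coe_jF₀]; exact aeval_jF_injective E)
      (by rw [coe_jF₀]; exact fixedRational_jF E) hqO Q hQ0 hQq hx fun c => ?_
    rw [coe_jF₀]
    obtain ⟨ψ, hψ, h0, hd, hC⟩ := centred_jF_exact (E := E) c
    refine ⟨_, eOf c, hC, fun g k _ hk hall i hi => hint hψ h0 hd g k (fun hqk => ?_) i hi⟩
    obtain ⟨rfl, rfl⟩ := eq_three_of_dvd_eOf hq2 (hqk.trans hk)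
    obtain ⟨n, hn⟩ := hm2
    have hn0 : n ≠ 0 := fun h => hqm (by rw [hn, h, mul_zero]; exact dvd_zero _)
    let L : Lev M :=
      { m := 2, e := 3 * n, hm := Or.inl rfl, eq := by rw [hM, hn]; ring, five := by rw [hM, hn]; omega }
    set l := lamF E L
    have hy : l ^ 2 - l + 1 ∈ Fld₀ O E 3 m := by
      refine mem_fld₀_self_iff.mpr fun g hg => ?_
      have hl : fShift E g l = l :=
        (fShift_absF E (L := L) rfl (gamma_two_of_levelG hM ⟨n, hn⟩ hg) (L.nz_V 1)).trans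
          (absF_congr E _ _ (pm_rowMul_V rfl (gamma_two_of_levelG hM ⟨n, hn⟩ hg) 1))
      rw [map_add, map_sub, map_pow, map_one, hl]
    set ℓ : Fld E →+* LaurentSeries ℂ := (locEmb hψ h0 hd E).comp (fShift E g).toRingHom
    have hlk : k ∣ (ℓ (l ^ 2 - l + 1)).order := hall ⟨_, hy⟩
    obtain ⟨e, u, v, he, he3, hu, huv, hv⟩ := (hC.shift g (fShift_jF E g)).2
    rw [map_zero, sub_zero] at huv
    obtain ⟨o0, o1⟩ := order_lamF_shift (E := E) (L := L) rfl hψ h0 hd g
    have hne : ∀ {z : Fld E}, z ≠ 0 → ℓ z ≠ 0 := fun hz => (map_ne_zero ℓ).mpr hz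
    obtain ⟨hl0, hl1⟩ := lamF_ne E (L := L) rfl
    have hl1' : l - 1 ≠ 0 := fun h => hl1 (by linear_combination -h)
    have hj0 : jF E ≠ 0 := fun h => by
      have := aeval_jF_injective (O := O) E (a₁ := Polynomial.X) (a₂ := 0)
        (by rw [Polynomial.aeval_X, map_zero, h])
      exact Polynomial.X_ne_zero this
    have hje : (ℓ (jF E)).order = e := by
      rw [show ℓ (jF E) = _ from hu, huv]
      exact order_ofPS_X_pow_mul hv e
    have heq := congrArg (fun z => (ℓ z).order) (jF_mul_lamF E (L := L) rfl)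
    have hy0 : l ^ 2 - l + 1 ≠ 0 := fun h => by
      have := jF_mul_lamF E (L := L) rfl
      rw [h, zero_pow three_ne_zero, mul_zero] at this
      exact mul_ne_zero hj0 (mul_ne_zero (pow_ne_zero _ hl0) (pow_ne_zero _ hl1')) this
    simp only [map_mul, map_pow, map_ofNat] at heq
    have h256 : (256 : LaurentSeries ℂ) = HahnSeries.C (256 : ℂ) := (map_ofNat _ 256).symm
    have h256' : (256 : LaurentSeries ℂ) ≠ 0 := by
      rw [h256, map_ne_zero_iff _ HahnSeries.C_injective]; norm_num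
    rw [HahnSeries.order_mul (hne hj0) (mul_ne_zero (pow_ne_zero _ (hne hl0))
        (pow_ne_zero _ (hne hl1'))),
      HahnSeries.order_mul (pow_ne_zero _ (hne hl0)) (pow_ne_zero _ (hne hl1')),
      HahnSeries.order_mul h256' (pow_ne_zero _ (hne hy0)),
      HahnSeries.order_pow, HahnSeries.order_pow, HahnSeries.order_pow, hje] at heq
    rw [show (ℓ l).order = 0 from o0, show (ℓ (l - 1)).order = 0 from o1,
      show ((256 : LaurentSeries ℂ)).order = 0 by
        rw [show (256 : LaurentSeries ℂ) = HahnSeries.C (256 : ℂ) from (map_ofNat _ 256).symm,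
          HahnSeries.C_apply, HahnSeries.order_single (by norm_num)]] at heq
    have he' : e ≤ 3 := Nat.le_of_dvd (by norm_num) (by simpa [eOf] using he3)
    have h3 := hqk.trans hlk
    simp only [nsmul_eq_mul, mul_zero, add_zero, zero_add, Nat.cast_ofNat] at heq h3
    obtain ⟨r, hr⟩ := h3
    omega
  · refine hasRootAt_of_valuation (w := (jF₀ O E q m)⁻¹)
      (fun g => by rw [coe_inv_jF₀, map_inv₀, fShift_jF])
      (by rw [coe_inv_jF₀]; exact aeval_inv_jF_injective E)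
      (by rw [coe_inv_jF₀]; exact fixedRational_inv_jF E) hqO Q hQ0 hQq hx fun c => ?_
    rw [coe_inv_jF₀]
    rcases eq_or_ne c 0 with rfl | hc
    swap
    · obtain ⟨ψ, hψ, h0, hd, hC⟩ := centred_inv_jF_exact (E := E) hc
      exact ⟨_, eOf c⁻¹, hC, fun g k _ hk _ i hi => hint hψ h0 hd g k (fun hqk =>
        inv_ne_zero hc (eq_three_of_dvd_eOf hq2 (hqk.trans hk)).2) i hi⟩
    refine ⟨_, M, centred_toLS (dvd_refl M), fun g k hk0 hk hall i hi => ?_⟩
    obtain ⟨h, hh, -⟩ := hF.exists_series hlev g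
    have hord : (toLS E (fShift E g (x : Fld E))).order = q * h.order := by
      rw [hxb, fShift_toFld, toLS_toFld, show serAlg M (shift M g (b : MF M)) = h ^ q from
        serAlg_shift_eq (by rw [hb]; exact hh.pow q), HahnSeries.order_pow, nsmul_eq_mul]
    by_cases hg : (q : ℤ) ∣ g 1 0
    · -- the width of the cusp is `m`
      haveI : NeZero m := ⟨fun h0 => hqm (h0 ▸ dvd_zero q)⟩
      obtain ⟨h', hh'⟩ := exists_hasQSeries_of_periodic (N := m)
        (mdifferentiable_comp_smul hF.holo g)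
        (fun τ => by simpa using hF.periodic g m (conj_T_mem_gamma0 (hM ▸ hN) hg) τ)
        (NeZero.pos M) hh
      have h1 := hh'.refine_width (NeZero.pos m) q hq.out.ne_zero
      rw [mul_comm m q, ← hM] at h1
      rw [hord, hh.unique (NeZero.pos M) h1, order_expand] at hi
      obtain ⟨l, hl⟩ := hk
      rw [hM, Nat.cast_mul] at hl
      refine (hp.dvd_or_dvd (?_ : (q : ℤ) ∣ i * m)).resolve_right hqm'
      refine ⟨h'.order * l, mul_left_cancel₀ hp.ne_zero ?_⟩
      calc (q : ℤ) * (i * m) = i * (k * l) := by rw [← hl]; ring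
        _ = (i * k) * l := by ring
        _ = _ := by rw [← hi]; ring
    · -- some unit has order prime to `q`
      have hu := hall (uF₀ O (⟨m, hM⟩ : q ∣ M) m)
      rw [show ((uF₀ O (⟨m, hM⟩ : q ∣ M) m : Fld₀ O E q m) : Fld E) = uF E q ⟨m, hM⟩ from rfl, uF,
        fShift_toFld, toLS_toFld, order_serAlg_uM hM _ hg] at hu
      obtain ⟨l, hl⟩ := hu
      refine (hp.dvd_or_dvd (?_ : (q : ℤ) ∣ i * (m * (1 - (q : ℤ))))).resolve_right fun h => ?_
      · rw [hl, ← mul_assoc, ← hi, hord]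
        exact (dvd_mul_right _ _).mul_right _
      · rcases hp.dvd_or_dvd h with h | h
        · exact hqm' h
        · exact hp.not_dvd_one (by simpa using dvd_add h (dvd_refl (q : ℤ)))

section Model

open Fermat.Agent.GalRep.InertiaBase

variable {A : ValuationSubring (AlgebraicClosure ℚ)} {L : IntermediateField ℚ (AlgebraicClosure ℚ)}
  [FiniteDimensional ℚ L] [Normal ℚ L] {M q m N : ℕ} [NeZero M] [Fact q.Prime]
  {hζ : Fermat.Agent.NewVec.zetaQ M ∈ L}

set_option maxHeartbeats 2000000 in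
set_option synthInstance.maxHeartbeats 200000 in
/-- A Kummer function of odd exponent has roots off the special fibre of both charts. -/
theorem off_roots_kummer_odd [IsDiscreteValuationRing (rBase A L)] (hq : q.Prime)
    (hA : A.LiesOverPrime q) (hq2 : q ≠ 2) (hm2 : 2 ∣ m) (hqm : ¬ q ∣ m) (hM : M = q * m) (hN : N ∣ M)
    {χ : ParG (Gamma0 N) (ZMod q)} {F : ℍ → ℂ} (hF : IsRepG (Gamma0 N) q χ F)
    {b : bddMF (embR A L hζ)} (hb : ((b : MF M) : ℍ → ℂ) = F ^ q) {f : rTop A L hζ q m}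
    (hf : f ≠ 0) (hfb : (f : Fld (embR A L hζ)) = toFld (embR A L hζ) b) :
    (∀ Q : Ideal (model₀ (rBase A L) (embR A L hζ) q m).B₀, Q.IsPrime → Q ≠ ⊥ →
        algebraMap (rBase A L) _ (rUnif hq hA) ∉ Q → HasRootAt _ q f Q) ∧
      ∀ Q : Ideal (model₀ (rBase A L) (embR A L hζ) q m).B₁, Q.IsPrime → Q ≠ ⊥ →
        algebraMap (rBase A L) _ (rUnif hq hA) ∉ Q → HasRootAt _ q f Q := by
  obtain ⟨u, hu⟩ := exists_unit (A := A) (L := L) hq hA
  rw [map_natCast] at hu
  have hqO : (q : rBase A L) ∈ maximalIdeal (rBase A L) := by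
    rw [IsLocalRing.mem_maximalIdeal]
    exact fun h => (rBase_dvr (A := A) (L := L) hq hA).2.2.not_isUnit
      ((isUnit_pow_iff (rIdx_pos hq hA).ne').mp (hu ▸ h.mul u.isUnit))
  have key : ∀ w : rTop A L hζ q m, (w = jF₀ _ _ q m ∨ w = (jF₀ _ _ q m)⁻¹) →
      ∀ Q : Ideal (chartRing (rBase A L) w), Q.IsPrime → Q ≠ ⊥ →
        algebraMap (rBase A L) _ (rUnif hq hA) ∉ Q → HasRootAt _ q f Q := by
    intro w hw Q hQ hQ0 hπ
    refine hasRootAt_kummer_odd hq2 hm2 hqm hM hN hqO hF hb hf hfb hw Q hQ0 fun h => hπ (hQ.mem_of_pow_mem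
      (rIdx (L := L) hq hA) ?_)
    rw [← map_pow, hu, map_mul]
    exact Q.mul_mem_right _ h
  exact ⟨key _ (Or.inl rfl), key _ (Or.inr rfl)⟩

end Model

end Fermat.Agent.GalRep.Ordinary
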