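/-
One step of the descent: trivialisations of the Kummer functions of classes with power reductions
rise to the critical level and, where inertia acts tamely, beyond it.
-/
import Fermat.Agent.GalRep.Ordinary.Kummer
import Fermat.Agent.GalRep.Ordinary.Eigen
import Fermat.Agent.GalRep.Ordinary.OffRootsOdd
import Fermat.Agent.Models.Wild.Ordinary
import Fermat.Agent.Models.Wild.RootExp

set_option autoImplicit false
set_option linter.style.haveILetI false
set_option linter.unusedSectionVars false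

noncomputable section

namespace Fermat.Agent.GalRep.Ordinary

open UpperHalfPlane CongruenceSubgroup IsLocalRing
open Fermat.Agent.Galois (GQ)
open Fermat.Agent.GalRep Fermat.Agent.GalRep.Level
open Fermat.Agent.GalRep.InertiaBase
open Fermat.Agent.GalRep.Semistable
open Fermat.Agent.ModField
open Fermat.Agent.NewVec
open Fermat.Agent.Models (IsWildModel IsOrdOps HasRootAt IsGenMod Triv IsTriv IsClass)
open scoped MatrixGroups

local notation "Qb" => AlgebraicClosure ℚ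

/-- Roots at all closed points of a chart from a generator along the special fibre and roots off
it. -/
theorem hasRootAt_of_gen {O F : Type} [CommRing O] [Field F] [Algebra O F] {B : Subalgebra O F}
    [IsFractionRing B F] {π : O} {p : ℕ} {f r : F} (hf : f ≠ 0) (hr : IsGenMod B π p f r)
    (hoff : ∀ Q : Ideal B, Q.IsPrime → Q ≠ ⊥ → algebraMap O B π ∉ Q → HasRootAt B p f Q)
    (m : Ideal B) (hm : m.IsMaximal) : HasRootAt B p f m := by
  by_cases h0 : m = ⊥
  · exact h0 ▸ Models.hasRootAt_bot hf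
  by_cases hπ : algebraMap O B π ∈ m
  · obtain ⟨hU, c, hc, d, hd, hUc⟩ := hr
    refine ⟨r, ⟨_, hU⟩, 1, fun hUm => ?_, (Ideal.ne_top_iff_one m).mp hm.ne_top, ?_⟩
    · refine (Ideal.ne_top_iff_one m).mp hm.ne_top ?_
      have h1 := sub_mem (m.mul_mem_right (⟨c, hc⟩ : B) hUm) (m.mul_mem_right (⟨d, hd⟩ : B) hπ)
      convert h1 using 1
      refine Subtype.ext ?_
      push_cast
      rw [hUc, Algebra.smul_def]
      ring
    · show ((1 : B) : F) * r ^ p = r ^ p / f * f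
      rw [OneMemClass.coe_one, one_mul, div_mul_cancel₀ _ hf]
  · exact hoff m hm.isPrime h0 hπ

/-- Roots off the special fibre are not changed by constants. -/
theorem hasRootAt_const_mul {O F : Type} [CommRing O] [IsDomain O] [IsDiscreteValuationRing O]
    [Field F] [Algebra O F] {B : Subalgebra O F} {π : O} (hπ : Irreducible π) {p : ℕ} {f : F}
    {c : O} (hc : c ≠ 0) (Q : Ideal B) [Q.IsPrime] (hQ : algebraMap O B π ∉ Q)
    (h : HasRootAt B p f Q) : HasRootAt B p (algebraMap O F c * f) Q := by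
  obtain ⟨x, a, b, ha, hb, he⟩ := h
  obtain ⟨n, u, rfl⟩ := IsDiscreteValuationRing.eq_unit_mul_pow_irreducible hc hπ
  have hu : algebraMap O B (u : O) ∉ Q := fun hu => Ideal.IsPrime.ne_top ‹_›
    (Q.eq_top_of_isUnit_mem hu (u.isUnit.map _))
  refine ⟨x, a, b * algebraMap O B ((u : O) * π ^ n), ha, fun hb' => ?_, ?_⟩
  · rcases (Ideal.IsPrime.mem_or_mem ‹_› hb') with h | h
    · exact hb h
    rw [map_mul, map_pow] at h
    rcases (Ideal.IsPrime.mem_or_mem ‹_› h) with h | h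
    · exact hu h
    · exact hQ (Ideal.IsPrime.mem_of_pow_mem ‹_› _ h)
  · show ((b * algebraMap O B ((u : O) * π ^ n) : B) : F) * x ^ p =
      (a : F) * (algebraMap O F ((u : O) * π ^ n) * f)
    have he' : (b : F) * x ^ p = (a : F) * f := he
    push_cast
    linear_combination (algebraMap O F (u : O) * algebraMap O F π ^ n) * he'

section Algebra

variable {R T : Type} [CommRing R] [CommRing T] [Algebra R T]

theorem alg_norm_old (c : R) (f : T) (n : ℕ) : algebraMap R T (c ^ (n + 1)) * f ^ (n + 1) =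
    algebraMap R T 1 * (algebraMap R T c * f) * (algebraMap R T c * f) ^ n := by
  rw [map_pow, map_one]
  ring

theorem alg_norm_new (a c : R) (H : T) :
    algebraMap R T a * (algebraMap R T c * H) = algebraMap R T (a * c) * H := by
  rw [map_mul, mul_assoc]

theorem alg_tame (τ : T →+* T) (a : R ≃+* R)
    (ha : ∀ r, τ (algebraMap R T r) = algebraMap R T (a r)) {w wi v π c : R} (hwi : wi * w = 1)
    (hv : a π = π * v) {f H : T} {q : ℕ} (he : τ f = algebraMap R T c * f * H ^ q) (n : ℕ) :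
    τ (algebraMap R T (w * π ^ n) * f) =
      algebraMap R T (a w * wi * v ^ n * c) * (algebraMap R T (w * π ^ n) * f) * H ^ q := by
  have hwi' : algebraMap R T wi * algebraMap R T w = 1 := by rw [← map_mul, hwi, map_one]
  rw [map_mul τ, ha, he, map_mul a, map_pow a, hv]
  simp only [map_mul, map_pow, mul_pow]
  linear_combination -(algebraMap R T (a w) * algebraMap R T v ^ n * algebraMap R T c *
    algebraMap R T π ^ n * f * H ^ q) * hwi'

end Algebra

/-- The data of the descent: the place, the level and the auxiliary level of the model. -/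
structure OrdSetup (A : ValuationSubring (AlgebraicClosure ℚ)) (p m m' : ℕ) [NeZero (p * m')]
    (g g' : SL(2, ℤ)) : Prop where
  hA : A.LiesOverPrime p
  hg : g 1 0 = m ∧ g 1 1 = p
  hg' : g' 1 0 = m' ∧ g' 1 1 = p
  hp2 : p ≠ 2
  hpm : ¬ p ∣ m
  hpm' : ¬ p ∣ m'
  hmm : m ∣ m'
  hm2 : 2 ∣ m'
  hcharts : ChartsSemi A p m'

variable {A : ValuationSubring (AlgebraicClosure ℚ)} {L : IntermediateField ℚ (AlgebraicClosure ℚ)}
  [FiniteDimensional ℚ L] [Normal ℚ L] {p m m' N k : ℕ} [Fact p.Prime] [NeZero (p * m')] [NeZero p]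
  [NeZero m] [NeZero m'] [NeZero N] {g g' : SL(2, ℤ)} {hζ : zetaQ (p * m') ∈ L}
  [IsDiscreteValuationRing (rBase A L)]

local notation "hp" => (Fact.out : p.Prime)
local notation "EL" => embR A L hζ
local notation "RO" => rBase A L
local notation "FT" => rTop A L hζ p m'

/-- A Kummer function of the class is, up to a constant, trivial modulo the `k`-th power of the
uniformiser. -/
def GoodAt (hA : A.LiesOverPrime p) (hζ : zetaQ (p * m') ∈ L) (χ : ParHom N (ZMod p)) (k : ℕ) :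
    Prop :=
  ∃ (F : ℍ → ℂ) (b : bddMF (embR A L hζ)) (f : rTop A L hζ p m') (c : rBase A L),
    IsRepG (Gamma0 N) p χ F ∧ ((b : MF (p * m')) : ℍ → ℂ) = F ^ p ∧
      (f : Fld (embR A L hζ)) = toFld (embR A L hζ) b ∧ f ≠ 0 ∧ c ≠ 0 ∧
        Triv (model₀ (rBase A L) (embR A L hζ) p m') (rUnif (Fact.out : p.Prime) hA) p
          (algebraMap (rBase A L) (rTop A L hζ p m') c * f) k

namespace OrdSetup

variable (S : OrdSetup A p m m' g g')

include S

local notation "Md" => model₀ RO EL p m'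

theorem isWild : IsWildModel Md (rUnif hp S.hA)
    (twoP RO EL p m' (WildModel.irreducible_rUnif hp S.hA)) (rIdx (L := L) hp S.hA) p
    (algebraMap (wTop A (p * m') p m') FT).fieldRange :=
  WildModel.isWildModel hp S.hA S.hpm' hζ S.hcharts

theorem natCast_mem : (p : RO) ∈ maximalIdeal RO := by
  rw [mem_maximalIdeal_rBase, map_natCast]
  exact val_q_lt hp S.hA

theorem exists_ops : ∃ φ : FT ≃+* FT, IsOrdOps Md (rUnif hp S.hA) p
    (twoP RO EL p m' (WildModel.irreducible_rUnif hp S.hA)) (normOp S.hpm') (trOp S.hpm')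
    (wOp rfl S.hpm' S.hg') φ := by
  obtain ⟨σ, hσ, hσs⟩ := exists_frob_stab S.hA hζ
  exact exists_isOrdOps rfl S.hpm' S.natCast_mem _
    (comp_rTop S.hA S.hpm' S.hcharts) σ hσ hσs S.hg'

theorem off_roots (hN : N ∣ p * m') {χ : ParHom N (ZMod p)} {F : ℍ → ℂ}
    (hF : IsRepG (Gamma0 N) p χ F) {b : bddMF EL} (hb : ((b : MF (p * m')) : ℍ → ℂ) = F ^ p)
    {f : FT} (hf : f ≠ 0) (hfb : (f : Fld EL) = toFld EL b) :
    (∀ Q : Ideal (Md).B₀, Q.IsPrime → Q ≠ ⊥ → algebraMap RO _ (rUnif hp S.hA) ∉ Q →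
        HasRootAt _ p f Q) ∧
      ∀ Q : Ideal (Md).B₁, Q.IsPrime → Q ≠ ⊥ → algebraMap RO _ (rUnif hp S.hA) ∉ Q →
        HasRootAt _ p f Q := by
  exact off_roots_kummer_odd hp S.hA S.hp2 S.hm2 S.hpm' rfl hN hF hb hf hfb

/-- A Kummer function of a class fixed by inertia over the base. -/
theorem exists_kummer (hN : N ∣ p * m') (χ : ParHom N (ZMod p))
    (hfix : ∀ s ∈ A.inertiaSubgroupIn ℚ, (∀ x ∈ L, s x = x) →
      (kummerGalois N p).galois s χ = χ) :
    ∃ (F : ℍ → ℂ) (b : bddMF EL) (f : FT), IsRepG (Gamma0 N) p χ F ∧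
      ((b : MF (p * m')) : ℍ → ℂ) = F ^ p ∧ (f : Fld EL) = toFld EL b ∧ f ≠ 0 :=
  WildModel.exists_kummerFun hp S.hpm' rfl hN χ hfix

/-- Power reductions on both components give a trivialisation modulo the uniformiser. -/
theorem goodAt_one {χ : ParHom (p * m) (ZMod p)} (hχ : HasPowRep A χ)
    (hW : HasPowRep A (alR S.hg χ)) {N : ℕ} [NeZero N] {χ' : ParHom N (ZMod p)} {F : ℍ → ℂ}
    {b : bddMF EL} {f : FT} (hF : IsRepG (Gamma0 (p * m)) p χ F)
    (hF' : IsRepG (Gamma0 N) p χ' F) (hb : ((b : MF (p * m')) : ℍ → ℂ) = F ^ p)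
    (hf : (f : Fld EL) = toFld EL b) (hf0 : f ≠ 0) : GoodAt S.hA hζ χ' 1 := by
  have hN : p * m ∣ p * m' := mul_dvd_mul_left p S.hmm
  obtain ⟨φ, ho⟩ := S.exists_ops (hζ := hζ)
  obtain ⟨b', hb', hWf⟩ := exists_kummer_wOp S.hg S.hg' S.hpm' S.hmm hF hb hf
  obtain ⟨n, T, hT⟩ := exists_root_both rfl S.hpm' (S.isWild (hζ := hζ))
    (wOp rfl S.hpm' S.hg') ho.W_const (fun z => ho.swap_W.swap false z)
    (powSer_kummer S.hA hN hχ hF hb hf)
    (powSer_kummer S.hA hN hW (alR_rep S.hg hF) hb' hWf)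
  obtain ⟨hoff₀, hoff₁⟩ := S.off_roots hN hF hb hf0 hf
  obtain ⟨t, -, ht⟩ := (S.isWild (hζ := hζ)).exists_triv_one hf0 hoff₀ hoff₁ hT
  refine ⟨F, b, f, rUnif hp S.hA ^ t, hF', hb, hf, hf0,
    pow_ne_zero _ (S.isWild (hζ := hζ)).irreducible.ne_zero, ?_⟩
  rwa [map_pow]

/-- A trivialisation beyond the critical level makes the class vanish on `Γ(p m')`. -/
theorem eq_zero_of_goodAt (hN : N ∣ p * m') {χ : ParHom N (ZMod p)}
    (h : GoodAt S.hA hζ χ k) (hk : 0 < k) (hke : rIdx (L := L) hp S.hA + k < p * k)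
    (γ : Gamma0 N) (hγ : (γ : SL(2, ℤ)) ∈ Gamma (p * m')) :
    (χ : Additive (Gamma0 N) →+ ZMod p) (Additive.ofMul γ) = 0 := by
  obtain ⟨F, b, f, c, hF, hb, hf, hf0, hc, ht⟩ := h
  have hw := S.isWild (hζ := hζ)
  have hcf : algebraMap RO FT c * f ≠ 0 :=
    mul_ne_zero ((map_ne_zero_iff _ hw.injective).mpr hc) hf0
  obtain ⟨hoff₀, -⟩ := S.off_roots hN hF hb hf0 hf
  obtain ⟨r₀, r₁, hr⟩ := ht
  haveI := hw.chart₀.fractionRing
  have hroots := hasRootAt_of_gen hcf hr.gen₀ fun Q hQ hQ0 hQπ =>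
    @hasRootAt_const_mul _ _ _ _ _ _ _ _ _ hw.irreducible _ _ _ hc Q hQ hQπ (hoff₀ Q hQ hQ0 hQπ)
  obtain ⟨c', H, hc', hH, he⟩ := hw.exists_root_of_triv hcf hroots hk hke ⟨r₀, r₁, hr⟩
  refine WildModel.apply_eq_zero_of_pow_eq (q := p) (m := m') (K := baseK RO EL) hF hb
    (h := (H : Fld EL)) H.2 (fun h0 => hH (Subtype.ext h0)) (mul_ne_zero hc' hc) ?_ γ
    (gamma_le_levelG (dvd_mul_right p m') (dvd_mul_left m' p) hγ)
  have h1 := congrArg (fun z : FT => (z : Fld EL)) he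
  push_cast [coe_algebraMap_fld₀] at h1
  rw [h1, map_mul, hf, mul_assoc]

/-- The norm of a constant. -/
theorem norm_const (c : RO) :
    normOp S.hpm' (algebraMap RO FT c) = algebraMap RO FT (c ^ (p + 1)) := by
  refine Subtype.ext ?_
  rw [coe_normOp]
  simp only [coe_algebraMap_fld₀, fShift_algebraMap, Finset.prod_const, Finset.card_univ,
    Fintype.card_option, Fintype.card_fin, map_pow]
  rfl

/-- The norm moves constants out with exponent `p + 1`. -/
theorem norm_const_mul (c : RO) (x : FT) : normOp S.hpm' (algebraMap RO FT c * x) =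
    algebraMap RO FT (c ^ (p + 1)) * normOp S.hpm' x := by
  rw [← S.norm_const c]
  exact (normOp (O := RO) (E := EL) (p := p) (m := m') S.hpm').map_mul _ _

/-- The involution is linear over the base. -/
theorem wOp_const_mul (c : RO) (x : FT) : wOp rfl S.hpm' S.hg' (algebraMap RO FT c * x) =
    algebraMap RO FT c * wOp rfl S.hpm' S.hg' x := by
  refine ((wOp (O := RO) (E := EL) (p := p) (m := m') rfl S.hpm' S.hg').map_mul _ _).trans ?_
  rw [wOp_algebraMap]

/-- The norm of a Kummer function of level `m`. -/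
theorem norm_level {χ : ParHom m (ZMod p)} {F : ℍ → ℂ} {b : bddMF EL} {f : FT}
    (hF : IsRepG (Gamma0 m) p χ F) (hb : ((b : MF (p * m')) : ℍ → ℂ) = F ^ p)
    (hf : (f : Fld EL) = toFld EL b) : normOp S.hpm' f = f ^ (p + 1) := by
  refine Subtype.ext ?_
  rw [coe_normOp]
  have h : ∀ i, fShift EL (cosRep p m' i) (f : Fld EL) = f := fun i => by
    rw [hf, fShift_toFld]
    refine congrArg _ (Subtype.ext (shift_eq_self_of_invariant (G := Gamma0 m)
      (φ := (b : MF (p * m'))) (fun γ hγ τ => by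
        rw [hb]; exact hF.isModFun_pow.invariant γ hγ τ) ?_))
    exact Gamma0_mem.mpr (by
      simpa using congrArg (ZMod.castHom S.hmm (ZMod m)) (Gamma_mem.mp (cosRep_mem i)).2.2.1)
  simp only [h, Finset.prod_const, Finset.card_univ, Fintype.card_option, Fintype.card_fin]
  push_cast
  rfl

/-- The norm of a multiple of a Kummer function of level `m`. -/
theorem norm_level_mul {χ : ParHom m (ZMod p)} {F : ℍ → ℂ} {b : bddMF EL} {f : FT}
    (hF : IsRepG (Gamma0 m) p χ F) (hb : ((b : MF (p * m')) : ℍ → ℂ) = F ^ p)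
    (hf : (f : Fld EL) = toFld EL b) (c : RO) :
    normOp S.hpm' (algebraMap RO FT c * f) =
      algebraMap RO FT 1 * (algebraMap RO FT c * f) * (algebraMap RO FT c * f) ^ p := by
  rw [S.norm_const_mul c f, S.norm_level hF hb hf]
  exact alg_norm_old c f p

/-- Below the critical level a transfer of a class trivial modulo `π ^ k` is trivial one step
higher. -/
theorem goodAt_transT {z : ParHom m (ZMod p)} (hz : GoodAt S.hA hζ z k) (hk : 0 < k)
    (hke : p * k < rIdx (L := L) hp S.hA + k) :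
    GoodAt S.hA hζ (transT S.hg S.hpm z) (k + 1) := by
  obtain ⟨F, b, f, c, hF, hb, hf, hf0, hc, r₀, r₁, hr⟩ := hz
  have hw := S.isWild (hζ := hζ)
  obtain ⟨φ, ho⟩ := S.exists_ops (hζ := hζ)
  set x := algebraMap RO FT c * f
  have hx : x ≠ 0 := mul_ne_zero ((map_ne_zero_iff _ hw.injective).mpr hc) hf0
  obtain ⟨δ, hδ⟩ := hr.exists_class hx hw.prime.pos
  have hN : normOp S.hpm' x = algebraMap RO FT 1 * x * x ^ p :=
    S.norm_level_mul hF hb hf c
  obtain ⟨δ', s₀, s₁, hd, hs⟩ := hw.split_old ho hk hke hx hδ one_ne_zero hx hN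
  have hres := repG_of_kummer (resR_rep (dvd_mul_left m p) (IsRepG.kummer hF))
  obtain ⟨b', hb', hWf⟩ := exists_kummer_wOp S.hg S.hg' S.hpm' S.hmm hres hb hf
  obtain ⟨G, b'', hG, hb'', hNf⟩ :=
    exists_kummer_norm S.hg S.hpm' S.hmm (alR_rep S.hg hres) hb' hWf S.hpm
  refine ⟨G, b'', normOp S.hpm' (wOp rfl S.hpm' S.hg' f), c ^ (p + 1), hG, hb'', hNf,
    (map_ne_zero (normOp S.hpm')).mpr ((map_ne_zero _).mpr hf0), pow_ne_zero _ hc, ?_⟩
  have h1 := hw.triv_succ hk hd hs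
  rwa [show x = algebraMap RO FT c * f from rfl, S.wOp_const_mul c f,
      S.norm_const_mul c (wOp rfl S.hpm' S.hg' f)] at h1

/-- Below the critical level a class with both norms trivial climbs one step. -/
theorem goodAt_new {x : ParHom (p * m) (ZMod p)} (hx : GoodAt S.hA hζ x k) (hk : 0 < k)
    (hke : p * k < rIdx (L := L) hp S.hA + k) (h1 : corR S.hg S.hpm x = 0)
    (h2 : corR S.hg S.hpm (alR S.hg x) = 0) : GoodAt S.hA hζ x (k + 1) := by
  obtain ⟨F, b, f, c, hF, hb, hf, hf0, hc, r₀, r₁, hr⟩ := hx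
  have hw := S.isWild (hζ := hζ)
  obtain ⟨φ, ho⟩ := S.exists_ops (hζ := hζ)
  have hx : algebraMap RO FT c * f ≠ 0 :=
    mul_ne_zero ((map_ne_zero_iff _ hw.injective).mpr hc) hf0
  obtain ⟨δ, hδ⟩ := hr.exists_class hx hw.prime.pos
  have hmN : m ∣ p * m' := S.hmm.trans (dvd_mul_left m' p)
  obtain ⟨G, b', hG, hb', hNf⟩ := exists_kummer_norm S.hg S.hpm' S.hmm hF hb hf S.hpm
  rw [h1] at hG
  obtain ⟨c₁, H₁, -, -, e1⟩ := exists_pow_zero S.hpm' hmN hG hb' hNf
  obtain ⟨b₂, hb₂, hWf⟩ := exists_kummer_wOp S.hg S.hg' S.hpm' S.hmm hF hb hf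
  obtain ⟨G₂, b₃, hG₂, hb₃, hNW⟩ :=
    exists_kummer_norm S.hg S.hpm' S.hmm (alR_rep S.hg hF) hb₂ hWf S.hpm
  rw [h2] at hG₂
  obtain ⟨c₂, H₂, -, -, e2⟩ := exists_pow_zero S.hpm' hmN hG₂ hb₃ hNW
  refine ⟨F, b, f, c, hF, hb, hf, hf0, hc, hw.triv_succ hk hδ
    (hw.split_new ho hk hke hx hδ (c := c ^ (p + 1) * c₁) (H := H₁)
      (c' := c ^ (p + 1) * c₂) (H' := H₂) ?_ ?_)⟩
  · rewrite [S.norm_const_mul c f, e1]
    exact alg_norm_new _ _ _
  · rewrite [S.wOp_const_mul c f, S.norm_const_mul c (wOp rfl S.hpm' S.hg' f)]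
    exact (congrArg (algebraMap RO FT (c ^ (p + 1)) * ·) e2).trans (alg_norm_new _ _ _)

/-- A tame element fixing the class lifts it past a level where its character is not trivial. -/
theorem goodAt_tame (hN : N ∣ p * m') {χ : ParHom N (ZMod p)} (hχ : GoodAt S.hA hζ χ k)
    (hk : 0 < k) {σ : A.inertiaSubgroupIn ℚ} (hσ : (kummerGalois N p).galois (σ : GQ) χ = χ)
    (hu : ∀ v : RO, rAct L σ (rUnif hp S.hA) = rUnif hp S.hA * v → IsUnit (v ^ k - 1)) :
    GoodAt S.hA hζ χ (k + 1) := by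
  obtain ⟨F, b, f, c, hF, hb, hf, hf0, hc, r₀, r₁, hr⟩ := hχ
  have hw := S.isWild (hζ := hζ)
  have hx : algebraMap RO FT c * f ≠ 0 :=
    mul_ne_zero ((map_ne_zero_iff _ hw.injective).mpr hc) hf0
  obtain ⟨δ, hδ⟩ := hr.exists_class hx hw.prime.pos
  obtain ⟨F', b', hF', hb', hf'⟩ := WildModel.exists_conj_kummerFun rfl hN hF hb hf σ
  rw [hσ] at hF'
  obtain ⟨c₁, H, hc₁, hH, he⟩ := exists_pow_rTop S.hpm' hN hF hF' hb hb' hf hf'
  obtain ⟨v, hv⟩ := exists_rAct_rUnif (L := L) hp S.hA σ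
  obtain ⟨n, w, rfl⟩ := IsDiscreteValuationRing.eq_unit_mul_pow_irreducible hc hw.irreducible
  obtain ⟨t₀, t₁, t₀₁⟩ := tauTop_trivial (hζ := hζ) S.hA S.hpm' S.hcharts σ
  refine ⟨F, b, f, _, hF, hb, hf, hf0, hc, hw.triv_succ hk hδ
    (hw.split_tame (σ := tauTop hζ rfl σ) (fun z hz => t₀.map_mem hz) (fun z hz => t₁.map_mem hz)
      (fun z hz => ?_) (u := (v : RO)) ?_ hk (hu v hv) hx hδ
      (c := rAct L σ (w : RO) * ((w⁻¹ : ROˣ) : RO) * (v : RO) ^ n * c₁) (H := H) ?_ hH ?_)⟩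
  · obtain ⟨e, he', h2⟩ := t₀₁ z hz
    exact ⟨e, he', by rw [← h2, add_sub_cancel]⟩
  · rw [tauTop_algebraMap, hv]
  · exact mul_ne_zero (mul_ne_zero (mul_ne_zero (w.isUnit.map (rAct L σ)).ne_zero w⁻¹.ne_zero)
      (pow_ne_zero _ v.ne_zero)) hc₁
  · exact alg_tame (tauTop hζ rfl σ) (rAct L σ) (fun r => tauTop_algebraMap rfl σ r) w.inv_mul hv he n

/-- At level `p - 1` a class of level `m` killed by the transfer climbs past the critical level. -/
theorem goodAt_kernel {z : ParHom m (ZMod p)} (hz : GoodAt S.hA hζ z 1)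
    (he : rIdx (L := L) hp S.hA = p - 1) (hT : transT S.hg S.hpm z = 0) :
    GoodAt S.hA hζ z 2 := by
  obtain ⟨F, b, f, c, hF, hb, hf, hf0, hc, r₀, r₁, hr⟩ := hz
  have hw := S.isWild (hζ := hζ)
  obtain ⟨φ, ho⟩ := S.exists_ops (hζ := hζ)
  set x := algebraMap RO FT c * f with hxdef
  have hx : x ≠ 0 := mul_ne_zero ((map_ne_zero_iff _ hw.injective).mpr hc) hf0
  obtain ⟨δ, hδ⟩ := hr.exists_class hx hw.prime.pos
  have hN : normOp S.hpm' x = algebraMap RO FT 1 * x * x ^ p :=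
    S.norm_level_mul hF hb hf c
  have hres := repG_of_kummer (resR_rep (dvd_mul_left m p) (IsRepG.kummer hF))
  obtain ⟨b', hb', hWf⟩ := exists_kummer_wOp S.hg S.hg' S.hpm' S.hmm hres hb hf
  obtain ⟨G, b'', hG, hb'', hNf⟩ :=
    exists_kummer_norm S.hg S.hpm' S.hmm (alR_rep S.hg hres) hb' hWf S.hpm
  rw [← transT_apply, hT] at hG
  obtain ⟨c₂, H₂, -, -, e2⟩ :=
    exists_pow_zero S.hpm' (S.hmm.trans (dvd_mul_left m' p)) hG hb'' hNf
  have hke : p * 1 = rIdx (L := L) hp S.hA + 1 := by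
    rw [he, Nat.sub_add_cancel hw.prime.one_le, mul_one]
  refine ⟨F, b, f, c, hF, hb, hf, hf0, hc, hw.triv_succ one_pos hδ
    (hw.split_kernel ho one_pos hke hx hδ one_ne_zero hx hN (c' := c ^ (p + 1) * c₂) (H' := H₂) ?_)⟩
  rw [hxdef, S.wOp_const_mul c f,
      S.norm_const_mul c (wOp rfl S.hpm' S.hg' f), e2]
  exact alg_norm_new _ _ _

end OrdSetup

end Fermat.Agent.GalRep.Ordinary
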