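/-
No ordinary module consists of classes congruent to powers on both components: the classes of the
old part are removed by the transfer, the remaining ones climb past the critical level.
-/
import Fermat.Agent.GalRep.Ordinary.Steps
import Fermat.Agent.GalRep.Semistable.SemiModel
import Fermat.Agent.Period.CosetCount

set_option autoImplicit false
set_option linter.style.haveILetI false
set_option linter.unusedSectionVars false

noncomputable section

namespace Fermat.Agent.GalRep.Ordinary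

open UpperHalfPlane CongruenceSubgroup IsLocalRing
open Fermat.Agent.Galois (GQ)
open Fermat.Agent.GalRep Fermat.Agent.GalRep.Level
open Fermat.Agent.GalRep.InertiaBase
open Fermat.Agent.GalRep.Semistable
open Fermat.Agent.ModField
open Fermat.Agent.NewVec
open scoped MatrixGroups

local notation "Qb" => AlgebraicClosure ℚ

variable {A : ValuationSubring (AlgebraicClosure ℚ)} {p m m' : ℕ} [Fact p.Prime] [NeZero (p * m')]
  [NeZero p] [NeZero m] [NeZero m'] {g g' : SL(2, ℤ)}

local notation "hp" => (Fact.out : p.Prime)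
local notation "Gl[" N' "]" => KummerGalois.galois (kummerGalois N' p)

/-- The group ring preserves a Galois stable group of classes. -/
theorem ringAct_mem_of_stable {N : ℕ} [NeZero N] {M : AddSubgroup (ParHom N (ZMod p))}
    (hst : ∀ σ : GQ, ∀ x ∈ M, Gl[N] σ x ∈ M) (X : MonoidAlgebra ℤ GQ) {x : ParHom N (ZMod p)}
    (hx : x ∈ M) : ringAct N X x ∈ M := by
  induction X using MonoidAlgebra.induction_on with
  | of γ => simp only [ringAct, MonoidAlgebra.lift_of]; exact hst γ x hx
  | add a b ha hb => simp only [map_add, LinearMap.add_apply]; exact add_mem ha hb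
  | smul r a ha => simp only [map_smul, LinearMap.smul_apply]; exact zsmul_mem ha r

/-- Below the critical level the next level is allowed, beyond it classes vanish. -/
theorem crit_arith {k e j : ℕ} (he : k * (p - 1) = e) :
    (j < k → p * j < e + j) ∧ e + (k + 1) < p * (k + 1) := by
  obtain ⟨d, rfl⟩ : ∃ d, p = d + 2 := ⟨p - 2, (Nat.sub_add_cancel (Fact.out : p.Prime).two_le).symm⟩
  rw [show d + 2 - 1 = d + 1 by omega] at he
  subst he
  constructor
  · intro hj
    nlinarith [Nat.mul_lt_mul_of_pos_right hj (Nat.succ_pos d)]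
  · nlinarith

namespace OrdSetup

variable (S : OrdSetup A p m m' g g')

include S

theorem dvd_level : p * m ∣ p * m' := mul_dvd_mul_left p S.hmm

theorem dvd_old : m ∣ p * m' := S.hmm.trans (dvd_mul_left m' p)

section Base

variable {L : IntermediateField ℚ (AlgebraicClosure ℚ)} [FiniteDimensional ℚ L] [Normal ℚ L]
  {hζ : zetaQ (p * m') ∈ L} [IsDiscreteValuationRing (rBase A L)]

/-- A class of level `m` with power reduction starts the climb. -/
theorem goodAt_one_old {z : ParHom m (ZMod p)} (hz : HasPowRep A z)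
    (hfix : ∀ s ∈ A.inertiaSubgroupIn ℚ, (∀ x ∈ L, s x = x) → Gl[m] s z = z) :
    GoodAt S.hA hζ z 1 := by
  obtain ⟨F, b, f, hF, hb, hf, hf0⟩ := S.exists_kummer (hζ := hζ) S.dvd_old z hfix
  exact S.goodAt_one (hz.res (dvd_mul_left m p)) (hz.alR_res S.hg)
    (repG_of_kummer (resR_rep (dvd_mul_left m p) (IsRepG.kummer hF))) hF hb hf hf0

/-- A class of level `pm` with power reductions on both components starts the climb. -/
theorem goodAt_one_new {x : ParHom (p * m) (ZMod p)} (hx : HasPowRep A x)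
    (hW : HasPowRep A (alR S.hg x))
    (hfix : ∀ s ∈ A.inertiaSubgroupIn ℚ, (∀ y ∈ L, s y = y) → Gl[p * m] s x = x) :
    GoodAt S.hA hζ x 1 := by
  obtain ⟨F, b, f, hF, hb, hf, hf0⟩ := S.exists_kummer (hζ := hζ) S.dvd_level x hfix
  exact S.goodAt_one hx hW hF hF hb hf hf0

end Base

variable {M : AddSubgroup (ParHom (p * m) (ZMod p))} (hM : IsOrdModule A p m M)
  (hle : M ≤ powKer A p m p) {s : GQ} (hsI : s ∈ A.inertiaSubgroupIn ℚ)
  (hω : PadicInt.toZMod (cyc p s : ℤ_[p]) ≠ 1) {X Y : MonoidAlgebra ℤ GQ}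
  (hE : ∀ x ∈ M, IsExch A s X Y x)

include hM hle hsI hω hE

/-- The transfer is injective on the fixed classes of the old part. -/
theorem eq_zero_of_transT {z : ParHom m (ZMod p)} (hz : z ∈ oldPart S.hg S.hpm M)
    (hfz : Gl[m] s z = z) (hT : transT S.hg S.hpm z = 0) : z = 0 := by
  set L : IntermediateField ℚ Qb := IntermediateField.adjoin ℚ ({zetaQ (p * m')} : Set Qb)
  haveI : FiniteDimensional ℚ L := WildModel.finite_adjoin_zetaQ _
  haveI : Normal ℚ L := WildModel.normal_adjoin_zetaQ _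
  haveI := (rBase_dvr (A := A) (L := L) hp S.hA).1
  have hζ : zetaQ (p * m') ∈ L := IntermediateField.mem_adjoin_simple_self ℚ _
  set y := ringAct m X z with hy
  have hEz : IsExch A s X Y z := isExch_oldPart S.hg S.hpm hM hE hz
  have hy1 : Gl[m] s y = omegaNat (p := p) s • y := (hEz.fixed (hk_omega hω) hfz).1
  have hym : y ∈ oldPart S.hg S.hpm M := ringAct_mem_oldPart S.hg S.hpm hM X hz
  have hEy : IsExch A s X Y y := isExch_oldPart S.hg S.hpm hM hE hym
  have hfix : ∀ τ ∈ A.inertiaSubgroupIn ℚ, (∀ x ∈ L, τ x = x) → Gl[m] τ y = y := by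
    intro τ hτ hτL
    have h1 : omegaNat (p := p) τ = 1 := by
      have hμ := isPrimitiveRoot_mu (M := p * m') (m := m') hp rfl
      refine hμ.pow_inj (ZMod.val_lt _) (Fact.out : p.Prime).one_lt ?_
      rw [pow_one, ← apply_root (p := p) τ hμ.pow_eq_one]
      exact hτL _ (pow_mem hζ m')
    have h2 := hEy.inertia_eigen (hk_omega hω) hsI hy1 hτ
    rwa [h1, one_smul] at h2
  have hTy : transT S.hg S.hpm y = 0 := by
    rw [hy, ringAct_comm _ (transT_galois S.hg S.hpm) X z, hT, map_zero]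
  have hG := S.goodAt_kernel (S.goodAt_one_old (hζ := hζ)
    (hasPowRep_oldPart S.hg S.hpm hM S.hA hle hym) hfix)
    (rIdx_cyclotomic S.hA rfl S.hpm' hζ le_rfl) hTy
  refine eq_zero_of_vanish_moved hω S.dvd_old (dvd_mul_right p m') hEz hfz fun γ hγ =>
    S.eq_zero_of_goodAt S.dvd_old hG two_pos ?_ γ hγ
  rw [rIdx_cyclotomic S.hA rfl S.hpm' hζ le_rfl]
  have := (Fact.out : p.Prime).two_le
  omega

/-- The fixed classes of the old part and of the module are zero. -/
theorem eq_zero_of_fixed :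
    (∀ z ∈ oldPart S.hg S.hpm M, Gl[m] s z = z → z = 0) ∧
      ∀ x ∈ M, Gl[p * m] s x = x → x = 0 := by
  obtain ⟨L, hL1, hL2, hζ, hL⟩ := exists_base_field (p * m') (p * m) m p
  haveI := hL1
  haveI := hL2
  haveI := (rBase_dvr (A := A) (L := L) hp S.hA).1
  obtain ⟨k, u, hk0, hk, hu, he⟩ := exists_crit (L := L) (M := p * m') S.hA rfl hζ
  obtain ⟨hlow, hhigh⟩ : (∀ j, j < k → p * j < rIdx (L := L) hp S.hA + j) ∧
      rIdx (L := L) hp S.hA + (k + 1) < p * (k + 1) :=
    ⟨fun j => (crit_arith (j := j) hk).1, (crit_arith (j := k) hk).2⟩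
  have htame : ∀ v : rBase A L,
      rAct L ⟨s, hsI⟩ (rUnif hp S.hA) = rUnif hp S.hA * v → IsUnit (v ^ k - 1) := fun v hv =>
    isUnit_tame (s := ⟨s, hsI⟩) S.hA rfl hζ hω hu hk0 he hv
  -- the old part
  have hsurj : ∀ z ∈ oldPart S.hg S.hpm M, Gl[m] s z = z →
      ∃ w ∈ oldPart S.hg S.hpm M, Gl[m] s w = w ∧ transT S.hg S.hpm w = z := by
    let V : AddSubgroup (ParHom m (ZMod p)) :=
      { carrier := {z | z ∈ oldPart S.hg S.hpm M ∧ Gl[m] s z = z}
        zero_mem' := ⟨zero_mem _, map_zero _⟩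
        add_mem' := fun {a b} ha hb => ⟨add_mem ha.1 hb.1, by rw [map_add, ha.2, hb.2]⟩
        neg_mem' := fun {a} ha => ⟨neg_mem ha.1, by rw [map_neg, ha.2]⟩ }
    let T : V →+ V := ((transT S.hg S.hpm).comp V.subtype).codRestrict V fun z =>
      ⟨transT_mem_oldPart S.hg S.hpm z.2.1, by
        show Gl[m] s (transT S.hg S.hpm (z : ParHom m (ZMod p))) = _
        rw [← transT_galois, z.2.2]; rfl⟩
    have hT : Function.Injective T := (injective_iff_map_eq_zero T).mpr fun z hz =>
      Subtype.ext (S.eq_zero_of_transT hM hle hsI hω hE z.2.1 z.2.2 (congrArg Subtype.val hz))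
    intro z hz hfz
    obtain ⟨⟨w, hw1, hw2⟩, he⟩ := Finite.injective_iff_surjective.mp hT ⟨z, hz, hfz⟩
    exact ⟨w, hw1, hw2, congrArg Subtype.val he⟩
  have hold : ∀ z ∈ oldPart S.hg S.hpm M, Gl[m] s z = z → z = 0 := by
    have hGood : ∀ j, 0 < j → j ≤ k → ∀ z ∈ oldPart S.hg S.hpm M, Gl[m] s z = z →
        GoodAt S.hA hζ z j := by
      intro j
      induction j with
      | zero => exact fun h => absurd h (lt_irrefl 0)
      | succ j ih =>
        intro _ hjk z hz hfz
        rcases Nat.eq_zero_or_pos j with rfl | hj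
        · exact S.goodAt_one_old (hasPowRep_oldPart S.hg S.hpm hM S.hA hle hz) fun τ _ hτ => by
            rw [(hL τ hτ).2]; rfl
        · obtain ⟨w, hw, hfw, rfl⟩ := hsurj z hz hfz
          exact S.goodAt_transT (ih hj (by omega) w hw hfw) hj (hlow j (by omega))
    intro z hz hfz
    have hG := S.goodAt_tame S.dvd_old (hGood k hk0 le_rfl z hz hfz) hk0 (σ := ⟨s, hsI⟩) hfz htame
    exact eq_zero_of_vanish hω S.dvd_old (dvd_mul_right p m')
      (isExch_oldPart S.hg S.hpm hM hE hz) hfz fun γ hγ =>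
        S.eq_zero_of_goodAt S.dvd_old hG (Nat.succ_pos k) hhigh γ hγ
  refine ⟨hold, fun x hx hfx => ?_⟩
  -- the module
  have h1 : corR S.hg S.hpm x = 0 := hold _ (corR_mem_oldPart S.hg S.hpm hx)
    (by rw [← corR_galois, hfx])
  have h2 : corR S.hg S.hpm (alR S.hg x) = 0 := hold _ (corR_alR_mem_oldPart S.hg S.hpm hx)
    (by rw [← corR_galois, ← alR_galois, hfx])
  have hGood : ∀ j, 0 < j → j ≤ k → GoodAt S.hA hζ x j := by
    intro j
    induction j with
    | zero => exact fun h => absurd h (lt_irrefl 0)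
    | succ j ih =>
      intro _ hjk
      rcases Nat.eq_zero_or_pos j with rfl | hj
      · obtain ⟨a, b⟩ := (mem_powKer_iff S.hg S.hA).mp (hle hx)
        exact S.goodAt_one_new a b fun τ _ hτ => by rw [(hL τ hτ).1]; rfl
      · exact S.goodAt_new (ih hj (by omega)) hj (hlow j (by omega)) h1 h2
  have hG := S.goodAt_tame S.dvd_level (hGood k hk0 le_rfl) hk0 (σ := ⟨s, hsI⟩) hfx htame
  exact eq_zero_of_vanish hω S.dvd_level (dvd_mul_right p m') (hE x hx) hfx fun γ hγ =>
    S.eq_zero_of_goodAt S.dvd_level hG (Nat.succ_pos k) hhigh γ hγ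

end OrdSetup

omit [NeZero (p * m')] [NeZero m'] in
/-- No ordinary module of classes is congruent to powers on both components. -/
theorem noOrdInKer (hp2 : p ≠ 2) (hpm : ¬ p ∣ m) : NoOrdInKer p m := by
  intro A hA M hM hle
  obtain ⟨g, hg⟩ := Period.exists_bottom_row (m : ℤ) (p : ℤ)
    (Nat.Coprime.isCoprime ((Fact.out : p.Prime).coprime_iff_not_dvd.mpr hpm).symm)
  have h2m : ¬ p ∣ 2 * m := fun h => ((Fact.out : p.Prime).dvd_mul.mp h).elim
    (fun h2 => hp2 ((Nat.prime_dvd_prime_iff_eq Fact.out Nat.prime_two).mp h2)) hpm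
  obtain ⟨m', inst, hdvd, hpm', hcharts⟩ :=
    hasSemiModel (m₀ := 2 * m) Fact.out hA (Nat.pos_of_ne_zero (NeZero.ne _)) h2m
  haveI := inst
  haveI : NeZero m' := ⟨fun h => NeZero.ne (p * m') (by rw [h, mul_zero])⟩
  obtain ⟨g', hg'⟩ := Period.exists_bottom_row (m' : ℤ) (p : ℤ)
    (Nat.Coprime.isCoprime ((Fact.out : p.Prime).coprime_iff_not_dvd.mpr hpm').symm)
  have S : OrdSetup A p m m' g g' := ⟨hA, hg, hg', hp2, hpm, hpm',
    (dvd_mul_left m 2).trans hdvd, (dvd_mul_right 2 m).trans hdvd, hcharts⟩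
  obtain ⟨s, hsI, hω⟩ := exists_inertia_cyc_ne_one hp2 hA
  obtain ⟨X, Y, hXY⟩ := hM.exchange s hsI hω
  have hE : ∀ x ∈ M, IsExch A s X Y x := fun x hx => isExch_of_mem hM hsI hω hXY hx
  obtain ⟨-, hfixed⟩ := S.eq_zero_of_fixed hM hle hsI hω hE
  refine (AddSubgroup.eq_bot_iff_forall _).mpr fun x hx => ?_
  set d := Gl[p * m] s x - x with hd
  have hdM : d ∈ M := sub_mem (hM.stable s x hx) hx
  have hdω : Gl[p * m] s d = omegaNat (p := p) s • d := hM.quad s hsI s hsI x hx
  obtain ⟨hY1, hY2⟩ := (hXY d hdM).2 hdω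
  have hY0 := hfixed _ (ringAct_mem_of_stable hM.stable Y hdM) hY1
  rw [hY0, map_zero] at hY2
  exact hfixed x hx (sub_eq_zero.mp hY2.symm)

end Fermat.Agent.GalRep.Ordinary
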